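/-
DS-T / [G1] generic-Γ layer (leaf L1, helper15): weakly holomorphic modular functions for an
ARBITRARY subgroup `Γ ≤ SL(2,ℤ)` (twin of `S24/WeakModFun.lean`, whose `IsWeakModFun N` is the case
`Γ = Γ₀(N)`): holomorphic, `Γ`-invariant, all `SL(2,ℤ)`-translates with at most a pole at `i∞`.
-/
import Mathlib
import Fermat.Agent.S24.WeakModFun

set_option autoImplicit false

open UpperHalfPlane ModularForm Filter Topology Function Complex CongruenceSubgroup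
open scoped MatrixGroups Manifold Real

namespace Fermat.Agent.DS

open Fermat.Agent.S24

/-- holomorphic `Γ`-invariant functions on `ℍ` all of whose `SL(2,ℤ)`-translates have at most a
pole at `i∞` -/
structure g1g_IsWeakModFun (Γ : Subgroup SL(2, ℤ)) (h : ℍ → ℂ) : Prop where
  mdiff : MDiff h
  inv : ∀ γ ∈ Γ, ∀ z : ℍ, h (γ • z) = h z
  growth : ∀ γ : SL(2, ℤ), ∃ m : ℕ, IsBoundedAtImInfty (qH ^ m * fun z => h (γ • z))

namespace g1g_IsWeakModFun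

variable {Γ Γ' : Subgroup SL(2, ℤ)} {f g : ℍ → ℂ}

theorem const (Γ : Subgroup SL(2, ℤ)) (c : ℂ) : g1g_IsWeakModFun Γ (fun _ => c) :=
  ⟨mdifferentiable_const, fun _ _ _ => rfl, fun _ => ⟨0, by
    have h : (qH ^ 0 * fun _ : ℍ => c) = Function.const ℍ c := by ext z; simp
    rw [h]
    exact Filter.const_boundedAtFilter atImInfty c⟩⟩

theorem add (hf : g1g_IsWeakModFun Γ f) (hg : g1g_IsWeakModFun Γ g) :
    g1g_IsWeakModFun Γ (f + g) := by
  refine ⟨hf.mdiff.add hg.mdiff, fun γ hγ z => by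
    show f (γ • z) + g (γ • z) = f z + g z
    rw [hf.inv γ hγ z, hg.inv γ hγ z], fun γ => ?_⟩
  obtain ⟨m₁, h₁⟩ := hf.growth γ
  obtain ⟨m₂, h₂⟩ := hg.growth γ
  refine ⟨max m₁ m₂, ?_⟩
  have e : (qH ^ max m₁ m₂ * fun z => (f + g) (γ • z)) =
      qH ^ max m₁ m₂ * (fun z => f (γ • z)) + qH ^ max m₁ m₂ * (fun z => g (γ • z)) := by
    ext z; simp [mul_add]
  rw [e]
  exact (isBoundedAtImInfty_qH_pow_mul_of_le (le_max_left _ _) h₁).add
    (isBoundedAtImInfty_qH_pow_mul_of_le (le_max_right _ _) h₂)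

theorem mul (hf : g1g_IsWeakModFun Γ f) (hg : g1g_IsWeakModFun Γ g) :
    g1g_IsWeakModFun Γ (f * g) := by
  refine ⟨hf.mdiff.mul hg.mdiff, fun γ hγ z => by
    show f (γ • z) * g (γ • z) = f z * g z
    rw [hf.inv γ hγ z, hg.inv γ hγ z], fun γ => ?_⟩
  obtain ⟨m₁, h₁⟩ := hf.growth γ
  obtain ⟨m₂, h₂⟩ := hg.growth γ
  refine ⟨m₁ + m₂, ?_⟩
  have e : (qH ^ (m₁ + m₂) * fun z => (f * g) (γ • z)) =
      (qH ^ m₁ * fun z => f (γ • z)) * (qH ^ m₂ * fun z => g (γ • z)) := by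
    ext z; simp [pow_add]; ring
  rw [e]
  exact h₁.mul h₂

theorem smul (c : ℂ) (hf : g1g_IsWeakModFun Γ f) : g1g_IsWeakModFun Γ (c • f) := by
  have : c • f = (fun _ => c) * f := by ext z; simp
  rw [this]
  exact (const Γ c).mul hf

theorem neg (hf : g1g_IsWeakModFun Γ f) : g1g_IsWeakModFun Γ (-f) := by
  have : -f = (-1 : ℂ) • f := by simp
  rw [this]; exact hf.smul _

theorem sub (hf : g1g_IsWeakModFun Γ f) (hg : g1g_IsWeakModFun Γ g) :
    g1g_IsWeakModFun Γ (f - g) := by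
  rw [sub_eq_add_neg]; exact hf.add hg.neg

theorem pow (hf : g1g_IsWeakModFun Γ f) (n : ℕ) : g1g_IsWeakModFun Γ (f ^ n) := by
  induction n with
  | zero => rw [pow_zero]; exact const Γ 1
  | succ n ih => rw [pow_succ]; exact ih.mul hf

/-- a `Γ`-weak modular function is `Γ'`-weak modular for every `Γ' ≤ Γ` -/
theorem mono (hΓ : Γ' ≤ Γ) (hf : g1g_IsWeakModFun Γ f) : g1g_IsWeakModFun Γ' f :=
  ⟨hf.mdiff, fun γ hγ z => hf.inv γ (hΓ hγ) z, hf.growth⟩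

/-- a translate `z ↦ f (σ • z)` by an element `σ` normalising `Γ` is again `Γ`-weak modular
(diamond operators: `Γ = Γ₁(M)`, `σ ∈ Γ₀(M)`) -/
theorem comp_smul (hf : g1g_IsWeakModFun Γ f) (σ : SL(2, ℤ))
    (hσ : ∀ γ ∈ Γ, σ * γ * σ⁻¹ ∈ Γ) : g1g_IsWeakModFun Γ (fun z => f (σ • z)) := by
  refine ⟨?_, fun γ hγ z => ?_, fun γ => ?_⟩
  · have h1 : MDiff (fun τ : ℍ => (Matrix.SpecialLinearGroup.mapGL ℝ σ) • τ) :=
      mdifferentiable_smul (by simp)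
    exact hf.mdiff.comp h1
  · have h1 : σ • (γ • z) = (σ * γ * σ⁻¹) • (σ • z) := by
      simp only [mul_smul, inv_smul_smul]
    show f (σ • (γ • z)) = f (σ • z)
    rw [h1, hf.inv _ (hσ γ hγ)]
  · obtain ⟨m, hm⟩ := hf.growth (σ * γ)
    refine ⟨m, ?_⟩
    have e : (fun z => (fun z => f (σ • z)) (γ • z)) = fun z => f ((σ * γ) • z) := by
      ext z
      simp only [mul_smul]
    rw [e]
    exact hm

end g1g_IsWeakModFun

/-- the `Γ₀(N)` case is `S24.IsWeakModFun N` -/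
theorem g1g_isWeakModFun_Gamma0_iff {N : ℕ} {h : ℍ → ℂ} :
    g1g_IsWeakModFun (Gamma0 N) h ↔ IsWeakModFun N h :=
  ⟨fun hh => ⟨hh.mdiff, hh.inv, hh.growth⟩, fun hh => ⟨hh.mdiff, hh.inv, hh.growth⟩⟩

/-- `j(d z)`, `d ∣ N`, is `Γ`-weak modular for every `Γ ≤ Γ₀(N)` -/
theorem g1g_isWeakModFun_jd {Γ : Subgroup SL(2, ℤ)} {N d : ℕ} [NeZero d] (hdN : d ∣ N)
    (hΓ : Γ ≤ Gamma0 N) : g1g_IsWeakModFun Γ (jd d) :=
  (g1g_isWeakModFun_Gamma0_iff.mpr (IsWeakModFun.jd hdN)).mono hΓ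

/-- `j` is `Γ`-weak modular for every `Γ` -/
theorem g1g_isWeakModFun_kleinJ (Γ : Subgroup SL(2, ℤ)) : g1g_IsWeakModFun Γ kleinJ := by
  have h := g1g_isWeakModFun_jd (Γ := Γ) (N := 1) (d := 1) (dvd_refl 1) (fun γ _ => by
    rw [Gamma0_mem]
    exact Subsingleton.elim _ _)
  rwa [jd_one] at h

/-- the subalgebra of weakly holomorphic modular functions for `Γ` -/
def g1g_weakModFunSubalgebra (Γ : Subgroup SL(2, ℤ)) : Subalgebra ℂ (ℍ → ℂ) where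
  carrier := {h | g1g_IsWeakModFun Γ h}
  mul_mem' := g1g_IsWeakModFun.mul
  add_mem' := g1g_IsWeakModFun.add
  algebraMap_mem' c := g1g_IsWeakModFun.const Γ c

theorem g1g_mem_weakModFunSubalgebra {Γ : Subgroup SL(2, ℤ)} {h : ℍ → ℂ} :
    h ∈ g1g_weakModFunSubalgebra Γ ↔ g1g_IsWeakModFun Γ h := Iff.rfl

end Fermat.Agent.DS
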