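/-
DS-T / [G1] generic-Γ layer (leaf L1, helper15): cusp periodicity and cusp admissibility for an
ARBITRARY subgroup `Γ ≤ SL(2,ℤ)` with a UNIFORM cusp period `w`
(`hper : ∀ g, g * T ^ w * g⁻¹ ∈ Γ`; true with `w = M` for every `Γ ⊇ Γ(M)`, e.g. `Γ₁(M)`, `±Γ₁(M)`,
`Γ₀(M)`).  Twins of the `Γ₀(N)`-specific ends of `S24/Germ/Cusp.lean` (`gm_periodic_comp_smul`,
`gm_isMerCusp_comp_smul`) and of `S24/FamilyInfty.lean` (`fi_periodic`, `fi_adm`); everything else
in those two files (`gm_IsMerCusp w`, `gm_cusp w`, `fi_P w`, `fi_germ w`, `fi_isGerm w`, `fi_zeta w`,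
`fi_twist w`) is already `Γ`-free and is used as it is, with the period `w` in place of `N`.
-/
import Mathlib
import Fermat.Agent.S24.FamilyInfty
import Fermat.Agent.S24.Germ.Cusp
import Fermat.Agent.DS.Gam1.Gen.WeakModFun

set_option autoImplicit false

open UpperHalfPlane ModularForm Filter Topology Function Complex CongruenceSubgroup
open scoped MatrixGroups Manifold Real
open Fermat.Agent.S23 (alphaN)
open Fermat.Agent.S24.Br

namespace Fermat.Agent.DS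

open Fermat.Agent.S24

/-- **uniform cusp period**: every conjugate of `T ^ w` lies in `Γ` -/
def g1g_IsCuspPeriod (Γ : Subgroup SL(2, ℤ)) (w : ℕ) : Prop :=
  ∀ g : SL(2, ℤ), g * ModularGroup.T ^ (w : ℤ) * g⁻¹ ∈ Γ

/-- `M` is a uniform cusp period of every `Γ ⊇ Γ(M)` -/
theorem g1g_isCuspPeriod_of_Gamma_le {Γ : Subgroup SL(2, ℤ)} {M : ℕ}
    (hΓ : CongruenceSubgroup.Gamma M ≤ Γ) : g1g_IsCuspPeriod Γ M := by
  intro g
  have hT : ModularGroup.T ^ (M : ℤ) ∈ CongruenceSubgroup.Gamma M := by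
    have := ModularGroup_T_pow_mem_Gamma (M : ℤ) (M : ℤ) (dvd_refl _)
    simpa using this
  exact hΓ ((Gamma_normal M).conj_mem _ hT g)

theorem g1g_isCuspPeriod_Gamma0 (N : ℕ) : g1g_IsCuspPeriod (Gamma0 N) N := by
  intro g
  exact gm_conj_T_pow_mem_Gamma0 g

theorem g1g_IsCuspPeriod.mono {Γ Γ' : Subgroup SL(2, ℤ)} {w : ℕ} (h : g1g_IsCuspPeriod Γ w)
    (hΓ : Γ ≤ Γ') : g1g_IsCuspPeriod Γ' w := fun g => hΓ (h g)

/-- a multiple of a uniform cusp period is a uniform cusp period -/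
theorem g1g_IsCuspPeriod.mul_right {Γ : Subgroup SL(2, ℤ)} {w : ℕ} (h : g1g_IsCuspPeriod Γ w)
    (k : ℕ) : g1g_IsCuspPeriod Γ (w * k) := by
  intro g
  have h1 : g * ModularGroup.T ^ ((w * k : ℕ) : ℤ) * g⁻¹ =
      (g * ModularGroup.T ^ (w : ℤ) * g⁻¹) ^ k := by
    rw [conj_pow, ← zpow_natCast (ModularGroup.T ^ (w : ℤ)) k, ← zpow_mul]
    push_cast
    rfl
  rw [h1]
  exact pow_mem (h g) k

variable {Γ : Subgroup SL(2, ℤ)} {w : ℕ}

/-- if `h` is `Γ`-invariant then every `SL₂(ℤ)`-translate of `h` is `w`-periodic -/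
theorem g1g_periodic_comp_smul (hper : g1g_IsCuspPeriod Γ w) {h : ℍ → ℂ}
    (hinv : ∀ g ∈ Γ, ∀ z : ℍ, h (g • z) = h z) (γ : SL(2, ℤ)) (z : ℍ) :
    h (γ • ((w : ℝ) +ᵥ z)) = h (γ • z) := by
  have h1 : ((w : ℝ) +ᵥ z) = ModularGroup.T ^ (w : ℤ) • z := by
    rw [modular_T_zpow_smul]
    simp
  have h2 : γ • (ModularGroup.T ^ (w : ℤ) • z)
      = (γ * ModularGroup.T ^ (w : ℤ) * γ⁻¹) • (γ • z) := by
    simp only [mul_smul, inv_smul_smul]
  rw [h1, h2, hinv _ (hper γ)]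

/-- translates of `Γ`-invariant holomorphic functions with at most poles at the cusps are
`gm_IsMerCusp w` -/
theorem g1g_isMerCusp_comp_smul (hper : g1g_IsCuspPeriod Γ w) {h : ℍ → ℂ} (hh : MDiff h)
    (hinv : ∀ g ∈ Γ, ∀ z : ℍ, h (g • z) = h z) (γ : SL(2, ℤ))
    (hmer : ∃ m : ℕ, IsBoundedAtImInfty (qH ^ m * fun z => h (γ • z))) :
    gm_IsMerCusp w (fun z => h (γ • z)) :=
  ⟨by
    have h1 : MDiff (fun τ : ℍ => (Matrix.SpecialLinearGroup.mapGL ℝ γ) • τ) :=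
      mdifferentiable_smul (by simp)
    exact hh.comp h1, fun z => g1g_periodic_comp_smul hper hinv γ z, hmer⟩

theorem g1g_IsWeakModFun.isMerCusp (hper : g1g_IsCuspPeriod Γ w) {h : ℍ → ℂ}
    (hh : g1g_IsWeakModFun Γ h) (γ : SL(2, ℤ)) : gm_IsMerCusp w (fun z => h (γ • z)) :=
  g1g_isMerCusp_comp_smul hper hh.mdiff hh.inv γ (hh.growth γ)

/-- **translates of `Γ`-weak modular functions are admissible at the cusps** (twin of `fi_adm`) -/
theorem g1g_fi_adm [NeZero w] (hper : g1g_IsCuspPeriod Γ w) {h : ℍ → ℂ}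
    (hh : g1g_IsWeakModFun Γ h) (g : SL(2, ℤ)) : fi_P w (fun z => h (g • z)) := by
  obtain ⟨m, hm⟩ := hh.growth g
  have hmd : MDiff (fun z => h (g • z)) := by
    have := hh.mdiff.comp (UpperHalfPlane.mdifferentiable_smul
      (g := (Matrix.SpecialLinearGroup.mapGL ℝ g)) (by simp))
    exact this
  refine ⟨w * m, ?_⟩
  have e : (qH ^ (w * m) * fun τ => h (g • (alphaN w • τ))) =
      fun τ => (fun z => qH z ^ m * h (g • z)) (alphaN w • τ) := by
    ext τ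
    simp only [Pi.mul_apply, Pi.pow_apply, br_qH_alphaN_smul, pow_mul]
  rw [e]
  refine ⟨?_, ?_, ?_⟩
  · exact ((qH_mdiff.pow m).mul hmd).comp
      (UpperHalfPlane.mdifferentiable_smul (Fermat.Agent.S23.det_alphaN_pos w))
  · apply gm_periodic_of_vadd
    intro τ
    simp only
    rw [fi_alphaN_vadd, mul_one, gm_qH_vadd, g1g_periodic_comp_smul hper hh.inv g]
    have : cexp (2 * π * Complex.I * ((w : ℝ) : ℂ)) = 1 := by
      have h1 := Complex.exp_nat_mul_two_pi_mul_I w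
      rw [← h1]
      congr 1
      push_cast
      ring
    rw [this, one_mul]
  · exact hm.comp_tendsto (tendsto_atImInfty_of_im_eq
      (by exact_mod_cast Nat.pos_of_ne_zero (NeZero.ne w)) (br_im_alphaN_smul w))

end Fermat.Agent.DS
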