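/-
DS-T / cell [G1] (X₁(M): function field, places ↔ orbits, gateway), generic layer.

The family of germ embeddings `φ_{gΓ} : F → ℂ((s))` of S24 (`S24/Family.lean`, written there for
`Γ₀(N)`), for an ARBITRARY subgroup `Γ ≤ SL(2, ℤ)`.  The separating element `jN` of the `Γ₀(N)`
version is replaced by the hypothesis `sep`: an element of `SL(2, ℤ)` leaving all the realised
functions invariant lies in `Γ`.  The germ maps (`fam_IsGerm`), the coefficient twist (`fam_twist`)
are those of S24.  Prefix `g1g_`.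
-/
import Mathlib
import Fermat.Agent.S24.Family

set_option autoImplicit false

open UpperHalfPlane
open scoped MatrixGroups

namespace Fermat.Agent.DS

open Fermat.Agent.S24

/-- an analytic realisation of a `K`-algebra `A` by `Γ`-invariant functions on `ℍ`, all of whose
`SL(2,ℤ)`-translates are admissible, and whose invariance group is exactly `Γ`. -/
structure g1g_IsRealisation {K A : Type*} [Field K] [CommRing A] [Algebra K A] [Algebra K ℂ]
    (Γ : Subgroup SL(2, ℤ)) (P : (ℍ → ℂ) → Prop) (an : A →+* (ℍ → ℂ)) : Prop where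
  const : ∀ c : K, an (algebraMap K A c) = fun _ => algebraMap K ℂ c
  inj : Function.Injective an
  inv : ∀ a, ∀ γ ∈ Γ, ∀ z, an a (γ • z) = an a z
  adm : ∀ a (g : SL(2, ℤ)), P (fun z => an a (g • z))
  sep : ∀ g : SL(2, ℤ), (∀ a z, an a (g • z) = an a z) → g ∈ Γ

section Family

set_option linter.unusedSectionVars false

variable {K F A : Type*} [Field K] [Field F] [Algebra K F] [CommRing A] [IsDomain A] [Algebra K A]
  [Algebra A F] [IsScalarTower K A F] [IsFractionRing A F] [Algebra K ℂ]
variable {Γ : Subgroup SL(2, ℤ)} {P : (ℍ → ℂ) → Prop} {germ : (ℍ → ℂ) → LaurentSeries ℂ}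
  {an : A →+* (ℍ → ℂ)}

/-- `a ↦ germ (an a ∘ g⁻¹)` as a ring homomorphism on `A` -/
noncomputable def g1g_ringHomA (hG : fam_IsGerm P germ) (hR : g1g_IsRealisation (K := K) Γ P an)
    (g : SL(2, ℤ)) : A →+* LaurentSeries ℂ where
  toFun a := germ (fun z => an a (g⁻¹ • z))
  map_one' := by
    rw [map_one]
    exact (hG.const 1).trans (map_one _)
  map_mul' a b := by
    rw [map_mul]
    exact hG.mul _ _ (hR.adm a g⁻¹) (hR.adm b g⁻¹)
  map_zero' := by
    rw [map_zero]
    exact (hG.const 0).trans (map_zero _)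
  map_add' a b := by
    rw [map_add]
    exact hG.add _ _ (hR.adm a g⁻¹) (hR.adm b g⁻¹)

theorem g1g_ringHomA_apply (hG : fam_IsGerm P germ) (hR : g1g_IsRealisation (K := K) Γ P an)
    (g : SL(2, ℤ)) (a : A) : g1g_ringHomA hG hR g a = germ (fun z => an a (g⁻¹ • z)) := rfl

theorem g1g_ringHomA_injective (hG : fam_IsGerm P germ)
    (hR : g1g_IsRealisation (K := K) Γ P an) (g : SL(2, ℤ)) :
    Function.Injective (g1g_ringHomA hG hR g) := by
  rw [injective_iff_map_eq_zero]
  intro a ha
  rw [g1g_ringHomA_apply] at ha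
  have h0 : P (fun _ : ℍ => (0 : ℂ)) := by
    have := hR.adm 0 1
    simpa using this
  have h1 : germ (fun _ : ℍ => (0 : ℂ)) = 0 := (hG.const 0).trans (map_zero _)
  have h2 := hG.inj _ _ (hR.adm a g⁻¹) h0 (ha.trans h1.symm)
  apply hR.inj
  rw [map_zero]
  ext z
  have h3 := congrFun h2 (g • z)
  simpa using h3

/-- the embedding `F → ℂ((s))` attached to `g : SL(2,ℤ)` -/
noncomputable def g1g_phi0 (hG : fam_IsGerm P germ) (hR : g1g_IsRealisation (K := K) Γ P an)
    (g : SL(2, ℤ)) : F →ₐ[K] LaurentSeries ℂ :=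
  { IsFractionRing.lift (g1g_ringHomA_injective hG hR g) with
    commutes' := fun c => by
      show IsFractionRing.lift (g1g_ringHomA_injective hG hR g) (algebraMap K F c) = _
      rw [IsScalarTower.algebraMap_apply K A F, IsFractionRing.lift_algebraMap,
        g1g_ringHomA_apply, hR.const c, HahnSeries.algebraMap_apply', PowerSeries.algebraMap_apply,
        HahnSeries.ofPowerSeries_C]
      exact hG.const _ }

theorem g1g_phi0_algebraMap (hG : fam_IsGerm P germ) (hR : g1g_IsRealisation (K := K) Γ P an)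
    (g : SL(2, ℤ)) (a : A) :
    g1g_phi0 (F := F) hG hR g (algebraMap A F a) = germ (fun z => an a (g⁻¹ • z)) :=
  IsFractionRing.lift_algebraMap (g1g_ringHomA_injective hG hR g) a

theorem g1g_phi0_mul_of_mem (hG : fam_IsGerm P germ) (hR : g1g_IsRealisation (K := K) Γ P an)
    (g γ : SL(2, ℤ)) (hγ : γ ∈ Γ) :
    g1g_phi0 (F := F) hG hR (g * γ) = g1g_phi0 hG hR g := by
  refine fam_algHom_ext (A := A) fun a => ?_
  rw [g1g_phi0_algebraMap, g1g_phi0_algebraMap]
  congr 1
  ext z
  rw [mul_inv_rev, mul_smul]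
  exact hR.inv a γ⁻¹ (inv_mem hγ) _

/-- **the family of embeddings** indexed by the cosets `gΓ` -/
noncomputable def g1g_phi (hG : fam_IsGerm P germ) (hR : g1g_IsRealisation (K := K) Γ P an)
    (x : SL(2, ℤ) ⧸ Γ) : F →ₐ[K] LaurentSeries ℂ :=
  Quotient.liftOn' x (g1g_phi0 hG hR) fun g g' h => by
    have h' : g⁻¹ * g' ∈ Γ := QuotientGroup.leftRel_apply.mp h
    have : g' = g * (g⁻¹ * g') := by group
    rw [this]
    exact (g1g_phi0_mul_of_mem hG hR g _ h').symm

theorem g1g_phi_mk (hG : fam_IsGerm P germ) (hR : g1g_IsRealisation (K := K) Γ P an)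
    (g : SL(2, ℤ)) : g1g_phi (F := F) hG hR (g : SL(2, ℤ) ⧸ Γ) = g1g_phi0 hG hR g := rfl

theorem g1g_phi_mk_algebraMap (hG : fam_IsGerm P germ)
    (hR : g1g_IsRealisation (K := K) Γ P an) (g : SL(2, ℤ)) (a : A) :
    g1g_phi (F := F) hG hR (g : SL(2, ℤ) ⧸ Γ) (algebraMap A F a) =
      germ (fun z => an a (g⁻¹ • z)) :=
  g1g_phi0_algebraMap hG hR g a

/-- on elements realised by `SL(2,ℤ)`-invariant functions all the embeddings agree -/
theorem g1g_phi_of_invariant (hG : fam_IsGerm P germ) (hR : g1g_IsRealisation (K := K) Γ P an)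
    (a : A) (ha : ∀ (g : SL(2, ℤ)) z, an a (g • z) = an a z) (x : SL(2, ℤ) ⧸ Γ) :
    g1g_phi (F := F) hG hR x (algebraMap A F a) = germ (an a) := by
  induction x using Quotient.inductionOn' with
  | h g =>
    show g1g_phi0 hG hR g (algebraMap A F a) = _
    rw [g1g_phi0_algebraMap]
    congr 1
    ext z
    exact ha g⁻¹ z

/-- **the embeddings attached to distinct cosets are distinct** -/
theorem g1g_phi_injective (hG : fam_IsGerm P germ) (hR : g1g_IsRealisation (K := K) Γ P an) :
    Function.Injective (g1g_phi (F := F) hG hR) := by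
  intro x y
  induction x using Quotient.inductionOn' with
  | h g =>
  induction y using Quotient.inductionOn' with
  | h g' =>
    intro h
    have h1 : ∀ a : A, (fun z => an a (g⁻¹ • z)) = fun z => an a (g'⁻¹ • z) := by
      intro a
      have h2 : g1g_phi0 (F := F) hG hR g (algebraMap A F a) =
          g1g_phi0 (F := F) hG hR g' (algebraMap A F a) :=
        congrArg (fun φ => φ (algebraMap A F a)) h
      rw [g1g_phi0_algebraMap, g1g_phi0_algebraMap] at h2
      exact hG.inj _ _ (hR.adm a g⁻¹) (hR.adm a g'⁻¹) h2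
    have h3 : g⁻¹ * g' ∈ Γ := by
      apply hR.sep
      intro a z
      have := congrFun (h1 a) (g' • z)
      rw [← mul_smul, ← mul_smul, inv_mul_cancel, one_smul] at this
      exact this
    exact QuotientGroup.eq.mpr h3

/-- **rotation**: if precomposition with `σ` twists the germs by `l`, then passing from the
coset `x` to `σ⁻¹ • x` twists the embedding by `l`. -/
theorem g1g_phi_twist (hG : fam_IsGerm P germ) (hR : g1g_IsRealisation (K := K) Γ P an)
    (σ : SL(2, ℤ)) (l : ℂ) (hl : l ≠ 0)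
    (htw : ∀ h, P h → ∀ i : ℤ, (germ (fun z => h (σ • z))).coeff i = l ^ i * (germ h).coeff i)
    (x : SL(2, ℤ) ⧸ Γ) (f : F) (i : ℤ) :
    (g1g_phi (F := F) hG hR (σ⁻¹ • x) f).coeff i = l ^ i * (g1g_phi (F := F) hG hR x f).coeff i := by
  induction x using Quotient.inductionOn' with
  | h g =>
    have key : (g1g_phi0 (F := F) hG hR (σ⁻¹ * g) : F →+* LaurentSeries ℂ) =
        (fam_twist l hl).comp (g1g_phi0 (F := F) hG hR g : F →+* LaurentSeries ℂ) := by
      refine IsLocalization.ringHom_ext (nonZeroDivisors A) (RingHom.ext fun a => ?_)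
      simp only [RingHom.comp_apply, AlgHom.coe_toRingHom]
      rw [g1g_phi0_algebraMap, g1g_phi0_algebraMap]
      ext n
      rw [fam_twist_coeff, ← htw _ (hR.adm a g⁻¹) n]
      congr 2
      ext z
      rw [mul_inv_rev, inv_inv, mul_smul]
    have h1 := congrArg (fun ψ : F →+* LaurentSeries ℂ => (ψ f).coeff i) key
    exact h1

end Family

end Fermat.Agent.DS
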