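/-
DS-T / cell [G1], generic layer: the abstract analytic context of the gateway for an ARBITRARY
subgroup `Γ` with `-1 ∈ Γ` and `Γ(M) ≤ Γ` (port of `gw_Ctx` of `JT3/Gateway/Defs.lean`, written
there for `Γ₀(N)`).

* `g1g_Ctx M Γ K F A`: a function field `F/K` (`K ⊆ ℂ`), a `K`-algebra `A` with `Frac A = F`, and an
  analytic realisation `an : A →+* (ℍ → ℂ)` of `A` by `Γ`-invariant holomorphic functions on the
  upper half plane, all of whose `SL(2,ℤ)`-translates are meromorphic at `∞` in `e^{2πiz/M}`, and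
  which separate the cosets of `Γ` (`sep`).
* `g1g_HasChar C n f χ`: for some `b ≠ 0` in `A`, `f · bⁿ ∈ A` has a holomorphic `n`-th root on `ℍ`
  with multiplier `χ : Γ →* ℂˣ`.
* `gw_IsDiv K n f` (the divisor of `f` is divisible by `n`) is reused from JT3 unchanged.
Prefix `g1g_`.
-/
import Mathlib
import Fermat.Agent.JT3.Gateway.Defs
import Fermat.Agent.DS.Gam1.Gen.Family
import Fermat.Agent.DS.Gam1.Gen.WeakModFun
import Fermat.Agent.DS.Gam1.Gen.CuspPeriod

set_option autoImplicit false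

open UpperHalfPlane CongruenceSubgroup
open scoped MatrixGroups Manifold

namespace Fermat.Agent.DS

open Fermat.Agent.S24 Fermat.Agent.JT3 AlgebraicCurve

/-- an abstract analytic context for the group `Γ ⊇ ±Γ(M)` -/
structure g1g_Ctx (M : ℕ) [NeZero M] (Γ : Subgroup SL(2, ℤ)) (K F A : Type) [Field K]
    [Algebra K ℂ] [Field F] [Algebra K F] [CommRing A] [IsDomain A] [Algebra K A] [Algebra A F]
    [IsScalarTower K A F] [IsFractionRing A F] where
  /-- the analytic realisation -/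
  an : A →+* (ℍ → ℂ)
  /-- `-1 ∈ Γ` -/
  neg_one_mem : (-1 : SL(2, ℤ)) ∈ Γ
  /-- `Γ` is a congruence subgroup of level `M` -/
  gamma_le : CongruenceSubgroup.Gamma M ≤ Γ
  /-- admissibility at the points of `ℍ` -/
  fin : g1g_IsRealisation (K := K) Γ (fun h => MDiff h) an
  /-- admissibility at the cusps -/
  inf : g1g_IsRealisation (K := K) Γ (fi_P M) an

section ctx

variable {M : ℕ} [NeZero M] {Γ : Subgroup SL(2, ℤ)} {K F A : Type} [Field K] [Algebra K ℂ]
  [Field F] [Algebra K F] [CommRing A] [IsDomain A] [Algebra K A] [Algebra A F]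
  [IsScalarTower K A F] [IsFractionRing A F]

namespace g1g_Ctx

variable (C : g1g_Ctx M Γ K F A)

theorem an_const (c : K) : C.an (algebraMap K A c) = fun _ => algebraMap K ℂ c := C.fin.const c

theorem an_injective : Function.Injective C.an := C.fin.inj

theorem an_inv (a : A) (γ : SL(2, ℤ)) (hγ : γ ∈ Γ) (z : ℍ) : C.an a (γ • z) = C.an a z :=
  C.fin.inv a γ hγ z

theorem an_mdiff (a : A) : MDiff (C.an a) := by
  have h := C.fin.adm a 1
  simpa using h

theorem an_mdiff_smul (a : A) (g : SL(2, ℤ)) : MDiff (fun z => C.an a (g • z)) := C.fin.adm a g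

theorem an_merCusp (a : A) (g : SL(2, ℤ)) : fi_P M (fun z => C.an a (g • z)) := C.inf.adm a g

theorem an_sep (g : SL(2, ℤ)) (hg : ∀ a z, C.an a (g • z) = C.an a z) : g ∈ Γ := C.fin.sep g hg

theorem an_ne_zero {a : A} (ha : a ≠ 0) : C.an a ≠ 0 := by
  intro h
  exact ha (C.an_injective (h.trans (map_zero C.an).symm))

include C in
/-- the conjugates of `T^M` lie in `Γ` -/
theorem conj_T_pow_mem (g : SL(2, ℤ)) : g * ModularGroup.T ^ (M : ℤ) * g⁻¹ ∈ Γ :=
  g1g_isCuspPeriod_of_Gamma_le C.gamma_le g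

/-- `an a ∘ g` is `M`-periodic -/
theorem an_periodic (a : A) (g : SL(2, ℤ)) (z : ℍ) :
    C.an a (g • ((M : ℝ) +ᵥ z)) = C.an a (g • z) :=
  g1g_periodic_comp_smul (g1g_isCuspPeriod_of_Gamma_le C.gamma_le) (C.fin.inv a) g z

end g1g_Ctx

/-- translates of weak modular functions are holomorphic -/
theorem g1g_ff_adm {h : ℍ → ℂ} (hh : g1g_IsWeakModFun Γ h) (g : SL(2, ℤ)) :
    MDiff (fun z => h (g • z)) :=
  hh.mdiff.comp (UpperHalfPlane.mdifferentiable_smul
    (g := (Matrix.SpecialLinearGroup.mapGL ℝ g)) (by simp))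

/-- **a context from weakly modular functions**: if `an` is injective, `K`-linear on constants, takes
values in the weakly holomorphic modular functions for `Γ`, and separates the cosets of `Γ`, then it
is a context. -/
def g1g_Ctx.ofWeak (hneg : (-1 : SL(2, ℤ)) ∈ Γ) (hΓ : CongruenceSubgroup.Gamma M ≤ Γ)
    (an : A →+* (ℍ → ℂ)) (hconst : ∀ c : K, an (algebraMap K A c) = fun _ => algebraMap K ℂ c)
    (hinj : Function.Injective an) (hweak : ∀ a, g1g_IsWeakModFun Γ (an a))
    (hsep : ∀ g : SL(2, ℤ), (∀ a z, an a (g • z) = an a z) → g ∈ Γ) : g1g_Ctx M Γ K F A where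
  an := an
  neg_one_mem := hneg
  gamma_le := hΓ
  fin := ⟨hconst, hinj, fun a => (hweak a).inv, fun a g => g1g_ff_adm (hweak a) g, hsep⟩
  inf := ⟨hconst, hinj, fun a => (hweak a).inv, fun a g => g1g_fi_adm (g1g_isCuspPeriod_of_Gamma_le hΓ) (hweak a) g, hsep⟩

/-- **the character of an `n`-divisible function**: `f · bⁿ ∈ A` has a holomorphic `n`-th root on
`ℍ` with multiplier `χ` -/
def g1g_HasChar (C : g1g_Ctx M Γ K F A) (n : ℕ) (f : F) (χ : ↥Γ →* ℂˣ) : Prop :=
  ∃ (a b : A) (h : ℍ → ℂ), b ≠ 0 ∧ algebraMap A F a = f * algebraMap A F b ^ n ∧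
    MDiff h ∧ h ≠ 0 ∧ (∀ z, h z ^ n = C.an a z) ∧
    ∀ (γ : ↥Γ) (z : ℍ), h ((γ : SL(2, ℤ)) • z) = (χ γ : ℂ) * h z

omit [IsDomain A] in
/-- a realisation for `Γ₀(N)` in the sense of S24 is a realisation in the generic sense -/
theorem g1g_isRealisation_of_fam {N : ℕ} [NeZero N] {P : (ℍ → ℂ) → Prop} {an : A →+* (ℍ → ℂ)}
    {jN : A} (h : fam_IsRealisation (K := K) N P an jN) :
    g1g_IsRealisation (K := K) (Gamma0 N) P an :=
  ⟨h.const, h.inj, h.inv, h.adm, fun g hg => by
    refine mem_Gamma0_of_jd_smul_eq N g fun z => ?_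
    have := hg jN z
    rwa [h.jN] at this⟩

/-- the `Γ₀(N)` context of JT3 is an instance -/
def g1g_Ctx.ofGw {N : ℕ} [NeZero N] (C : gw_Ctx N K F A) : g1g_Ctx N (Gamma0 N) K F A where
  an := C.an
  neg_one_mem := by
    rw [Gamma0_mem]
    simp
  gamma_le := by
    intro γ hγ
    rw [Gamma_mem] at hγ
    rw [Gamma0_mem]
    exact hγ.2.2.1
  fin := g1g_isRealisation_of_fam C.fin
  inf := g1g_isRealisation_of_fam C.inf

end ctx

end Fermat.Agent.DS
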