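import Mathlib
import Fermat.Agent.JT3.Gateway.LocalAn
import Fermat.Agent.JT3.Gateway.LocalMat
import Fermat.Agent.DS.Gam1.Gen.PointVal

/-!
# DS-T / [G1] generic-Γ layer: the character of an `n`-divisible function is unramified

Twin of `JT3/Gateway/Local.lean` for an arbitrary subgroup `Γ ≤ SL(2,ℤ)` with uniform cusp period
`M` (context `g1g_Ctx`).

**`g1g_hasChar_parEll`**: if the divisor of `f` is divisible by `n` and `f` has the character `χ`,
then `χ γ = 1` for every elliptic or parabolic `γ ∈ Γ₀(N)` (`tr(γ)² ≤ 4`): so `χ` factors through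
`H₁(X₀(N), ℤ) = Γ₀(N)^ab / (parabolic, elliptic)` (`gh_H N` of `Gateway/Homology.lean`).

* `g1g_hasChar_fix`: the case of a `γ` with a fixed point in `ℍ` (Taylor germs, rotation number);
* `g1g_hasChar_par`: the case `γ g = ± g Tᵐ` (Laurent germs at the cusp `g∞`, in `e^{2πiz/N}`).
-/

set_option autoImplicit false

open UpperHalfPlane CongruenceSubgroup Complex
open scoped MatrixGroups Manifold Real

namespace Fermat.Agent.DS

open Fermat.Agent.S24 Fermat.Agent.JT Fermat.Agent.JT3 AlgebraicCurve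
open Fermat.Agent.S23 (alphaN)

variable {M : ℕ} [NeZero M] {Γ : Subgroup SL(2, ℤ)} {K F A : Type} [Field K] [Algebra K ℂ] [Field F] [Algebra K F]
  [CommRing A] [IsDomain A] [Algebra K A] [Algebra A F] [IsScalarTower K A F]
  [IsFractionRing A F] {C : g1g_Ctx M Γ K F A}

/-! ### Generalities -/

/-- the order function of an embedding into `ℂ((s))` is a valuation -/
theorem g1g_po_ord_isVal (φ : F →ₐ[K] LaurentSeries ℂ) : gw_IsVal K (po_ord φ) where
  map_mul _ _ hf hg := po_ord_mul _ hf hg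
  map_add _ _ _ _ hfg := po_ord_add _ hfg
  map_const c _ := po_ord_algebraMap _ c

omit [Algebra K ℂ] [IsDomain A] [Algebra K A] [IsScalarTower K A F] in
/-- the value of the numerator of a witness at any valuation is divisible by `n` -/
theorem g1g_witness_val {v : F → ℤ} (hv : gw_IsVal K v) {n : ℕ} {f : F} (hf : gw_IsDiv K n f)
    {a b : A} (hb : b ≠ 0) (hab : algebraMap A F a = f * algebraMap A F b ^ n) :
    ∃ u : F, u ≠ 0 ∧ v (algebraMap A F a) = (n : ℤ) * v u := by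
  obtain ⟨hf0, hdiv⟩ := hf
  have hb' : algebraMap A F b ≠ 0 := gw_algebraMap_ne_zero hb
  have ha' : algebraMap A F a ≠ 0 := by
    rw [hab]
    exact mul_ne_zero hf0 (pow_ne_zero n hb')
  refine gw_val_dvd K hv ha' (n : ℤ)
    (fun P => P.ord f / (n : ℤ) + P.ord (algebraMap A F b)) fun P => ?_
  rw [hab, P.ord_mul hf0 (pow_ne_zero _ hb'), ← zpow_natCast, P.ord_zpow, mul_add,
    Int.mul_ediv_cancel' (hdiv P)]

omit [Algebra K ℂ] [Algebra K A] [IsScalarTower K A F] in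
/-- a twisting number which is trivial on `A` is trivial on `F` -/
theorem g1g_twist_trivial {v : F → ℤ} (hv : gw_IsVal K v) {ρ : ℂ} (hρ : ρ ≠ 0)
    (hA : ∀ r : A, r ≠ 0 → ρ ^ (v (algebraMap A F r)) = 1) {u : F} (hu : u ≠ 0) :
    ρ ^ (v u) = 1 := by
  obtain ⟨r, s, hs, hrs⟩ := IsFractionRing.div_surjective (A := A) u
  have hs0 : s ≠ 0 := nonZeroDivisors.ne_zero hs
  have hs0' : algebraMap A F s ≠ 0 := gw_algebraMap_ne_zero hs0
  have hr0 : r ≠ 0 := by
    rintro rfl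
    rw [map_zero, zero_div] at hrs
    exact hu hrs.symm
  have hr0' : algebraMap A F r ≠ 0 := gw_algebraMap_ne_zero hr0
  rw [← hrs, div_eq_mul_inv, hv.map_mul _ _ hr0' (inv_ne_zero hs0'), hv.map_inv hs0',
    ← sub_eq_add_neg, zpow_sub₀ hρ, hA r hr0, hA s hs0, div_one]

/-! ### Fixed points in `ℍ` -/

theorem g1g_valPt_eq_of_taylor_order (C : g1g_Ctx M Γ K F A) (z : ℍ) (a : A) {k : ℕ}
    (hk : (gm_taylor z (C.an a)).order = k) : g1g_valPt C z (algebraMap A F a) = k := by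
  rw [g1g_valPt, po_ord_def, g1g_phiPt_algebraMap, ff_germ]
  exact ff_ofPowerSeries_order _ hk

/-- **the character is trivial on the stabilisers of the points of `ℍ`** -/
theorem g1g_hasChar_fix {n : ℕ} (hn : n ≠ 0) {f : F} (hf : gw_IsDiv K n f)
    {χ : ↥Γ →* ℂˣ} (hχ : g1g_HasChar C n f χ) (γ : ↥Γ) (z0 : ℍ)
    (hfix : (γ : SL(2, ℤ)) • z0 = z0) : χ γ = 1 := by
  obtain ⟨a, b, h, hb, hab, hh, hh0, hpow, hmul⟩ := hχ
  have hv := g1g_valPt_isVal C z0
  obtain ⟨u, hu0, hu⟩ := g1g_witness_val hv hf hb hab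
  obtain ⟨k, hk, hl⟩ := gw_fix_mult hfix hh hh0 (hmul γ)
  have hρ : gm_rot (γ : SL(2, ℤ)) z0 ≠ 0 := by
    intro h0
    have := gm_norm_rot (γ : SL(2, ℤ)) hfix
    rw [h0, norm_zero] at this
    exact zero_ne_one this
  -- the order of the germ of `an a` is `n k`
  have h1 : gm_taylor z0 (C.an a) = gm_taylor z0 h ^ n := by
    rw [← gm_taylor_pow z0 hh n]
    congr 1
    ext z
    exact (hpow z).symm
  have h2 : (gm_taylor z0 (C.an a)).order = ((n * k : ℕ) : ℕ∞) := by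
    rw [h1, PowerSeries.order_pow, hk]
    push_cast
    rfl
  have h3 := g1g_valPt_eq_of_taylor_order C z0 a h2
  have h4 : g1g_valPt C z0 u = k := by
    rw [h3] at hu
    push_cast at hu
    have hn' : (n : ℤ) ≠ 0 := by exact_mod_cast hn
    exact (mul_left_cancel₀ hn' hu).symm
  -- the rotation number is trivial on `A`
  have hA : ∀ r : A, r ≠ 0 → gm_rot (γ : SL(2, ℤ)) z0 ^ (g1g_valPt C z0 (algebraMap A F r)) = 1 := by
    intro r hr
    obtain ⟨kr, hkr, hlr⟩ := gw_fix_mult hfix (C.an_mdiff r) (C.an_ne_zero hr) (l := 1)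
      (fun z => by rw [g1g_an_smul C r γ z, one_mul])
    rw [g1g_valPt_eq_of_taylor_order C z0 r hkr, zpow_natCast]
    exact hlr.symm
  have h5 := g1g_twist_trivial hv hρ hA hu0
  rw [h4, zpow_natCast] at h5
  apply Units.ext
  rw [hl, h5, Units.val_one]

/-! ### Cusps -/

omit [NeZero M] in
theorem g1g_conj_T_pow_smul (g : SL(2, ℤ)) (z : ℍ) :
    (g • ((M : ℝ) +ᵥ z) : ℍ) = (g * ModularGroup.T ^ (M : ℤ) * g⁻¹) • (g • z) := by
  rw [← mul_smul, inv_mul_cancel_right, mul_smul, UpperHalfPlane.modular_T_zpow_smul]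
  simp

/-- **the character is trivial on the stabilisers of the cusps**: the case `γ g = ± g Tᵐ` -/
theorem g1g_hasChar_par {n : ℕ} (hn : n ≠ 0) {f : F} (hf : gw_IsDiv K n f)
    {χ : ↥Γ →* ℂˣ} (hχ : g1g_HasChar C n f χ) (γ : ↥Γ) (g : SL(2, ℤ)) (m : ℤ)
    (hγ : ∀ z : ℍ, (γ : SL(2, ℤ)) • (g • z) = g • ((m : ℝ) +ᵥ z)) : χ γ = 1 := by
  have hχn := g1g_hasChar_pow_eq_one hχ
  obtain ⟨a, b, h, hb, hab, hh, hh0, hpow, hmul⟩ := hχ
  have hNR : (M : ℝ) ≠ 0 := by exact_mod_cast NeZero.ne M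
  have hn' : (n : ℤ) ≠ 0 := by exact_mod_cast hn
  -- the valuation at the cusp `g∞`
  set φ : F →ₐ[K] LaurentSeries ℂ :=
    g1g_phi (F := F) (fi_isGerm M) C.inf (((g⁻¹ : SL(2, ℤ)) : SL(2, ℤ) ⧸ Γ)) with hφdef
  have hφ : ∀ r : A, φ (algebraMap A F r) = gm_lq (fun τ => C.an r (g • alphaN M • τ)) := by
    intro r
    rw [hφdef, g1g_phi_mk_algebraMap, fi_germ]
    simp only [inv_inv]
  have hv := g1g_po_ord_isVal φ
  obtain ⟨u, hu0, hu⟩ := g1g_witness_val hv hf hb hab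
  -- the root `Kf` in the cusp coordinate
  set Kf : ℍ → ℂ := fun τ => h (g • alphaN M • τ) with hKf
  have hKmd : MDiff Kf :=
    (gm_mdiff_comp_smul g hh).comp
      (UpperHalfPlane.mdifferentiable_smul (Fermat.Agent.S23.det_alphaN_pos M))
  have hK0 : Kf ≠ 0 := by
    obtain ⟨z, hz⟩ := gw_exists_ne_zero hh0
    intro h0
    have h1 := congrFun h0 ((alphaN M)⁻¹ • (g⁻¹ • z))
    simp only [hKf, Pi.zero_apply, smul_inv_smul] at h1
    exact hz h1
  have hKpow : Kf ^ n = fun τ => C.an a (g • alphaN M • τ) := by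
    ext τ
    simp only [hKf, Pi.pow_apply, hpow]
  have hG : gm_IsMerQ (Kf ^ n) := by
    rw [hKpow]
    exact C.an_merCusp a g
  have hlqG : gm_lq (Kf ^ n) = φ (algebraMap A F a) := by rw [hKpow, hφ]
  -- step 1: `Kf` is `1`-periodic
  have hper : ∀ τ : ℍ, Kf ((1 : ℝ) +ᵥ τ) =
      ((χ ⟨g * ModularGroup.T ^ (M : ℤ) * g⁻¹, C.conj_T_pow_mem g⟩ : ℂˣ) : ℂ) * Kf τ := by
    intro τ
    simp only [hKf]
    rw [fi_alphaN_vadd, mul_one, g1g_conj_T_pow_smul]
    exact hmul ⟨g * ModularGroup.T ^ (M : ℤ) * g⁻¹, C.conj_T_pow_mem g⟩ _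
  have hμ : ((χ ⟨g * ModularGroup.T ^ (M : ℤ) * g⁻¹, C.conj_T_pow_mem g⟩ : ℂˣ) : ℂ) = 1 := by
    refine gw_par_mu hKmd hK0 hn ?_ hper hG ?_
    · have := hχn ⟨g * ModularGroup.T ^ (M : ℤ) * g⁻¹, C.conj_T_pow_mem g⟩
      rw [← Units.val_pow_eq_pow_val, this, Units.val_one]
    · rw [hlqG, ← po_ord_def, hu]
      exact Dvd.intro _ rfl
  have hper1 : ∀ τ : ℍ, Kf ((1 : ℝ) +ᵥ τ) = Kf τ := by
    intro τ
    rw [hper τ, hμ, one_mul]
  have hKm : gm_IsMerQ Kf := gw_par_merQ hKmd hn hper1 hG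
  -- the order of `Kf` is `v u`
  have hord : (gm_lq Kf).order = po_ord φ u := by
    have h1 : (gm_lq (Kf ^ n)).order = (n : ℤ) * (gm_lq Kf).order := by
      rw [gm_lq_pow hKm, HahnSeries.order_pow, nsmul_eq_mul]
    rw [hlqG, ← po_ord_def, hu] at h1
    exact (mul_left_cancel₀ hn' h1).symm
  -- step 2: the multiplier of `γ`
  have htw : ∀ τ : ℍ, Kf ((((m : ℝ) / M : ℝ)) +ᵥ τ) = ((χ γ : ℂˣ) : ℂ) * Kf τ := by
    intro τ
    simp only [hKf]
    rw [fi_alphaN_vadd, mul_div_cancel₀ _ hNR, ← hγ]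
    exact hmul γ _
  have h1 := gw_par_twist hKm hK0 _ htw
  have hρ : cexp (2 * π * Complex.I * (((m : ℝ) / M : ℝ) : ℂ)) ≠ 0 := Complex.exp_ne_zero _
  have hA : ∀ r : A, r ≠ 0 →
      cexp (2 * π * Complex.I * (((m : ℝ) / M : ℝ) : ℂ)) ^ (po_ord φ (algebraMap A F r)) = 1 := by
    intro r hr
    have hr1 : gm_IsMerQ (fun τ => C.an r (g • alphaN M • τ)) := C.an_merCusp r g
    have hr0 : (fun τ => C.an r (g • alphaN M • τ)) ≠ 0 := by
      obtain ⟨z, hz⟩ := gw_exists_ne_zero (C.an_ne_zero hr)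
      intro h0
      have h1 := congrFun h0 ((alphaN M)⁻¹ • (g⁻¹ • z))
      simp only [Pi.zero_apply, smul_inv_smul] at h1
      exact hz h1
    have h2 := gw_par_twist hr1 hr0 (((m : ℝ) / M : ℝ)) (l := 1) (fun τ => by
      rw [fi_alphaN_vadd, mul_div_cancel₀ _ hNR, ← hγ, g1g_an_smul C r γ, one_mul])
    rw [po_ord_def, hφ]
    exact h2.symm
  have h5 := g1g_twist_trivial hv hρ hA hu0
  apply Units.ext
  rw [h1, hord, h5, Units.val_one]

/-! ### The main statement -/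

/-- **the character of an `n`-divisible function kills the elliptic and the parabolic elements** -/
theorem g1g_hasChar_parEll {n : ℕ} (hn : n ≠ 0) {f : F} (hf : gw_IsDiv K n f)
    {χ : ↥Γ →* ℂˣ} (hχ : g1g_HasChar C n f χ) (γ : ↥Γ)
    (hγ : ((γ : SL(2, ℤ)) : Matrix (Fin 2) (Fin 2) ℤ).trace ^ 2 ≤ 4) : χ γ = 1 := by
  rcases lt_or_eq_of_le hγ with h | h
  · obtain ⟨z0, hz0⟩ := gw_exists_fix (γ : SL(2, ℤ)) h
    exact g1g_hasChar_fix hn hf hχ γ z0 hz0
  · obtain ⟨g, m, hgm⟩ := gw_exists_conj_T (γ : SL(2, ℤ)) h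
    exact g1g_hasChar_par hn hf hχ γ g m hgm

end Fermat.Agent.DS
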