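import Mathlib
import Fermat.Agent.JT3.Gateway.CPlaces
import Fermat.Agent.DS.Gam1.Gen.Local

/-!
# DS-T / [G1] generic-Γ layer: the places of the function field of an analytic context

Twin of `JT3/Gateway/CPlaces.lean` for an arbitrary subgroup `Γ ≤ SL(2,ℤ)` with uniform cusp period
`M` (context `g1g_Ctx`); the abstract part (`gcp_exists_plc`, `gcp_dvd_ord_of_root`) and the base
points (`gcp_FinData`, `gcp_exists_base`) are reused from there.

Generic in a context `C : g1g_Ctx M Γ K F A` over an algebraically closed field `K ⊆ ℂ`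
(`K = ℂ`, `K = Q̄`), with an element `j1 : A` realised by the `j`-function and the degree
`[F : K(j)] = #(SL(2,ℤ)/Γ)` as hypotheses:

* abstract part (`po_Hyp` language of S24): `gcp_exists_plc` (every place above `π = 0` is the
  place of an index; the surjectivity hidden in `po_card_places_eq_card_orbits`) and
  `gcp_dvd_ord_of_root` (an `n`-th root, in the Laurent series field, which is invariant under the
  twist of the stabiliser forces `n ∣ ord_P f`);
* the families of germ embeddings over the context: `g1g_gcp_phi C z0` (Taylor germs at `z0 ∈ ℍ`),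
  `g1g_gcp_phiInf C` (Laurent germs at the cusps), the hypotheses `g1g_gcp_hyp_fin`, `g1g_gcp_hyp_inf`;
* **`g1g_gcp_classification`**: every place of `F/K` is the place of a germ embedding.
-/

set_option autoImplicit false

open UpperHalfPlane CongruenceSubgroup ModularGroup ModularForm EisensteinSeries
open scoped MatrixGroups Manifold

namespace Fermat.Agent.DS

open Fermat.Agent.S24 Fermat.Agent.JT3 AlgebraicCurve IntermediateField

/-! ### The families of germ embeddings of a context -/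

section families

variable {M : ℕ} [NeZero M] {Γ : Subgroup SL(2, ℤ)} {K F A : Type} [Field K] [Algebra K ℂ] [Field F] [Algebra K F]
  [CommRing A] [IsDomain A] [Algebra K A] [Algebra A F] [IsScalarTower K A F]
  [IsFractionRing A F] (C : g1g_Ctx M Γ K F A)

/-- the family of Taylor-germ embeddings at `z0` -/
noncomputable def g1g_gcp_phi (z0 : ℍ) : SL(2, ℤ) ⧸ Γ → (F →ₐ[K] LaurentSeries ℂ) :=
  g1g_phi (F := F) (ff_isGerm z0) C.fin

/-- the family of Laurent-germ embeddings at the cusps (in `e^{2πiz/N}`) -/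
noncomputable def g1g_gcp_phiInf : SL(2, ℤ) ⧸ Γ → (F →ₐ[K] LaurentSeries ℂ) :=
  g1g_phi (F := F) (fi_isGerm M) C.inf

theorem g1g_gcp_phi_mk_algebraMap (z0 : ℍ) (g : SL(2, ℤ)) (a : A) :
    g1g_gcp_phi C z0 (g : SL(2, ℤ) ⧸ Γ) (algebraMap A F a) = ff_germ z0 (fun z => C.an a (g⁻¹ • z)) :=
  g1g_phi_mk_algebraMap (ff_isGerm z0) C.fin g a

theorem g1g_gcp_phiInf_mk_algebraMap (g : SL(2, ℤ)) (a : A) :
    g1g_gcp_phiInf C (g : SL(2, ℤ) ⧸ Γ) (algebraMap A F a) = fi_germ M (fun z => C.an a (g⁻¹ • z)) :=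
  g1g_phi_mk_algebraMap (fi_isGerm M) C.inf g a

theorem g1g_gcp_phi_injective (z0 : ℍ) : Function.Injective (g1g_gcp_phi C z0) :=
  g1g_phi_injective (ff_isGerm z0) C.fin

theorem g1g_gcp_phiInf_injective : Function.Injective (g1g_gcp_phiInf C) :=
  g1g_phi_injective (fi_isGerm M) C.inf

variable {C} {j1 : A} (hj1 : C.an j1 = kleinJ)

include hj1

/-- all the Taylor embeddings send `j - c` to the germ of `j - j(z0)` when `c = j(z0)` -/
theorem g1g_gcp_phi_sub (z0 : ℍ) (c : K) (hc : algebraMap K ℂ c = kleinJ z0) (x : SL(2, ℤ) ⧸ Γ) :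
    g1g_gcp_phi C z0 x (algebraMap A F j1 - algebraMap K F c) =
      ff_germ z0 (fun z => kleinJ z - kleinJ z0) := by
  have h1 : algebraMap A F j1 - algebraMap K F c =
      algebraMap A F (j1 - algebraMap K A c) := by
    rw [map_sub, ← IsScalarTower.algebraMap_apply]
  have h2 : C.an (j1 - algebraMap K A c) = fun z => kleinJ z - kleinJ z0 := by
    rw [map_sub, hj1, C.an_const c]
    ext z
    simp only [Pi.sub_apply, hc]
  rw [h1, g1g_gcp_phi, g1g_phi_of_invariant (ff_isGerm z0) C.fin _ _ x, h2]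
  intro g z
  rw [h2]
  simp only [kleinJ_smul]

/-- all the cusp embeddings send `j` to the Laurent germ of `j` -/
theorem g1g_gcp_phiInf_j (x : SL(2, ℤ) ⧸ Γ) :
    g1g_gcp_phiInf C x (algebraMap A F j1) = fi_germ M kleinJ := by
  rw [g1g_gcp_phiInf, g1g_phi_of_invariant (fi_isGerm M) C.inf _ _ x, hj1]
  intro g z
  rw [hj1, kleinJ_smul]

omit hj1

theorem g1g_gcp_phi_twist (z0 : ℍ) (σ : SL(2, ℤ)) (hσ : σ • z0 = z0) (x : SL(2, ℤ) ⧸ Γ) (f : F) (i : ℤ) :
    (g1g_gcp_phi C z0 (σ⁻¹ • x) f).coeff i = gm_rot σ z0 ^ i * (g1g_gcp_phi C z0 x f).coeff i := by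
  have hl : gm_rot σ z0 ≠ 0 := by
    intro h0
    have := gm_norm_rot σ hσ
    rw [h0, norm_zero] at this
    exact zero_ne_one this
  exact g1g_phi_twist (ff_isGerm z0) C.fin σ (gm_rot σ z0) hl
    (fun h hh i => ff_germ_twist σ hσ h hh i) x f i

theorem g1g_gcp_phiInf_twist (x : SL(2, ℤ) ⧸ Γ) (f : F) (i : ℤ) :
    (g1g_gcp_phiInf C (ModularGroup.T⁻¹ • x) f).coeff i = fi_zeta M ^ i * (g1g_gcp_phiInf C x f).coeff i :=
  g1g_phi_twist (fi_isGerm M) C.inf ModularGroup.T (fi_zeta M) (fi_zeta_ne_zero M)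
    (fun h hh i => fi_twist M h hh i) x f i

end families

/-! ### The hypotheses of Lemma A over a context, and the classification of the places -/

section classification

variable {M : ℕ} [NeZero M] {Γ : Subgroup SL(2, ℤ)} {K F A : Type} [Field K] [Algebra K ℂ] [Field F] [Algebra K F]
  [CommRing A] [IsDomain A] [Algebra K A] [Algebra A F] [IsScalarTower K A F]
  [IsFractionRing A F] [IsAlgClosed K] {C : g1g_Ctx M Γ K F A} {j1 : A} (hj1 : C.an j1 = kleinJ)

include hj1

/-- the hypotheses of Lemma A at a point `z0` with `j(z0) = c`, for a "rotation" `σ` fixing `z0`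
whose rotation number is a primitive `m`-th root of unity, `m = ord_{z0} (j - c)` -/
theorem g1g_gcp_hyp_fin [Algebra.IsAlgebraic K⟮algebraMap A F j1⟯ F] (z0 : ℍ) (c : K)
    (hc : algebraMap K ℂ c = kleinJ z0) (σ : SL(2, ℤ)) (hσ : σ • z0 = z0) (m : ℕ) (hm0 : 0 < m)
    (hm : jl_ordJ z0 = m) (hprim : IsPrimitiveRoot (gm_rot σ z0) m) :
    po_Hyp (K := K) (algebraMap A F j1 - algebraMap K F c) m (gm_rot σ z0) (g1g_gcp_phi C z0)
      (ff_germ z0 (fun z => kleinJ z - kleinJ z0)) (MulAction.toPerm σ⁻¹) where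
  hm := hm0
  hζ₀ := hprim
  inj := g1g_gcp_phi_injective C z0
  hp₀ := ff_order_germ z0 hm
  hφπ := g1g_gcp_phi_sub hj1 z0 c hc
  hρ := fun x f i => g1g_gcp_phi_twist z0 σ hσ x f i
  hres := fun v _ => hw_algebraMap_residueField_surjective (algebraMap A F j1) v

/-- the hypotheses of Lemma A at the cusps -/
theorem g1g_gcp_hyp_inf [Algebra.IsAlgebraic K⟮algebraMap A F j1⟯ F] :
    po_Hyp (K := K) (algebraMap A F j1)⁻¹ M (fi_zeta M) (g1g_gcp_phiInf C) (fi_germ M kleinJ)⁻¹
      (MulAction.toPerm (ModularGroup.T⁻¹ : SL(2, ℤ))) where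
  hm := Nat.pos_of_ne_zero (NeZero.ne M)
  hζ₀ := fi_zeta_isPrimitiveRoot M
  inj := g1g_gcp_phiInf_injective C
  hp₀ := fi_order_inv M
  hφπ := fun x => by rw [map_inv₀, g1g_gcp_phiInf_j hj1]
  hρ := fun x f i => g1g_gcp_phiInf_twist x f i
  hres := fun v _ => hw_algebraMap_residueField_surjective (algebraMap A F j1) v

/-- `j` is transcendental: it is not constant -/
theorem g1g_gcp_transcendental : Transcendental K (algebraMap A F j1) := by
  rcases hw_const_or_transcendental (K := K) (algebraMap A F j1) with ⟨c, hc⟩ | h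
  · exfalso
    rw [IsScalarTower.algebraMap_apply K A F] at hc
    have h1 : j1 = algebraMap K A c := IsFractionRing.injective A F hc
    have h2 : kleinJ = fun _ => algebraMap K ℂ c := by rw [← hj1, h1, C.an_const]
    have h3 := congrFun h2 ρ
    have h4 := congrFun h2 UpperHalfPlane.I
    rw [jl_kleinJ_rho] at h3
    rw [jl_kleinJ_I, ← h3] at h4
    norm_num at h4
  · exact h

end classification

/-! ### The classification -/

section main

variable {M : ℕ} [NeZero M] {Γ : Subgroup SL(2, ℤ)} [Γ.FiniteIndex] {K F A : Type} [Field K] [Algebra K ℂ] [Field F] [Algebra K F]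
  [CommRing A] [IsDomain A] [Algebra K A] [Algebra A F] [IsScalarTower K A F]
  [IsFractionRing A F] [IsAlgClosed K] {C : g1g_Ctx M Γ K F A} {j1 : A} (hj1 : C.an j1 = kleinJ)

include hj1

/-- **every place of `F/K` comes from a germ embedding**, in the form consumed by the local
divisibility lemma: either a base point `z0 ∈ ℍ` with its Lemma-A package and an index, or the
cusp package and an index. -/
theorem g1g_gcp_cases [FiniteDimensional K⟮algebraMap A F j1⟯ F]
    (hdeg : Module.finrank K⟮algebraMap A F j1⟯ F = Nat.card (SL(2, ℤ) ⧸ Γ)) (v : Place K F) :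
    (∃ (z0 : ℍ) (c : K) (σ : SL(2, ℤ)) (m : ℕ) (_ : gcp_FinData z0 σ m)
        (H : po_Hyp (K := K) (algebraMap A F j1 - algebraMap K F c) m (gm_rot σ z0) (g1g_gcp_phi C z0)
          (ff_germ z0 (fun z => kleinJ z - kleinJ z0)) (MulAction.toPerm σ⁻¹))
        (x : SL(2, ℤ) ⧸ Γ), H.plc x = v) ∨
      (∃ (H : po_Hyp (K := K) (algebraMap A F j1)⁻¹ M (fi_zeta M) (g1g_gcp_phiInf C)
          (fi_germ M kleinJ)⁻¹ (MulAction.toPerm (ModularGroup.T⁻¹ : SL(2, ℤ))))
        (x : SL(2, ℤ) ⧸ Γ), H.plc x = v) := by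
  classical
  have : CharZero K := (algebraMap K ℂ).charZero
  have hx : Transcendental K (algebraMap A F j1) := g1g_gcp_transcendental hj1
  have hj0 : algebraMap A F j1 ≠ 0 := by
    intro h0
    apply hx
    rw [h0]
    exact isAlgebraic_zero
  by_cases hv : 0 ≤ v.ord (algebraMap A F j1)
  · left
    have hmem : algebraMap A F j1 ∈ v.toValuationSubring := (hw_mem_iff_ord_nonneg v hj0).mpr hv
    obtain ⟨c, hc⟩ := hw_exists_const (algebraMap A F j1) v hmem
    rcases hc with hc | hc
    · exfalso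
      apply hx
      rw [hc]
      exact isAlgebraic_algebraMap c
    obtain ⟨z0, σ, m, hz0, hD⟩ := gcp_exists_base (algebraMap K ℂ c)
    have H := g1g_gcp_hyp_fin hj1 z0 c hz0.symm σ hD.fix m hD.pos hD.ord hD.prim
    obtain ⟨x, hx'⟩ := gcp_exists_plc H (hw_finite_fiber hx c)
      (by rw [← hdeg]; exact hw_sum_fiber_toFinset hx c) v hc
    exact ⟨z0, c, σ, m, hD, H, x, hx'⟩
  · right
    have hv' : v.ord (algebraMap A F j1) < 0 := not_le.mp hv
    have H := g1g_gcp_hyp_inf (C := C) hj1
    have hset : {w : Place K F | 0 < w.ord (algebraMap A F j1)⁻¹}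
        = {w : Place K F | w.ord (algebraMap A F j1) < 0} := by
      ext w
      simp only [Set.mem_ofPred_eq, Place.ord_inv]
      omega
    have hfin : {w : Place K F | 0 < w.ord (algebraMap A F j1)⁻¹}.Finite := by
      rw [hset]; exact hw_finite_poles hx
    have hsum : ∑ w ∈ hfin.toFinset, w.ord (algebraMap A F j1)⁻¹ = (Nat.card (SL(2, ℤ) ⧸ Γ) : ℤ) := by
      have h1 := hw_sum_poles_toFinset hx
      have h2 : hfin.toFinset = (hw_finite_poles hx).toFinset := by
        ext w
        simp only [Set.Finite.mem_toFinset]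
        rw [hset]
      rw [h2, ← hdeg]
      have h3 : ∑ w ∈ (hw_finite_poles hx).toFinset, w.ord (algebraMap A F j1)⁻¹
          = - ∑ w ∈ (hw_finite_poles hx).toFinset, w.ord (algebraMap A F j1) := by
        rw [← Finset.sum_neg_distrib]
        exact Finset.sum_congr rfl (fun w _ => Place.ord_inv w _)
      rw [h3, h1, neg_neg]
    obtain ⟨x, hx'⟩ := gcp_exists_plc H hfin hsum v (by rw [Place.ord_inv]; omega)
    exact ⟨H, x, hx'⟩

/-- **classification of the places** (statement form): the valuation ring of every place of `F/K`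
is the valuation ring of a Taylor-germ embedding at a point of `ℍ` or of a Laurent-germ embedding
at a cusp -/
theorem g1g_gcp_classification [FiniteDimensional K⟮algebraMap A F j1⟯ F]
    (hdeg : Module.finrank K⟮algebraMap A F j1⟯ F = Nat.card (SL(2, ℤ) ⧸ Γ)) (v : Place K F) :
    (∃ (z0 : ℍ) (x : SL(2, ℤ) ⧸ Γ), v.toValuationSubring = po_valSubring (g1g_gcp_phi C z0 x)) ∨
      (∃ x : SL(2, ℤ) ⧸ Γ, v.toValuationSubring = po_valSubring (g1g_gcp_phiInf C x)) := by
  rcases g1g_gcp_cases hj1 hdeg v with ⟨z0, c, σ, m, -, H, x, hx⟩ | ⟨H, x, hx⟩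
  · exact Or.inl ⟨z0, x, by rw [← hx]; rfl⟩
  · exact Or.inr ⟨x, by rw [← hx]; rfl⟩

end main

end Fermat.Agent.DS
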