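import Mathlib
import Fermat.Agent.DS.Gam1.Gen.Local

/-!
# DS-T / [G1] generic-Γ layer: the germ valuations at all cosets and the classification seam (C4)

Twin of `JT3/Gateway/Classify.lean` for an arbitrary subgroup `Γ ≤ SL(2,ℤ)` with uniform cusp
period `M` (context `g1g_Ctx`).

* `g1g_phiPtAt C z g : F →ₐ[K] ℂ((w))`, the Taylor-germ embedding at `z ∈ ℍ` attached to the coset
  `g Γ`: `a ↦ germ_z (an a ∘ g⁻¹)`; `g1g_valPtAt C z g` its order function;
* `g1g_phiCuspAt C g : F →ₐ[K] ℂ((s))`, the Laurent-germ embedding at `i∞` in `s = e^{2πiz/M}`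
  attached to the coset `g Γ`: `a ↦ gm_lq (τ ↦ an a (g⁻¹ • Nτ))`; `g1g_valCuspAt C g` its order
  function; both are integer valued valuations of `F/K`;
* `g1g_Classified C`: **every place of `F/K` is a point of `ℍ` or a cusp**, with its ramification
  index `e` in the germ field measured by a stabilising element whose twisting number is a
  primitive `e`-th root of unity. This is the seam (C4) between the classification of the places
  (from "places = orbits", `S24/PlacesOrbits.lean`, whose output it is verbatim) and the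
  surjectivity of the character map (`Gateway/Surjective.lean`).
-/

set_option autoImplicit false

open UpperHalfPlane CongruenceSubgroup Complex
open scoped MatrixGroups Manifold Real

namespace Fermat.Agent.DS

open Fermat.Agent.S24 Fermat.Agent.JT Fermat.Agent.JT3 AlgebraicCurve
open Fermat.Agent.S23 (alphaN)

variable {M : ℕ} [NeZero M] {Γ : Subgroup SL(2, ℤ)} {K F A : Type} [Field K] [Algebra K ℂ] [Field F] [Algebra K F]
  [CommRing A] [IsDomain A] [Algebra K A] [Algebra A F] [IsScalarTower K A F]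
  [IsFractionRing A F] (C : g1g_Ctx M Γ K F A)

/-- the Taylor-germ embedding at `z` attached to the coset `g Γ` -/
noncomputable def g1g_phiPtAt (z : ℍ) (g : SL(2, ℤ)) : F →ₐ[K] LaurentSeries ℂ :=
  g1g_phi (F := F) (ff_isGerm z) C.fin ((g : SL(2, ℤ)) : SL(2, ℤ) ⧸ Γ)

theorem g1g_phiPtAt_algebraMap (z : ℍ) (g : SL(2, ℤ)) (a : A) :
    g1g_phiPtAt C z g (algebraMap A F a) = ff_germ z (fun u => C.an a (g⁻¹ • u)) := by
  rw [g1g_phiPtAt, g1g_phi_mk_algebraMap]

/-- the order at `z` along the coset `g Γ` -/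
noncomputable def g1g_valPtAt (z : ℍ) (g : SL(2, ℤ)) (f : F) : ℤ := po_ord (g1g_phiPtAt C z g) f

theorem g1g_valPtAt_isVal (z : ℍ) (g : SL(2, ℤ)) : gw_IsVal K (g1g_valPtAt C z g) :=
  g1g_po_ord_isVal (g1g_phiPtAt C z g)

theorem g1g_valPtAt_eq_of_taylor_order (z : ℍ) (g : SL(2, ℤ)) (a : A) {k : ℕ}
    (hk : (gm_taylor z (fun u => C.an a (g⁻¹ • u))).order = k) :
    g1g_valPtAt C z g (algebraMap A F a) = k := by
  rw [g1g_valPtAt, po_ord_def, g1g_phiPtAt_algebraMap, ff_germ]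
  exact ff_ofPowerSeries_order _ hk

/-- the Laurent-germ embedding at `i∞` attached to the coset `g Γ` -/
noncomputable def g1g_phiCuspAt (g : SL(2, ℤ)) : F →ₐ[K] LaurentSeries ℂ :=
  g1g_phi (F := F) (fi_isGerm M) C.inf ((g : SL(2, ℤ)) : SL(2, ℤ) ⧸ Γ)

theorem g1g_phiCuspAt_algebraMap (g : SL(2, ℤ)) (a : A) :
    g1g_phiCuspAt C g (algebraMap A F a) = gm_lq (fun τ => C.an a (g⁻¹ • alphaN M • τ)) := by
  rw [g1g_phiCuspAt, g1g_phi_mk_algebraMap, fi_germ]

/-- the order at `i∞` along the coset `g Γ`, in `s = e^{2πiz/M}` -/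
noncomputable def g1g_valCuspAt (g : SL(2, ℤ)) (f : F) : ℤ := po_ord (g1g_phiCuspAt C g) f

theorem g1g_valCuspAt_isVal (g : SL(2, ℤ)) : gw_IsVal K (g1g_valCuspAt C g) :=
  g1g_po_ord_isVal (g1g_phiCuspAt C g)

theorem g1g_valCuspAt_algebraMap (g : SL(2, ℤ)) (a : A) :
    g1g_valCuspAt C g (algebraMap A F a) =
      (gm_lq (fun τ => C.an a (g⁻¹ • alphaN M • τ))).order := by
  rw [g1g_valCuspAt, po_ord_def, g1g_phiCuspAt_algebraMap]

/-- **(C4): every place of `F/K` is a point of `ℍ` or a cusp.** For a place `P`: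
* either there are `z ∈ ℍ`, a coset `g Γ`, `e ≥ 1` and `σ ∈ SL(2,ℤ)` fixing `z` with
  `g⁻¹ σ g ∈ Γ`, whose rotation number at `z` is a primitive `e`-th root of unity, and
  `g1g_valPtAt C z g = e · ord_P` on `F`;
* or there are a coset `g Γ`, `e ≥ 1` and `m ∈ ℤ` with `g⁻¹ Tᵐ g ∈ Γ`, `e^{2πim/M}` a
  primitive `e`-th root of unity, and `g1g_valCuspAt C g = e · ord_P` on `F`. -/
def g1g_Classified : Prop :=
  ∀ P : Place K F,
    (∃ (z : ℍ) (g σ : SL(2, ℤ)) (e : ℕ), 0 < e ∧ σ • z = z ∧ g⁻¹ * σ * g ∈ Γ ∧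
      IsPrimitiveRoot (gm_rot σ z) e ∧ ∀ f : F, f ≠ 0 → g1g_valPtAt C z g f = e * P.ord f) ∨
    (∃ (g : SL(2, ℤ)) (m : ℤ) (e : ℕ), 0 < e ∧ g⁻¹ * ModularGroup.T ^ m * g ∈ Γ ∧
      IsPrimitiveRoot (cexp (2 * π * Complex.I * (((m : ℝ) / M : ℝ) : ℂ))) e ∧
      ∀ f : F, f ≠ 0 → g1g_valCuspAt C g f = e * P.ord f)

end Fermat.Agent.DS
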