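/-
DS-T / [G1] generic-Γ layer: the lower bound `[SL(2,ℤ) : Γ] ≤ [F : K(j)]` in an abstract context
`g1g_Ctx M Γ K F A` (the Taylor-germ embeddings at a point are pairwise distinct and agree on `j`;
Dedekind).  Twin of `gc_le_finrank_F` (`JT3/Gateway/CComplete.lean`) and of the lower bound in
`an_finrank_jBar` (`S24/Bridge/Degree.lean`).  Prefix `g1g_`.
-/
import Mathlib
import Fermat.Agent.S24.Bridge.Degree
import Fermat.Agent.S24.FamilyFinite
import Fermat.Agent.DS.Gam1.Gen.Ctx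

set_option autoImplicit false

open UpperHalfPlane CongruenceSubgroup
open scoped MatrixGroups Manifold IntermediateField

namespace Fermat.Agent.DS

open Fermat.Agent.S24 Fermat.Agent.JT3 AlgebraicCurve

variable {M : ℕ} [NeZero M] {Γ : Subgroup SL(2, ℤ)} {K F A : Type} [Field K] [Algebra K ℂ]
  [Field F] [Algebra K F] [CommRing A] [IsDomain A] [Algebra K A] [Algebra A F]
  [IsScalarTower K A F] [IsFractionRing A F]

/-- **the lower bound for the degree**: `[SL(2,ℤ) : Γ] ≤ [F : K(j)]` -/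
theorem g1g_card_le_finrank [Γ.FiniteIndex] (C : g1g_Ctx M Γ K F A) {j1 : A}
    (hj1 : C.an j1 = kleinJ) [FiniteDimensional K⟮algebraMap A F j1⟯ F] :
    Nat.card (SL(2, ℤ) ⧸ Γ) ≤ Module.finrank K⟮algebraMap A F j1⟯ F := by
  have hfin : Finite (SL(2, ℤ) ⧸ Γ) := Subgroup.finite_quotient_of_finiteIndex
  refine br_card_le_finrank_of_algHoms (algebraMap A F j1)
    (g1g_phi (F := F) (ff_isGerm UpperHalfPlane.I) C.fin)
    (g1g_phi_injective (ff_isGerm UpperHalfPlane.I) C.fin)
    (ff_germ UpperHalfPlane.I (C.an j1)) fun x => ?_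
  refine g1g_phi_of_invariant (ff_isGerm UpperHalfPlane.I) C.fin j1 (fun g z => ?_) x
  rw [hj1]
  exact kleinJ_smul g z

/-- the degree is the index as soon as it is at most the index -/
theorem g1g_finrank_eq_of_le [Γ.FiniteIndex] (C : g1g_Ctx M Γ K F A) {j1 : A}
    (hj1 : C.an j1 = kleinJ) [FiniteDimensional K⟮algebraMap A F j1⟯ F]
    (hle : Module.finrank K⟮algebraMap A F j1⟯ F ≤ Nat.card (SL(2, ℤ) ⧸ Γ)) :
    Module.finrank K⟮algebraMap A F j1⟯ F = Nat.card (SL(2, ℤ) ⧸ Γ) :=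
  le_antisymm hle (g1g_card_le_finrank C hj1)

end Fermat.Agent.DS
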