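/-
DS-T / [G1] generic-Γ layer: a weakly holomorphic modular function for a subgroup `Γ ≤ SL(2,ℤ)` of
finite index is a root of a monic polynomial of degree `[SL(2,ℤ) : Γ]` with coefficients in `ℂ[j]`.
Twin of `S24/FunctionDegree.lean` (written there for `Γ₀(N)`); the symmetric-function machinery of
`S23/SymmForms.lean` is already generic in the arithmetic subgroup.  Prefix `g1g_`.
-/
import Mathlib
import Fermat.Agent.S24.FunctionDegree
import Fermat.Agent.DS.Gam1.Gen.WeakModFun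

set_option autoImplicit false

open UpperHalfPlane ModularForm SlashInvariantForm Filter Topology Function Complex
  CongruenceSubgroup Finset
open scoped MatrixGroups Manifold Real
open Fermat.Agent.S23 (esymmFun esymmFun_eq esymmFun_slash esymm_root esymmFun_zero)

namespace Fermat.Agent.DS

open Fermat.Agent.S24

/-- a subgroup of `SL(2,ℤ)` as a subgroup of `GL(2,ℝ)` -/
abbrev g1g_GL (Γ : Subgroup SL(2, ℤ)) : Subgroup (GL (Fin 2) ℝ) :=
  Γ.map (Matrix.SpecialLinearGroup.mapGL ℝ)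

variable {Γ : Subgroup SL(2, ℤ)}

/-- a weakly holomorphic modular function as a slash invariant form of weight `0` -/
noncomputable def g1g_IsWeakModFun.toSIF {h : ℍ → ℂ} (hh : g1g_IsWeakModFun Γ h) :
    SlashInvariantForm (g1g_GL Γ) 0 where
  toFun := h
  slash_action_eq' γ hγ := by
    obtain ⟨g, hg, rfl⟩ := hγ
    exact (slash_zero_eq_iff h g).mpr (hh.inv g hg)

theorem g1g_IsWeakModFun.coe_toSIF {h : ℍ → ℂ} (hh : g1g_IsWeakModFun Γ h) :
    ⇑hh.toSIF = h := rfl

local notation "𝒬" => 𝒮ℒ ⧸ (Subgroup.subgroupOf (g1g_GL Γ) 𝒮ℒ)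

/-- the index in the form used by the symmetric functions is the index in `SL(2,ℤ)` -/
theorem g1g_card_quot_eq (Γ : Subgroup SL(2, ℤ)) :
    Nat.card (𝒮ℒ ⧸ (Subgroup.subgroupOf (g1g_GL Γ) 𝒮ℒ)) = Nat.card (SL(2, ℤ) ⧸ Γ) := by
  have hf : Function.Injective (Matrix.SpecialLinearGroup.mapGL ℝ : SL(2, ℤ) →* GL (Fin 2) ℝ) :=
    Matrix.SpecialLinearGroup.mapGL_injective
  rw [← Subgroup.index_eq_card, ← Subgroup.relIndex, MonoidHom.range_eq_map]
  rw [Subgroup.relIndex_map_map_of_injective _ _ hf, Subgroup.relIndex_top_right,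
    Subgroup.index_eq_card]

/-- each translate of a weakly holomorphic modular function is `z ↦ h (γ • z)` -/
theorem g1g_quotientFunc_toSIF_eq {h : ℍ → ℂ} (hh : g1g_IsWeakModFun Γ h) (q : 𝒬) :
    ∃ γ : SL(2, ℤ), quotientFunc hh.toSIF q = fun z => h (γ • z) := by
  induction q using Quotient.inductionOn with
  | h r =>
    obtain ⟨γ, hγ⟩ : r.val⁻¹ ∈ 𝒮ℒ := inv_mem r.2
    refine ⟨γ, ?_⟩
    rw [quotientFunc_mk, ← hγ]
    ext z
    rw [g1g_IsWeakModFun.coe_toSIF]
    show (h ∣[(0 : ℤ)] γ) z = h (γ • z)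
    rw [ModularForm.SL_slash_apply, neg_zero, zpow_zero, mul_one]

theorem g1g_quotientFunc_toSIF_mdiff {h : ℍ → ℂ} (hh : g1g_IsWeakModFun Γ h) (q : 𝒬) :
    MDiff (quotientFunc hh.toSIF q) := by
  induction q using Quotient.inductionOn with
  | h r =>
    rw [quotientFunc_mk]
    exact hh.mdiff.slash 0 _

theorem g1g_quotientFunc_toSIF_poleBdd {h : ℍ → ℂ} (hh : g1g_IsWeakModFun Γ h) (q : 𝒬) :
    PoleBdd (quotientFunc hh.toSIF q) := by
  obtain ⟨γ, hγ⟩ := g1g_quotientFunc_toSIF_eq hh q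
  rw [hγ]
  exact hh.growth γ

variable [Γ.FiniteIndex]

/-- the elementary symmetric functions of the translates are weakly holomorphic of level one -/
theorem g1g_exists_isWeakLevelOne_esymmFun {h : ℍ → ℂ} (hh : g1g_IsWeakModFun Γ h) (r : ℕ) :
    ∃ m : ℕ, IsWeakLevelOne m (esymmFun hh.toSIF r) := by
  let := Fintype.ofFinite 𝒬
  have hpb : PoleBdd (esymmFun hh.toSIF r) := by
    rw [esymmFun_eq]
    exact PoleBdd.sum _ fun S _ => PoleBdd.prod _ fun q _ => g1g_quotientFunc_toSIF_poleBdd hh q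
  obtain ⟨m, hm⟩ := hpb
  refine ⟨m, ?_, ?_, hm⟩
  · rw [esymmFun_eq]
    exact .sum fun S _ => .prod fun q _ => g1g_quotientFunc_toSIF_mdiff hh q
  · intro γ
    have h1 := esymmFun_slash hh.toSIF r (h := Matrix.SpecialLinearGroup.mapGL ℝ γ) ⟨γ, rfl⟩
    rw [zero_mul] at h1
    exact (slash_zero_eq_iff _ γ).mp h1

/-- **Integrality**: a weakly holomorphic modular function for `Γ` is a root of a monic
polynomial of degree `[SL(2,ℤ) : Γ]` with coefficients in `ℂ[j]`. -/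
theorem g1g_exists_monic_relation {h : ℍ → ℂ} (hh : g1g_IsWeakModFun Γ h) :
    ∃ P : ℕ → Polynomial ℂ, P 0 = 1 ∧ ∀ z : ℍ,
      ∑ r ∈ range (Nat.card (SL(2, ℤ) ⧸ Γ) + 1),
        (-1) ^ r * (P r).eval (kleinJ z) * h z ^ (Nat.card (SL(2, ℤ) ⧸ Γ) - r) = 0 := by
  have hex : ∀ r : ℕ, ∃ P : Polynomial ℂ, ∀ z, esymmFun hh.toSIF r z = P.eval (kleinJ z) := by
    intro r
    obtain ⟨m, hm⟩ := g1g_exists_isWeakLevelOne_esymmFun hh r
    obtain ⟨P, -, hP⟩ := exists_polynomial_of_isWeakLevelOne m _ hm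
    exact ⟨P, hP⟩
  choose P hP using hex
  refine ⟨fun r => if r = 0 then 1 else P r, by simp, fun z => ?_⟩
  have hroot := esymm_root hh.toSIF z
  rw [g1g_card_quot_eq Γ] at hroot
  rw [← hroot]
  refine Finset.sum_congr rfl fun r _ => ?_
  by_cases hr : r = 0
  · subst hr
    simp [esymmFun_zero]
    rfl
  · simp only [hr, if_false, hP r z]
    rfl

end Fermat.Agent.DS
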