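/-
DS-T / [G1] generic-Γ layer, generic half of [I3], part 1: `q`-expansions with coefficients in a
subfield `K₀ ⊆ ℂ` of the weakly holomorphic modular functions for a subgroup `Γ ≤ SL(2,ℤ)` of finite
index containing `T` (cusp `∞` of width `1`).

Twin of parts A–C of `JT3/Gateway/BarComplete.lean` (written there for `Γ₀(N)` and `Q̄`), with the
embedding `ι : K₀ →+* ℂ` a parameter, so that `K₀ = Q̄` and `K₀ = ℂ` are covered at once.

* `g1g_isWeakModFun_of_pow`: an invariant holomorphic `n`-th root of a weakly modular function is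
  weakly modular;
* `g1g_exists_laurentQ`: a weakly modular function for `Γ ∋ T` has a Laurent `q`-expansion;
* `g1g_qdescend`: a Laurent series over `ℂ` whose `n`-th power has coefficients in `K₀` is a
  constant times a Laurent series with coefficients in `K₀`;
* `g1g_qW Γ ι`: the `K₀`-algebra of the `x ∈ K₀((q))` whose image in `ℂ((q))` is the `q`-expansion of
  a weakly modular function for `Γ`;
* `g1g_qrelation`: every `x ∈ g1g_qW Γ ι` satisfies a relation of degree `d = [SL(2,ℤ) : Γ]` over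
  `K₀[j]`, with nonzero leading coefficient;
* `g1g_qexists_inv`: a nonzero element of `g1g_qW` has an inverse in `g1g_qW` up to a nonzero
  polynomial in `j`.
Prefix `g1g_`.
-/
import Mathlib
import Fermat.Prelude.Def_ModularCurve_X0ModL
import Fermat.Prelude.Thm_ModularCurve_coeff_jqModC_pow_self
import Fermat.Prelude.Thm_ModularCurve_coeff_jqModC_pow_of_lt
import Fermat.Agent.JT3.Gateway.BarComplete
import Fermat.Agent.DS.Gam1.Gen.FunctionDegree

set_option autoImplicit false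

open UpperHalfPlane ModularForm Filter Topology Function Complex
open scoped MatrixGroups IntermediateField Manifold
open Fermat.Agent.S23.QF (IsQFun)

namespace Fermat.Agent.DS

open Fermat.Agent.S24 Fermat.Agent.JT3 ModularCurve

variable {Γ : Subgroup SL(2, ℤ)}

/-! ### Part A: roots and `q`-expansions of weakly modular functions -/

/-- an invariant holomorphic `n`-th root of a weakly holomorphic modular function is weakly
holomorphic -/
theorem g1g_isWeakModFun_of_pow {n : ℕ} (hn : 0 < n) {g h : ℍ → ℂ} (hg : g1g_IsWeakModFun Γ g)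
    (hh : MDiff h) (hinv : ∀ γ ∈ Γ, ∀ z : ℍ, h (γ • z) = h z)
    (hpow : ∀ z, h z ^ n = g z) : g1g_IsWeakModFun Γ h := by
  refine ⟨hh, hinv, fun γ => ?_⟩
  obtain ⟨m, hm⟩ := hg.growth γ
  refine ⟨m, gb_bdd_of_pow hn ?_⟩
  have e : (qH ^ m * fun z => h (γ • z)) ^ n =
      qH ^ (m * (n - 1)) * (qH ^ m * fun z => g (γ • z)) := by
    ext z
    simp only [Pi.pow_apply, Pi.mul_apply, mul_pow, hpow]
    rw [← mul_assoc, ← pow_mul, ← pow_add]
    congr 2
    obtain ⟨k, rfl⟩ : ∃ k, n = k + 1 := ⟨n - 1, by omega⟩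
    simp only [Nat.add_sub_cancel]
    ring
  rw [e]
  exact (isBoundedAtImInfty_qH_pow _).mul hm

/-- a weakly holomorphic modular function for `Γ ∋ T` has a Laurent `q`-expansion -/
theorem g1g_exists_laurentQ (hT : ModularGroup.T ∈ Γ) {h : ℍ → ℂ}
    (hh : g1g_IsWeakModFun Γ h) : ∃ H : LaurentSeries ℂ, br_HasLaurentQ h H := by
  obtain ⟨m, hm⟩ := hh.growth 1
  have hm' : IsBoundedAtImInfty (qH ^ m * h) := by
    have e : (fun z => h ((1 : SL(2, ℤ)) • z)) = h := by ext z; rw [one_smul]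
    rwa [e] at hm
  have hper : Periodic (h ∘ ofComplex) (1 : ℂ) := by
    apply gm_periodic_of_vadd
    intro τ
    rw [← UpperHalfPlane.modular_T_smul]
    exact hh.inv _ hT τ
  have hQ : IsQFun (qH ^ m * h) :=
    ⟨(qH_mdiff.pow m).mul hh.mdiff, (isQFun_qH.pow m).periodic.mul hper, hm'⟩
  refine ⟨HahnSeries.single (-(m : ℤ)) (1 : ℂ) *
    HahnSeries.ofPowerSeries ℤ ℂ (qExpansion 1 (qH ^ m * h)), m, hQ, ?_⟩
  rw [← mul_assoc, br_single_mul_single, add_neg_cancel]
  exact (one_mul _).symm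

/-! ### Part B: descent of the coefficients of an `n`-th root -/

section descend

variable {K₀ : Type*} [Field K₀] (ι : K₀ →+* ℂ)

theorem g1g_coeffMap_algebraMap (c : K₀) :
    coeffMap ι (algebraMap K₀ (LaurentSeries K₀) c) = HahnSeries.C (ι c) := by
  rw [algebraMap_laurentSeries_eq_single, coeffMap_single]
  rfl

/-- **descent of an `n`-th root**: a Laurent series over `ℂ` whose `n`-th power has coefficients in
`K₀` is a constant times a Laurent series with coefficients in `K₀`. -/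
theorem g1g_qdescend {n : ℕ} (hn : 0 < n) (H : LaurentSeries ℂ) (a' : LaurentSeries K₀)
    (ha' : a' ≠ 0) (hpow : H ^ n = coeffMap ι a') :
    ∃ (c : ℂ) (H₀ : LaurentSeries K₀), c ≠ 0 ∧ H = HahnSeries.C c * coeffMap ι H₀ := by
  have hH0 : H ≠ 0 := by
    rintro rfl
    rw [zero_pow hn.ne'] at hpow
    apply ha'
    refine br_coeffMap_injective ι ι.injective ?_
    rw [← hpow, map_zero]
  obtain ⟨k, hk⟩ : ∃ k : ℤ, k = H.order := ⟨_, rfl⟩
  obtain ⟨g', hg'⟩ : ∃ g' : PowerSeries ℂ, g' = LaurentSeries.powerSeriesPart H := ⟨_, rfl⟩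
  have hsplit : HahnSeries.single k (1 : ℂ) * HahnSeries.ofPowerSeries ℤ ℂ g' = H := by
    rw [hk, hg']
    exact LaurentSeries.single_order_mul_powerSeriesPart H
  obtain ⟨c, hc⟩ : ∃ c : ℂ, c = PowerSeries.coeff 0 g' := ⟨_, rfl⟩
  have hc0 : c ≠ 0 := by
    rw [hc, hg', LaurentSeries.powerSeriesPart_coeff, Nat.cast_zero, add_zero]
    exact fun h => hH0 (HahnSeries.coeff_order_eq_zero.mp h)
  obtain ⟨g, hg⟩ : ∃ g : PowerSeries ℂ, g = PowerSeries.C c⁻¹ * g' := ⟨_, rfl⟩
  have hg0 : PowerSeries.coeff 0 g = 1 := by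
    rw [hg, PowerSeries.coeff_C_mul, ← hc, inv_mul_cancel₀ hc0]
  have hgg' : g' = PowerSeries.C c * g := by
    rw [hg, ← mul_assoc, ← map_mul, mul_inv_cancel₀ hc0, map_one, one_mul]
  obtain ⟨S, hS⟩ : ∃ S : Subfield ℂ, S = ι.fieldRange := ⟨_, rfl⟩
  -- the key identity
  have hid : HahnSeries.ofPowerSeries ℤ ℂ (PowerSeries.C (c ^ n) * g ^ n) =
      HahnSeries.single (-(n • k)) (1 : ℂ) * coeffMap ι a' := by
    have e1 : H ^ n = HahnSeries.single (n • k) (1 : ℂ) *
        HahnSeries.ofPowerSeries ℤ ℂ (PowerSeries.C (c ^ n) * g ^ n) := by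
      rw [← hsplit, mul_pow, HahnSeries.single_pow, one_pow, ← map_pow, hgg', mul_pow, ← map_pow]
    rw [← hpow, e1, ← mul_assoc, br_single_mul_single, neg_add_cancel]
    exact (one_mul _).symm
  have hcoef : ∀ j : ℕ, c ^ n * PowerSeries.coeff j (g ^ n) ∈ S := by
    intro j
    have h1 := congrArg (fun x : LaurentSeries ℂ => x.coeff (j : ℤ)) hid
    simp only [HahnSeries.ofPowerSeries_apply_coeff, PowerSeries.coeff_C_mul,
      HahnSeries.coeff_single_mul, one_mul, coeffMap_coeff] at h1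
    rw [h1, hS]
    exact ⟨_, rfl⟩
  have hB0 : PowerSeries.coeff 0 (g ^ n) = 1 := by
    rw [PowerSeries.coeff_zero_eq_constantCoeff_apply, map_pow,
      ← PowerSeries.coeff_zero_eq_constantCoeff_apply, hg0, one_pow]
  have hcn : c ^ n ∈ S := by
    have h1 := hcoef 0
    rwa [hB0, mul_one] at h1
  have hcn0 : c ^ n ≠ 0 := pow_ne_zero _ hc0
  have hB : ∀ j, PowerSeries.coeff j (g ^ n) ∈ S := by
    intro j
    have h1 : PowerSeries.coeff j (g ^ n) = (c ^ n)⁻¹ * (c ^ n * PowerSeries.coeff j (g ^ n)) := by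
      rw [← mul_assoc, inv_mul_cancel₀ hcn0, one_mul]
    rw [h1]
    exact mul_mem (inv_mem hcn) (hcoef j)
  have hgS := gb_coeff_mem S hn.ne' g hg0 hB
  have hex : ∀ j, ∃ x : K₀, ι x = PowerSeries.coeff j g := by
    intro j
    have := hgS j
    rw [hS] at this
    exact RingHom.mem_fieldRange.mp this
  choose x hx using hex
  refine ⟨c, HahnSeries.single k (1 : K₀) * HahnSeries.ofPowerSeries ℤ K₀ (PowerSeries.mk x),
    hc0, ?_⟩
  have hmap : (PowerSeries.mk x).map ι = g := by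
    ext j
    rw [PowerSeries.coeff_map, PowerSeries.coeff_mk, hx]
  rw [map_mul, coeffMap_single, map_one, br_coeffMap_ofPowerSeries, hmap, ← hsplit,
    hgg', map_mul, HahnSeries.ofPowerSeries_C]
  ring

/-- **descent of linear relations** from `ℂ((q))` to `K₀((q))`: a `ℂ`-linear relation among the
images of Laurent series with `K₀`-coefficients, with a nonzero coefficient at `i₀`, yields a
`K₀`-linear relation with a nonzero coefficient at `i₀`. -/
theorem g1g_exists_rel_of_complex_rel {I : Type*} (s : Finset I) (v : I → LaurentSeries K₀)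
    (lam : I → ℂ) (i₀ : I) (h0 : lam i₀ ≠ 0)
    (h : ∑ i ∈ s, HahnSeries.C (lam i) * coeffMap ι (v i) = 0) :
    ∃ μ : I → K₀, μ i₀ ≠ 0 ∧
      ∑ i ∈ s, algebraMap K₀ (LaurentSeries K₀) (μ i) * v i = 0 := by
  let _ : Algebra K₀ ℂ := ι.toAlgebra
  obtain ⟨φ, hφ⟩ : ∃ φ : Module.Dual K₀ ℂ, φ (lam i₀) ≠ 0 := by
    by_contra hcon
    simp only [not_exists, not_not] at hcon
    exact h0 ((Module.forall_dual_apply_eq_zero_iff K₀ (lam i₀)).mp hcon)
  refine ⟨fun i => φ (lam i), hφ, ?_⟩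
  ext k
  rw [HahnSeries.coeff_sum, HahnSeries.coeff_zero]
  have hk := congrArg (fun x : LaurentSeries ℂ => x.coeff k) h
  simp only [HahnSeries.coeff_sum, HahnSeries.coeff_zero] at hk
  have hk2 : ∑ i ∈ s, (v i).coeff k • lam i = 0 := by
    rw [← hk]
    refine Finset.sum_congr rfl fun i _ => ?_
    rw [HahnSeries.C_apply, HahnSeries.coeff_single_mul, sub_zero, coeffMap_coeff,
      Algebra.smul_def, mul_comm]
    rfl
  have hk3 := congrArg φ hk2
  rw [map_sum, map_zero] at hk3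
  rw [← hk3]
  refine Finset.sum_congr rfl fun i _ => ?_
  rw [algebraMap_laurentSeries_eq_single, HahnSeries.coeff_single_mul, sub_zero, map_smul,
    smul_eq_mul, mul_comm]

end descend

/-! ### Part C: expansions of weakly holomorphic modular functions with `K₀`-coefficients -/

section qW

variable (Γ) {K₀ : Type*} [Field K₀] (ι : K₀ →+* ℂ)

theorem g1g_coeffMap_jq : coeffMap ι (jqModC K₀) = br_jqC := by
  rw [coeffMap_jqModC, br_jqC, ← jqModC_rat, coeffMap_jqModC]

/-- the Laurent series over `K₀` whose image over `ℂ` is the `q`-expansion of a weakly holomorphic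
modular function for `Γ` -/
def g1g_qW : Subalgebra K₀ (LaurentSeries K₀) where
  carrier := {x | ∃ g : ℍ → ℂ, g1g_IsWeakModFun Γ g ∧ br_HasLaurentQ g (coeffMap ι x)}
  mul_mem' := by
    rintro x y ⟨g₁, w₁, h₁⟩ ⟨g₂, w₂, h₂⟩
    exact ⟨g₁ * g₂, w₁.mul w₂, by rw [map_mul]; exact h₁.mul h₂⟩
  add_mem' := by
    rintro x y ⟨g₁, w₁, h₁⟩ ⟨g₂, w₂, h₂⟩
    exact ⟨g₁ + g₂, w₁.add w₂, by rw [map_add]; exact h₁.add h₂⟩
  algebraMap_mem' c :=
    ⟨fun _ => ι c, g1g_IsWeakModFun.const Γ _, by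
      rw [g1g_coeffMap_algebraMap]; exact br_HasLaurentQ.const _⟩

variable {Γ ι}

theorem g1g_mem_qW {x : LaurentSeries K₀} :
    x ∈ g1g_qW Γ ι ↔ ∃ g : ℍ → ℂ, g1g_IsWeakModFun Γ g ∧
      br_HasLaurentQ g (coeffMap ι x) := Iff.rfl

variable (Γ ι)

theorem g1g_jq_mem_qW : jqModC K₀ ∈ g1g_qW Γ ι :=
  ⟨kleinJ, g1g_isWeakModFun_kleinJ Γ, by rw [g1g_coeffMap_jq]; exact br_HasLaurentQ_kleinJ⟩

theorem g1g_aeval_mem_qW (p : Polynomial K₀) :
    Polynomial.aeval (jqModC K₀) p ∈ g1g_qW Γ ι := by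
  have := Polynomial.aeval_subalgebra_coe p (g1g_qW Γ ι) ⟨jqModC K₀, g1g_jq_mem_qW Γ ι⟩
  rw [← this]
  exact Subtype.property _

omit ι in
theorem g1g_coeff_aeval_jq (p : Polynomial K₀) :
    (Polynomial.aeval (jqModC K₀) p).coeff (-(p.natDegree : ℤ)) = p.leadingCoeff := by
  rw [Polynomial.aeval_def, Polynomial.eval₂_eq_sum_range, HahnSeries.coeff_sum,
    Finset.sum_range_succ, Finset.sum_eq_zero, zero_add]
  · rw [algebraMap_laurentSeries_eq_single, HahnSeries.coeff_single_mul, sub_zero,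
      coeff_jqModC_pow_self, mul_one]
    rfl
  · intro i hi
    have hlt := Finset.mem_range.mp hi
    rw [algebraMap_laurentSeries_eq_single, HahnSeries.coeff_single_mul, sub_zero,
      coeff_jqModC_pow_of_lt K₀ (by omega), mul_zero]

omit ι in
theorem g1g_jq_transcendental : Transcendental K₀ (jqModC K₀) := by
  intro h
  obtain ⟨p, hp0, hp⟩ := h
  have := g1g_coeff_aeval_jq p
  rw [hp] at this
  simp only [HahnSeries.coeff_zero] at this
  exact hp0 (Polynomial.leadingCoeff_eq_zero.mp this.symm)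

omit ι in
theorem g1g_aeval_jq_ne_zero {p : Polynomial K₀} (hp : p ≠ 0) :
    Polynomial.aeval (jqModC K₀) p ≠ 0 := fun h => g1g_jq_transcendental ⟨p, hp, h⟩

variable {Γ ι}

/-- the algebraic relation of degree `[SL(2,ℤ) : Γ]` over `K₀[j]` for the elements of `g1g_qW` -/
theorem g1g_qrelation [Γ.FiniteIndex] {x : LaurentSeries K₀} (hx : x ∈ g1g_qW Γ ι) :
    ∃ c : ℕ → Polynomial K₀, c 0 ≠ 0 ∧
      ∑ r ∈ Finset.range (Nat.card (SL(2, ℤ) ⧸ Γ) + 1),
        Polynomial.aeval (jqModC K₀) (c r) * x ^ (Nat.card (SL(2, ℤ) ⧸ Γ) - r) = 0 := by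
  obtain ⟨h, hw, hL⟩ := hx
  obtain ⟨P, hP0, hP⟩ := g1g_exists_monic_relation hw
  set n := Nat.card (SL(2, ℤ) ⧸ Γ) with hn
  -- bound on the degrees
  set D := (Finset.range (n + 1)).sup (fun r => (P r).natDegree) + 1 with hD
  have hdeg : ∀ r ∈ Finset.range (n + 1), (P r).natDegree < D := fun r hr =>
    Nat.lt_succ_of_le (Finset.le_sup (f := fun r => (P r).natDegree) hr)
  -- index set
  let s : Finset (ℕ × ℕ) := Finset.range D ×ˢ Finset.range (n + 1)
  let lam : ℕ × ℕ → ℂ := fun i => (-1) ^ i.2 * (P i.2).coeff i.1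
  let v : ℕ × ℕ → LaurentSeries K₀ := fun i => jqModC K₀ ^ i.1 * x ^ (n - i.2)
  have hlam0 : lam (0, 0) ≠ 0 := by simp [lam, hP0]
  have hrel : ∑ i ∈ s, HahnSeries.C (lam i) * coeffMap ι (v i) = 0 := by
    have hLs : br_HasLaurentQ (∑ i ∈ s, (fun _ => lam i) * (kleinJ ^ i.1 * h ^ (n - i.2)))
        (∑ i ∈ s, HahnSeries.C (lam i) * coeffMap ι (v i)) := by
      refine br_HasLaurentQ.sum s fun i _ => (br_HasLaurentQ.const _).mul ?_
      simp only [v, map_mul, map_pow, g1g_coeffMap_jq]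
      exact (br_HasLaurentQ_kleinJ.pow _).mul (hL.pow _)
    refine hLs.eq_zero_iff.mp ?_
    ext z
    rw [Finset.sum_apply, Pi.zero_apply, Finset.sum_product_right]
    rw [← hP z]
    refine Finset.sum_congr rfl fun r hr => ?_
    rw [Polynomial.eval_eq_sum_range' (hdeg r hr), Finset.mul_sum, Finset.sum_mul]
    refine Finset.sum_congr rfl fun k _ => ?_
    simp only [Pi.mul_apply, Pi.pow_apply, lam]
    ring
  obtain ⟨μ, hμ0, hμ⟩ := g1g_exists_rel_of_complex_rel ι s v lam (0, 0) hlam0 hrel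
  refine ⟨fun r => ∑ k ∈ Finset.range D, Polynomial.monomial k (μ (k, r)), ?_, ?_⟩
  · intro h0
    have h1 := congrArg (fun p => Polynomial.coeff p 0) h0
    simp only [Polynomial.finsetSum_coeff, Polynomial.coeff_monomial, Polynomial.coeff_zero,
      Finset.sum_ite_eq', Finset.mem_range] at h1
    rw [if_pos (by rw [hD]; exact Nat.succ_pos _)] at h1
    exact hμ0 h1
  · rw [← hμ, Finset.sum_product_right]
    refine Finset.sum_congr rfl fun r _ => ?_
    rw [map_sum, Finset.sum_mul]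
    refine Finset.sum_congr rfl fun k _ => ?_
    rw [Polynomial.aeval_monomial]
    simp only [v]
    ring

/-- a nonzero element of `g1g_qW` has an inverse in `g1g_qW` up to a nonzero polynomial in `j` -/
theorem g1g_qexists_inv [Γ.FiniteIndex] {w : LaurentSeries K₀} (hw : w ∈ g1g_qW Γ ι)
    (hw0 : w ≠ 0) :
    ∃ b ∈ g1g_qW Γ ι, ∃ d : Polynomial K₀, d ≠ 0 ∧
      w * b = Polynomial.aeval (jqModC K₀) d := by
  obtain ⟨c, hc0, hc⟩ := g1g_qrelation hw
  obtain ⟨b, hb, r₀, hr₀, hsb⟩ := br_exists_mul_eq_coeff (g1g_qW Γ ι) hw hw0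
    (Nat.card (SL(2, ℤ) ⧸ Γ))
    (fun r => Polynomial.aeval (jqModC K₀) (c r)) (fun r => g1g_aeval_mem_qW Γ ι (c r))
    ⟨0, Nat.zero_le _, g1g_aeval_jq_ne_zero hc0⟩ hc
  refine ⟨b, hb, c r₀, ?_, hsb⟩
  rintro h0
  rw [h0, map_zero] at hr₀
  exact hr₀ rfl

end qW

end Fermat.Agent.DS
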