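/-
DS-T / [G1] generic-Γ layer, generic half of [I3], part 2: the degree count and completeness in
`q`-expansion form.

`Γ ≤ SL(2,ℤ)` of finite index, `ι : K₀ →+* ℂ` a field of characteristic zero inside `ℂ`,
`F ⊆ K₀((q))` a field containing `j` such that every element of `F` is a quotient `w / d(j)` with
`w ∈ g1g_qW Γ ι` (the `q`-expansions with `K₀`-coefficients of the weakly modular functions for `Γ`).
If `[SL(2,ℤ) : Γ] ≤ [F : K₀(j)]` (as soon as the right-hand side is finite), then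

* `g1g_qfield_finite`, `g1g_qfinrank_le`: `[F : K₀(j)] ≤ [SL(2,ℤ) : Γ]`;
* **`g1g_qW_le`**: `g1g_qW Γ ι ⊆ F` — every `q`-expansion with `K₀`-coefficients of a weakly modular
  function for `Γ` lies in `F`.

Twin of part D of `JT3/Gateway/BarComplete.lean` (`gb_D`, `gb_mem_field`) and of
`JT3/Gateway/CComplete.lean` (`gc_W_le_F`), which are the cases `Γ = Γ₀(N)`, `K₀ = Q̄` resp. `ℂ`.
Prefix `g1g_`.
-/
import Mathlib
import Fermat.Agent.S24.DegreeBound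
import Fermat.Agent.DS.Gam1.Gen.QWeak

set_option autoImplicit false
set_option synthInstance.maxHeartbeats 200000
set_option maxHeartbeats 400000

open UpperHalfPlane ModularForm Filter Topology Function Complex
open scoped MatrixGroups IntermediateField Manifold

namespace Fermat.Agent.DS

open Fermat.Agent.S24 Fermat.Agent.JT3 ModularCurve

section Field

variable {Γ : Subgroup SL(2, ℤ)} [Γ.FiniteIndex] {K₀ : Type*} [Field K₀] {ι : K₀ →+* ℂ}
  (F : IntermediateField K₀ (LaurentSeries K₀)) (hj : jqModC K₀ ∈ F)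

/-- `j` as an element of `F` -/
noncomputable def g1g_qjF : F := ⟨jqModC K₀, hj⟩

omit [Γ.FiniteIndex] in
theorem g1g_qjF_coe : ((g1g_qjF F hj : F) : LaurentSeries K₀) = jqModC K₀ := rfl

/-- the embedding of `K₀(j) ⊆ F` into `K₀((q))` -/
noncomputable def g1g_qEtoL : K₀⟮g1g_qjF F hj⟯ →ₐ[K₀] LaurentSeries K₀ :=
  (F.val).comp (K₀⟮g1g_qjF F hj⟯.val)

omit [Γ.FiniteIndex] in
theorem g1g_qEtoL_aeval (q : Polynomial K₀) :
    g1g_qEtoL F hj (Polynomial.aeval (IntermediateField.AdjoinSimple.gen K₀ (g1g_qjF F hj)) q)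
      = Polynomial.aeval (jqModC K₀) q := by
  exact (Polynomial.aeval_algHom_apply (g1g_qEtoL F hj)
    (IntermediateField.AdjoinSimple.gen K₀ (g1g_qjF F hj)) q).symm

variable (Γ ι)

/-- the quotients `w / d(j)`, `w ∈ g1g_qW Γ ι`, `0 ≠ d ∈ K₀[j]`, as a field over `K₀(j) ⊆ F` -/
def g1g_qD : IntermediateField ↥(K₀⟮g1g_qjF F hj⟯) (LaurentSeries K₀) where
  carrier := {x | ∃ w ∈ g1g_qW Γ ι, ∃ d : Polynomial K₀, d ≠ 0 ∧
    x * Polynomial.aeval (jqModC K₀) d = w}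
  mul_mem' := by
    rintro x y ⟨w₁, hw₁, d₁, hd₁, h₁⟩ ⟨w₂, hw₂, d₂, hd₂, h₂⟩
    refine ⟨w₁ * w₂, mul_mem hw₁ hw₂, d₁ * d₂, mul_ne_zero hd₁ hd₂, ?_⟩
    rw [map_mul, ← h₁, ← h₂]
    ring
  one_mem' := ⟨1, one_mem _, 1, one_ne_zero, by rw [map_one, mul_one]⟩
  add_mem' := by
    rintro x y ⟨w₁, hw₁, d₁, hd₁, h₁⟩ ⟨w₂, hw₂, d₂, hd₂, h₂⟩
    refine ⟨w₁ * Polynomial.aeval (jqModC K₀) d₂ + w₂ * Polynomial.aeval (jqModC K₀) d₁,
      add_mem (mul_mem hw₁ (g1g_aeval_mem_qW Γ ι d₂)) (mul_mem hw₂ (g1g_aeval_mem_qW Γ ι d₁)),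
      d₁ * d₂, mul_ne_zero hd₁ hd₂, ?_⟩
    rw [map_mul, ← h₁, ← h₂]
    ring
  zero_mem' := ⟨0, zero_mem _, 1, one_ne_zero, by rw [zero_mul]⟩
  algebraMap_mem' e := by
    show ∃ w ∈ g1g_qW Γ ι, ∃ d : Polynomial K₀, d ≠ 0 ∧
      g1g_qEtoL F hj e * Polynomial.aeval (jqModC K₀) d = w
    obtain ⟨r, s, hrs⟩ := (IntermediateField.mem_adjoin_simple_iff K₀ (e : F)).mp e.2
    have h1 : g1g_qEtoL F hj e =
        Polynomial.aeval (jqModC K₀) r / Polynomial.aeval (jqModC K₀) s := by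
      show F.val (e : F) = _
      rw [hrs, map_div₀, ← Polynomial.aeval_algHom_apply, ← Polynomial.aeval_algHom_apply]
      rfl
    by_cases hs : s = 0
    · refine ⟨0, zero_mem _, 1, one_ne_zero, ?_⟩
      rw [h1, hs, map_zero, div_zero, zero_mul]
    · refine ⟨Polynomial.aeval (jqModC K₀) r, g1g_aeval_mem_qW Γ ι r, s, hs, ?_⟩
      rw [h1, div_mul_cancel₀ _ (g1g_aeval_jq_ne_zero hs)]
  inv_mem' := by
    rintro x ⟨w, hw, d, hd, h⟩
    by_cases hx : x = 0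
    · subst hx
      exact ⟨0, zero_mem _, 1, one_ne_zero, by rw [inv_zero, zero_mul]⟩
    · have hd0 : Polynomial.aeval (jqModC K₀) d ≠ 0 := g1g_aeval_jq_ne_zero hd
      have hw0 : w ≠ 0 := by rw [← h]; exact mul_ne_zero hx hd0
      obtain ⟨b, hb, d', hd', hwb⟩ := g1g_qexists_inv hw hw0
      refine ⟨Polynomial.aeval (jqModC K₀) d * b, mul_mem (g1g_aeval_mem_qW Γ ι d) hb, d', hd', ?_⟩
      rw [← hwb, ← h]
      field_simp

variable {Γ ι}

theorem g1g_mem_qD {x : LaurentSeries K₀} :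
    x ∈ g1g_qD Γ ι F hj ↔ ∃ w ∈ g1g_qW Γ ι, ∃ d : Polynomial K₀, d ≠ 0 ∧
      x * Polynomial.aeval (jqModC K₀) d = w := Iff.rfl

theorem g1g_qW_le_qD {x : LaurentSeries K₀} (hx : x ∈ g1g_qW Γ ι) : x ∈ g1g_qD Γ ι F hj :=
  ⟨x, hx, 1, one_ne_zero, by rw [map_one, mul_one]⟩

/-- every element of `g1g_qD` is a root of a nonzero polynomial of degree `≤ [SL(2,ℤ) : Γ]` over
`K₀(j)` -/
theorem g1g_qexists_poly {x : LaurentSeries K₀} (hx : x ∈ g1g_qD Γ ι F hj) :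
    ∃ p : Polynomial ↥(K₀⟮g1g_qjF F hj⟯), p ≠ 0 ∧ p.natDegree ≤ Nat.card (SL(2, ℤ) ⧸ Γ) ∧
      Polynomial.aeval x p = 0 := by
  obtain ⟨w, hw, d, hd0, hxd⟩ := hx
  obtain ⟨c, hc0, hc⟩ := g1g_qrelation hw
  set n := Nat.card (SL(2, ℤ) ⧸ Γ) with hn
  let e : ℕ → K₀⟮g1g_qjF F hj⟯ := fun r =>
    Polynomial.aeval (IntermediateField.AdjoinSimple.gen K₀ (g1g_qjF F hj)) (c r * d ^ (n - r))
  have he : ∀ r, g1g_qEtoL F hj (e r) = Polynomial.aeval (jqModC K₀) (c r * d ^ (n - r)) :=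
    fun r => g1g_qEtoL_aeval F hj _
  refine ⟨∑ r ∈ Finset.range (n + 1), Polynomial.C (e r) * Polynomial.X ^ (n - r), ?_, ?_, ?_⟩
  · intro h0
    have h1 := congrArg (fun p => Polynomial.coeff p n) h0
    simp only [Polynomial.finsetSum_coeff, Polynomial.coeff_C_mul_X_pow,
      Polynomial.coeff_zero] at h1
    rw [Finset.sum_eq_single 0] at h1
    · rw [if_pos (by simp)] at h1
      have h2 := he 0
      rw [h1, map_zero] at h2
      exact g1g_aeval_jq_ne_zero (mul_ne_zero hc0 (pow_ne_zero _ hd0)) h2.symm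
    · intro r hr hr0
      have := Finset.mem_range.mp hr
      rw [if_neg (by omega)]
    · intro h
      exact absurd (Finset.mem_range.mpr (Nat.succ_pos n)) h
  · refine Polynomial.natDegree_sum_le_of_forall_le _ _ fun r _ => ?_
    exact (Polynomial.natDegree_C_mul_X_pow_le _ _).trans (Nat.sub_le _ _)
  · rw [map_sum, ← hc]
    refine Finset.sum_congr rfl fun r _ => ?_
    rw [map_mul, map_pow, Polynomial.aeval_C, Polynomial.aeval_X]
    have h3 : algebraMap ↥(K₀⟮g1g_qjF F hj⟯) (LaurentSeries K₀) (e r) = g1g_qEtoL F hj (e r) := rfl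
    rw [h3, he r, map_mul, map_pow, ← hxd, mul_pow]
    ring

variable [CharZero K₀]

/-- `g1g_qD` is finite over `K₀(j)`, of degree at most the index -/
theorem g1g_qD_finrank_le :
    FiniteDimensional ↥(K₀⟮g1g_qjF F hj⟯) ↥(g1g_qD Γ ι F hj) ∧
      Module.finrank ↥(K₀⟮g1g_qjF F hj⟯) ↥(g1g_qD Γ ι F hj) ≤ Nat.card (SL(2, ℤ) ⧸ Γ) := by
  refine finrank_le_of_forall_natDegree_minpoly_le (Nat.card (SL(2, ℤ) ⧸ Γ))
    (fun y => ?_) (fun y => ?_)
  · obtain ⟨p, hp0, -, hp⟩ := g1g_qexists_poly F hj y.2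
    refine IsAlgebraic.isIntegral ⟨p, hp0, ?_⟩
    apply (algebraMap ↥(g1g_qD Γ ι F hj) (LaurentSeries K₀)).injective
    rw [← Polynomial.aeval_algebraMap_apply, map_zero]
    exact hp
  · obtain ⟨p, hp0, hpn, hp⟩ := g1g_qexists_poly F hj y.2
    have hp' : Polynomial.aeval y p = 0 := by
      apply (algebraMap ↥(g1g_qD Γ ι F hj) (LaurentSeries K₀)).injective
      rw [← Polynomial.aeval_algebraMap_apply, map_zero]
      exact hp
    exact (Polynomial.natDegree_le_natDegree (minpoly.degree_le_of_ne_zero _ y hp0 hp')).trans hpn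

/-- the hypothesis "`F ⊆ Frac (g1g_qW)`" -/
def g1g_QFieldLe (Γ : Subgroup SL(2, ℤ)) (ι : K₀ →+* ℂ)
    (F : IntermediateField K₀ (LaurentSeries K₀)) : Prop :=
  ∀ x ∈ F, ∃ w ∈ g1g_qW Γ ι, ∃ d : Polynomial K₀, d ≠ 0 ∧
    x * Polynomial.aeval (jqModC K₀) d = w

omit [CharZero K₀] in
/-- the image of `F` in `K₀((q))`, as a field over `K₀(j)`, lies in `g1g_qD` -/
theorem g1g_qfieldRange_le (hF : g1g_QFieldLe Γ ι F) :
    (IsScalarTower.toAlgHom ↥(K₀⟮g1g_qjF F hj⟯) ↥F (LaurentSeries K₀)).fieldRange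
      ≤ g1g_qD Γ ι F hj := by
  rintro _ ⟨z, rfl⟩
  exact hF _ z.2

/-- **the upper bound**: `F` is finite over `K₀(j)`, of degree at most the index -/
theorem g1g_qfield_finrank_le (hF : g1g_QFieldLe Γ ι F) :
    FiniteDimensional ↥(K₀⟮g1g_qjF F hj⟯) ↥F ∧
      Module.finrank ↥(K₀⟮g1g_qjF F hj⟯) ↥F ≤ Nat.card (SL(2, ℤ) ⧸ Γ) := by
  have hfin := g1g_qD_finrank_le (Γ := Γ) (ι := ι) F hj
  have := hfin.1
  let φ : ↥F →ₐ[↥(K₀⟮g1g_qjF F hj⟯)] LaurentSeries K₀ :=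
    IsScalarTower.toAlgHom ↥(K₀⟮g1g_qjF F hj⟯) ↥F (LaurentSeries K₀)
  have hle : φ.fieldRange ≤ g1g_qD Γ ι F hj := g1g_qfieldRange_le F hj hF
  -- `F → g1g_qD` is an injective linear map
  let ψ : ↥F →ₗ[↥(K₀⟮g1g_qjF F hj⟯)] ↥(g1g_qD Γ ι F hj) :=
    { toFun := fun z => ⟨φ z, hle ⟨z, rfl⟩⟩
      map_add' := fun a b => Subtype.ext (map_add φ a b)
      map_smul' := fun c a => Subtype.ext (by
        show φ (c • a) = _
        rw [map_smul]
        rfl) }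
  have hψ : Function.Injective ψ := by
    intro a b hab
    have h1 := congrArg (fun z : ↥(g1g_qD Γ ι F hj) => (z : LaurentSeries K₀)) hab
    exact φ.toRingHom.injective h1
  have hF1 : FiniteDimensional ↥(K₀⟮g1g_qjF F hj⟯) ↥F := FiniteDimensional.of_injective ψ hψ
  exact ⟨hF1, (LinearMap.finrank_le_finrank_of_injective hψ).trans hfin.2⟩

/-- **the degree count**: if moreover the index is at most `[F : K₀(j)]`, then every `q`-expansion
with `K₀`-coefficients of a weakly holomorphic modular function for `Γ` lies in `F`. -/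
theorem g1g_qW_le (hF : g1g_QFieldLe Γ ι F)
    (hlow : FiniteDimensional ↥(K₀⟮g1g_qjF F hj⟯) ↥F →
      Nat.card (SL(2, ℤ) ⧸ Γ) ≤ Module.finrank ↥(K₀⟮g1g_qjF F hj⟯) ↥F)
    {x : LaurentSeries K₀} (hx : x ∈ g1g_qW Γ ι) : x ∈ F := by
  have hfin := g1g_qD_finrank_le (Γ := Γ) (ι := ι) F hj
  have := hfin.1
  have hF1 := g1g_qfield_finrank_le F hj hF
  have := hF1.1
  let φ : ↥F →ₐ[↥(K₀⟮g1g_qjF F hj⟯)] LaurentSeries K₀ :=
    IsScalarTower.toAlgHom ↥(K₀⟮g1g_qjF F hj⟯) ↥F (LaurentSeries K₀)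
  have hle : φ.fieldRange ≤ g1g_qD Γ ι F hj := g1g_qfieldRange_le F hj hF
  have hrank : Module.finrank ↥(K₀⟮g1g_qjF F hj⟯) ↥φ.fieldRange =
      Module.finrank ↥(K₀⟮g1g_qjF F hj⟯) ↥F := by
    have h1 : Module.finrank ↥(K₀⟮g1g_qjF F hj⟯) ↥(LinearMap.range φ.toLinearMap) =
        Module.finrank ↥(K₀⟮g1g_qjF F hj⟯) ↥F :=
      LinearMap.finrank_range_of_inj (f := φ.toLinearMap) φ.toRingHom.injective
    rw [← h1]
    rfl
  have heq : φ.fieldRange = g1g_qD Γ ι F hj :=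
    IntermediateField.eq_of_le_of_finrank_le hle (by
      rw [hrank]
      exact hfin.2.trans (hlow hF1.1))
  have hxD : x ∈ φ.fieldRange := by rw [heq]; exact g1g_qW_le_qD F hj hx
  obtain ⟨z, rfl⟩ := hxD
  exact z.2

/-- the degree is the index -/
theorem g1g_qfield_finrank_eq (hF : g1g_QFieldLe Γ ι F)
    (hlow : FiniteDimensional ↥(K₀⟮g1g_qjF F hj⟯) ↥F →
      Nat.card (SL(2, ℤ) ⧸ Γ) ≤ Module.finrank ↥(K₀⟮g1g_qjF F hj⟯) ↥F) :
    Module.finrank ↥(K₀⟮g1g_qjF F hj⟯) ↥F = Nat.card (SL(2, ℤ) ⧸ Γ) := by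
  have hF1 := g1g_qfield_finrank_le F hj hF
  exact le_antisymm hF1.2 (hlow hF1.1)

end Field

end Fermat.Agent.DS
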