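/-
DS-T / [G1] generic-Γ layer, generic half of [I3], part 3: completeness, rationality and the degree
of a gateway context given by `q`-expansions.

A *`q`-context*: `Γ ≤ SL(2,ℤ)` of finite index containing `T`; `K₀ ⊆ ℂ` of characteristic zero;
`A ⊆ K₀((q))` a `K₀`-subalgebra containing `j`, `F ⊆ K₀((q))` its fraction field; a gateway context
`C : g1g_Ctx M Γ K₀ F A` such that for every `a ∈ A` the function `C.an a` is weakly modular for `Γ`
with `q`-expansion (the image in `ℂ((q))` of) `a`.  Then (no further input):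

* `g1g_qctx_an_j`        : `C.an j = kleinJ`;
* `g1g_qctx_finite`, **`g1g_qctx_finrank`** : `[F : K₀(j)] = [SL(2,ℤ) : Γ]`;
* **`g1g_qctx_complete`** : `g1g_Complete C`;
* `g1g_qctx_rational`    : `g1g_Rational C`;
* `g1g_qctx_mem`         : every `q`-expansion with `K₀`-coefficients of a weakly modular function
                           for `Γ` lies in `F`.

Twin of `gb_complete` (`JT3/Gateway/BarComplete.lean`), `gc_complete` / `gc_finrank_jF`
(`CComplete`, `CDegree`) and `an_finrank_jBar` (`S24/Bridge/Degree.lean`).  Prefix `g1g_`.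
-/
import Mathlib
import Fermat.Agent.DS.Gam1.Gen.QComplete
import Fermat.Agent.DS.Gam1.Gen.DegreeLower
import Fermat.Agent.DS.Gam1.Gen.Injective

set_option autoImplicit false
set_option synthInstance.maxHeartbeats 200000
set_option maxHeartbeats 400000

open UpperHalfPlane ModularForm Filter Topology Function Complex
open scoped MatrixGroups IntermediateField Manifold

namespace Fermat.Agent.DS

open Fermat.Agent.S24 Fermat.Agent.JT3 ModularCurve

/-- the data of a gateway context given by `q`-expansions -/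
structure g1g_QCtx {M : ℕ} [NeZero M] {Γ : Subgroup SL(2, ℤ)} {K₀ : Type} [Field K₀]
    [Algebra K₀ ℂ] {A : Subalgebra K₀ (LaurentSeries K₀)}
    {F : IntermediateField K₀ (LaurentSeries K₀)} [Algebra A F] [IsScalarTower K₀ A F]
    [IsFractionRing A F] (C : g1g_Ctx M Γ K₀ F A) : Prop where
  /-- `T ∈ Γ` -/
  T_mem : ModularGroup.T ∈ Γ
  /-- `j ∈ A` -/
  j_mem : jqModC K₀ ∈ A
  /-- `A → F` is the inclusion -/
  coe : ∀ a : A, ((algebraMap A F a : F) : LaurentSeries K₀) = (a : LaurentSeries K₀)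
  /-- the realisations are weakly modular -/
  weak : ∀ a : A, g1g_IsWeakModFun Γ (C.an a)
  /-- the `q`-expansion of the realisation of `a` is `a` -/
  spec : ∀ a : A, br_HasLaurentQ (C.an a) (coeffMap (algebraMap K₀ ℂ) (a : LaurentSeries K₀))

section qctx

variable {M : ℕ} [NeZero M] {Γ : Subgroup SL(2, ℤ)} [Γ.FiniteIndex] {K₀ : Type} [Field K₀]
  [Algebra K₀ ℂ] [CharZero K₀] {A : Subalgebra K₀ (LaurentSeries K₀)}
  {F : IntermediateField K₀ (LaurentSeries K₀)} [Algebra A F] [IsScalarTower K₀ A F]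
  [IsFractionRing A F] {C : g1g_Ctx M Γ K₀ F A}

local notation "ι" => algebraMap K₀ ℂ

namespace g1g_QCtx

variable (Q : g1g_QCtx C)
include Q

omit [Γ.FiniteIndex] [CharZero K₀] in
theorem le_qW : A ≤ g1g_qW Γ ι := fun x hx => ⟨C.an ⟨x, hx⟩, Q.weak ⟨x, hx⟩, Q.spec ⟨x, hx⟩⟩

omit [Γ.FiniteIndex] [CharZero K₀] in
theorem j_mem_F : jqModC K₀ ∈ F := by
  have h1 : ((algebraMap A F ⟨jqModC K₀, Q.j_mem⟩ : F) : LaurentSeries K₀) = jqModC K₀ :=
    Q.coe ⟨jqModC K₀, Q.j_mem⟩
  rw [← h1]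
  exact Subtype.property _

/-- `j` as an element of `A` -/
noncomputable def jA : A := ⟨jqModC K₀, Q.j_mem⟩

omit [Γ.FiniteIndex] [CharZero K₀] in
theorem algebraMap_jA : algebraMap A F Q.jA = g1g_qjF F Q.j_mem_F :=
  Subtype.ext (Q.coe Q.jA)

omit [Γ.FiniteIndex] [CharZero K₀] in
/-- the realisation of `j` is Klein's `j` -/
theorem an_jA : C.an Q.jA = kleinJ := by
  have h1 := Q.spec Q.jA
  have h2 : br_HasLaurentQ kleinJ (coeffMap ι ((Q.jA : A) : LaurentSeries K₀)) := by
    show br_HasLaurentQ kleinJ (coeffMap ι (jqModC K₀))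
    rw [g1g_coeffMap_jq]
    exact br_HasLaurentQ_kleinJ
  exact h1.unique_left h2

omit [CharZero K₀] in
/-- every element of `F` is `w / d(j)` with `w` the expansion of a weakly modular function -/
theorem fieldLe : g1g_QFieldLe Γ ι F := by
  intro x hx
  obtain ⟨r, s, hs, hrs⟩ := IsFractionRing.div_surjective (A := A) (⟨x, hx⟩ : F)
  have hs0 : (s : LaurentSeries K₀) ≠ 0 := by
    intro h0
    have : s = 0 := Subtype.ext h0
    rw [this] at hs
    exact zero_notMem_nonZeroDivisors hs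
  have hx' : x = (r : LaurentSeries K₀) / (s : LaurentSeries K₀) := by
    have h1 := congrArg (fun z : F => (z : LaurentSeries K₀)) hrs
    simp only at h1
    rw [← h1]
    show ((algebraMap A F r / algebraMap A F s : F) : LaurentSeries K₀) = _
    rw [IntermediateField.coe_div, Q.coe, Q.coe]
  obtain ⟨b, hb, d, hd, hsb⟩ := g1g_qexists_inv (Q.le_qW s.2) hs0
  refine ⟨r * b, mul_mem (Q.le_qW r.2) hb, d, hd, ?_⟩
  rw [hx', ← hsb]
  field_simp

/-- **`F` is finite over `K₀(j)`** -/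
theorem finite : FiniteDimensional ↥(K₀⟮algebraMap A F Q.jA⟯) ↥F := by
  rw [Q.algebraMap_jA]
  exact (g1g_qfield_finrank_le F Q.j_mem_F Q.fieldLe).1

theorem card_le_finrank (_h : FiniteDimensional ↥(K₀⟮g1g_qjF F Q.j_mem_F⟯) ↥F) :
    Nat.card (SL(2, ℤ) ⧸ Γ) ≤ Module.finrank ↥(K₀⟮g1g_qjF F Q.j_mem_F⟯) ↥F := by
  have h1 : FiniteDimensional ↥(K₀⟮algebraMap A F Q.jA⟯) ↥F := Q.finite
  have h2 := g1g_card_le_finrank C Q.an_jA
  have e := Q.algebraMap_jA
  rw [e] at h2
  exact h2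

/-- **the degree**: `[F : K₀(j)] = [SL(2,ℤ) : Γ]` -/
theorem finrank :
    Module.finrank ↥(K₀⟮algebraMap A F Q.jA⟯) ↥F = Nat.card (SL(2, ℤ) ⧸ Γ) := by
  rw [Q.algebraMap_jA]
  exact g1g_qfield_finrank_eq F Q.j_mem_F Q.fieldLe Q.card_le_finrank

/-- every `q`-expansion with `K₀`-coefficients of a weakly modular function for `Γ` lies in `F` -/
theorem mem_field {x : LaurentSeries K₀} (hx : x ∈ g1g_qW Γ ι) : x ∈ F :=
  g1g_qW_le F Q.j_mem_F Q.fieldLe Q.card_le_finrank hx

omit [Γ.FiniteIndex] [CharZero K₀] in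
/-- every element of `F` is a quotient of two elements of `A` -/
theorem exists_div {x : LaurentSeries K₀} (hx : x ∈ F) :
    ∃ u ∈ A, ∃ v ∈ A, v ≠ 0 ∧ x = u / v := by
  obtain ⟨r, s, hs, hrs⟩ := IsFractionRing.div_surjective (A := A) (⟨x, hx⟩ : F)
  have hs0 : (s : LaurentSeries K₀) ≠ 0 := by
    intro h0
    have : s = 0 := Subtype.ext h0
    rw [this] at hs
    exact zero_notMem_nonZeroDivisors hs
  refine ⟨r, r.2, s, s.2, hs0, ?_⟩
  have h1 := congrArg (fun z : F => (z : LaurentSeries K₀)) hrs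
  simp only at h1
  rw [← h1]
  show ((algebraMap A F r / algebraMap A F s : F) : LaurentSeries K₀) = _
  rw [IntermediateField.coe_div, Q.coe, Q.coe]

/-- **completeness** -/
theorem complete : g1g_Complete C := by
  intro n hn a ha h hh hinv hpow
  have hW : g1g_IsWeakModFun Γ h := g1g_isWeakModFun_of_pow hn (Q.weak a) hh hinv hpow
  obtain ⟨H, hH⟩ := g1g_exists_laurentQ Q.T_mem hW
  have hHn : H ^ n = coeffMap ι (a : LaurentSeries K₀) := by
    have h1 : br_HasLaurentQ (h ^ n) (coeffMap ι (a : LaurentSeries K₀)) := by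
      have h2 : h ^ n = C.an a := funext hpow
      rw [h2]
      exact Q.spec a
    exact (hH.pow n).unique_right h1
  have ha' : (a : LaurentSeries K₀) ≠ 0 := fun h0 => ha (Subtype.ext h0)
  obtain ⟨c, H₀, hc0, hH₀⟩ := g1g_qdescend ι hn H a ha' hHn
  have hH₀W : H₀ ∈ g1g_qW Γ ι := by
    refine ⟨(fun _ => c⁻¹) * h, (g1g_IsWeakModFun.const Γ c⁻¹).mul hW, ?_⟩
    have h1 := (br_HasLaurentQ.const c⁻¹).mul hH
    rwa [hH₀, ← mul_assoc, ← map_mul, inv_mul_cancel₀ hc0, map_one, one_mul] at h1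
  obtain ⟨u, hu, v, hv, hv0, hdiv⟩ := Q.exists_div (Q.mem_field hH₀W)
  refine ⟨c, ⟨u, hu⟩, ⟨v, hv⟩, hc0, fun h0 => hv0 (congrArg Subtype.val h0), fun z => ?_⟩
  have hL : br_HasLaurentQ (h * C.an ⟨v, hv⟩) (HahnSeries.C c * coeffMap ι u) := by
    have h1 := hH.mul (Q.spec ⟨v, hv⟩)
    have e : H * coeffMap ι v = HahnSeries.C c * coeffMap ι u := by
      rw [hH₀, mul_assoc, ← map_mul, hdiv, div_mul_cancel₀ _ hv0]
    rw [← e]
    exact h1
  have hR : br_HasLaurentQ ((fun _ => c) * C.an ⟨u, hu⟩) (HahnSeries.C c * coeffMap ι u) :=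
    (br_HasLaurentQ.const c).mul (Q.spec ⟨u, hu⟩)
  exact congrFun (hL.unique_left hR) z

omit [Γ.FiniteIndex] [CharZero K₀] in
/-- **rationality** -/
theorem rational : g1g_Rational C := by
  intro w w' d hw' hrel
  have hL : br_HasLaurentQ (C.an w) (HahnSeries.C d * coeffMap ι (w' : LaurentSeries K₀)) := by
    have h1 := (br_HasLaurentQ.const d).mul (Q.spec w')
    have e : C.an w = (fun _ => d) * C.an w' := funext hrel
    rw [e]
    exact h1
  have heq : coeffMap ι (w : LaurentSeries K₀) =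
      HahnSeries.C d * coeffMap ι (w' : LaurentSeries K₀) := (Q.spec w).unique_right hL
  have hw'0 : (w' : LaurentSeries K₀) ≠ 0 := fun h0 => hw' (Subtype.ext h0)
  obtain ⟨k, hk⟩ : ∃ k : ℤ, (w' : LaurentSeries K₀).coeff k ≠ 0 := by
    by_contra hcon
    push Not at hcon
    exact hw'0 (HahnSeries.ext (funext hcon))
  have h2 := congrArg (fun x : LaurentSeries ℂ => x.coeff k) heq
  simp only [coeffMap_coeff, HahnSeries.C_apply, HahnSeries.coeff_single_mul, sub_zero] at h2
  refine ⟨(w : LaurentSeries K₀).coeff k / (w' : LaurentSeries K₀).coeff k, ?_⟩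
  have hk' : ι ((w' : LaurentSeries K₀).coeff k) ≠ 0 := by
    rw [Ne, map_eq_zero]
    exact hk
  rw [map_div₀, h2]
  field_simp

end g1g_QCtx

end qctx

end Fermat.Agent.DS
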