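import Mathlib
import Fermat.Agent.DS.Gam1.Gen.CPlaces
import Fermat.Agent.JT3.Export.RamL
import Fermat.Agent.S24.Comb.EllipticOrbits

/-!
# DS-T / [G1] generic-Γ layer, leaf [L2-R]: the ramification data `(R)` of `j` on the function
field of an analytic context (prefix `g1g_ram_`)

Twin of `JT3/Export/S24Ram.lean` (`sx_ord_dvd_three/two/level`, `sx_ord_eq_one`) for an arbitrary
finite-index subgroup `Γ ≤ SL(2,ℤ)` with `-1 ∈ Γ`, `Γ(M) ≤ Γ` (context `g1g_Ctx M Γ K F A` over an
algebraically closed `K ⊆ ℂ`, `j1 : A` realised by Klein's `j`, `[F : K(j)] = [SL(2,ℤ) : Γ]`):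

* `g1g_ram_ord_dvd`   : above `j = c` with base point data `(z0, σ, m)` the ramification index
                        divides `k` as soon as `σ ^ k` acts trivially on `SL(2,ℤ) ⧸ Γ`;
* `g1g_ram_zero/one/generic/infty` : the four clauses;
* **`g1g_ramData`**   : `rml_RamData K (algebraMap A F j1) M`.
-/

set_option autoImplicit false
set_option linter.unusedSectionVars false
set_option linter.style.haveILetI false

open UpperHalfPlane CongruenceSubgroup ModularGroup ModularForm EisensteinSeries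
open scoped MatrixGroups Manifold

namespace Fermat.Agent.DS

open Fermat.Agent.S24 Fermat.Agent.JT3 AlgebraicCurve IntermediateField

/-! ### Group theory on the coset space -/

section Cosets

variable {Γ : Subgroup SL(2, ℤ)}

/-- `-1` acts trivially on `SL(2,ℤ) ⧸ Γ` when `-1 ∈ Γ`. -/
theorem g1g_ram_neg_one_smul (h : (-1 : SL(2, ℤ)) ∈ Γ) (x : SL(2, ℤ) ⧸ Γ) :
    (-1 : SL(2, ℤ)) • x = x := by
  induction x using QuotientGroup.induction_on with
  | H g =>
    show ((((-1 : SL(2, ℤ)) * g : SL(2, ℤ)) : SL(2, ℤ) ⧸ Γ)) = (g : SL(2, ℤ) ⧸ Γ)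
    rw [eq_comm, QuotientGroup.eq]
    have : g⁻¹ * (-1 * g) = -1 := by
      rw [neg_mul, one_mul, mul_neg, inv_mul_cancel]
    rw [this]
    exact h

/-- an element of a normal subgroup contained in `Γ` acts trivially on `SL(2,ℤ) ⧸ Γ`. -/
theorem g1g_ram_normal_smul {Δ : Subgroup SL(2, ℤ)} [Δ.Normal] (hΔ : Δ ≤ Γ) {t : SL(2, ℤ)}
    (ht : t ∈ Δ) (x : SL(2, ℤ) ⧸ Γ) : t • x = x := by
  induction x using QuotientGroup.induction_on with
  | H g =>
    show (((t * g : SL(2, ℤ)) : SL(2, ℤ) ⧸ Γ)) = (g : SL(2, ℤ) ⧸ Γ)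
    rw [eq_comm, QuotientGroup.eq]
    apply hΔ
    have := Subgroup.Normal.conj_mem (inferInstance : Δ.Normal) t ht g⁻¹
    simpa [mul_assoc] using this

/-- `T ^ M ∈ Γ(M)`. -/
theorem g1g_ram_T_pow_mem (M : ℕ) : (ModularGroup.T ^ M : SL(2, ℤ)) ∈ Gamma M := by
  rw [Gamma_mem]
  have h := ModularGroup.coe_T_zpow (M : ℤ)
  rw [zpow_natCast] at h
  have h00 : (ModularGroup.T ^ M : SL(2, ℤ)) 0 0 = 1 := by
    have := congrFun (congrFun h 0) 0
    simpa using this
  have h01 : (ModularGroup.T ^ M : SL(2, ℤ)) 0 1 = (M : ℤ) := by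
    have := congrFun (congrFun h 0) 1
    simpa using this
  have h10 : (ModularGroup.T ^ M : SL(2, ℤ)) 1 0 = 0 := by
    have := congrFun (congrFun h 1) 0
    simpa using this
  have h11 : (ModularGroup.T ^ M : SL(2, ℤ)) 1 1 = 1 := by
    have := congrFun (congrFun h 1) 1
    simpa using this
  rw [h00, h01, h10, h11]
  simp

end Cosets

/-! ### Orbit sizes -/

section Orbit

/-- the orbit of `x` under the cyclic group generated by `toPerm g` has size dividing `k` if `g ^ k`
fixes every point. -/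
theorem g1g_ram_card_orbit_dvd {X G : Type*} [Group G] [MulAction G X] [Finite X] (g : G) (k : ℕ)
    (hk : ∀ x : X, g ^ k • x = x) (x : X) :
    Nat.card (MulAction.orbit (Subgroup.zpowers (MulAction.toPerm g : Equiv.Perm X)) x) ∣ k := by
  classical
  have : Fintype (MulAction.orbit (Subgroup.zpowers (MulAction.toPerm g : Equiv.Perm X)) x) :=
    Fintype.ofFinite _
  rw [Nat.card_eq_fintype_card, ← MulAction.minimalPeriod_eq_card]
  apply Function.IsPeriodicPt.minimalPeriod_dvd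
  rw [Function.IsPeriodicPt, Function.IsFixedPt, smul_iterate]
  have h2 : (MulAction.toPerm g : Equiv.Perm X) ^ k = MulAction.toPerm (g ^ k) :=
    (map_pow (MulAction.toPermHom G X) g k).symm
  rw [h2]
  exact hk x

/-- **Lemma B** in `po_Hyp` form: the order of `π` at the place of an index divides `k` if the
`k`-th power of the monodromy is trivial. -/
theorem g1g_ram_plc_ord_dvd {K K' F X G : Type*} [Field K] [Field K'] [Algebra K K']
    [CharZero K'] [Field F] [Algebra K F] [Finite X] [Group G] [MulAction G X]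
    {π : F} {m : ℕ} {ζ₀ : K'} {φ : X → (F →ₐ[K] LaurentSeries K')} {p0 : LaurentSeries K'}
    (g : G) (H : po_Hyp (K := K) π m ζ₀ φ p0 (MulAction.toPerm g)) (k : ℕ)
    (hk : ∀ x : X, g ^ k • x = x) (x : X) : (H.plc x).ord π ∣ (k : ℤ) := by
  have h1 := H.card_orbit_eq (Quotient.mk'' x)
  rw [po_Hyp.orbitPlace_mk, MulAction.orbitRel.Quotient.orbit_mk] at h1
  rw [← h1]
  exact_mod_cast g1g_ram_card_orbit_dvd g k hk x

end Orbit

/-! ### The four clauses -/

section main

variable {M : ℕ} [NeZero M] {Γ : Subgroup SL(2, ℤ)} [Γ.FiniteIndex] {K F A : Type} [Field K]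
  [Algebra K ℂ] [Field F] [Algebra K F]
  [CommRing A] [IsDomain A] [Algebra K A] [Algebra A F] [IsScalarTower K A F]
  [IsFractionRing A F] [IsAlgClosed K] {C : g1g_Ctx M Γ K F A} {j1 : A} (hj1 : C.an j1 = kleinJ)

include hj1

/-- above `j = c`: if `(z0, σ, m)` is base point data for `c` and `σ ^ k` acts trivially on the
cosets then every ramification index above `c` divides `k`. -/
theorem g1g_ram_ord_dvd [FiniteDimensional K⟮algebraMap A F j1⟯ F]
    (hdeg : Module.finrank K⟮algebraMap A F j1⟯ F = Nat.card (SL(2, ℤ) ⧸ Γ))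
    (c : K) {z0 : ℍ} {σ : SL(2, ℤ)} {m : ℕ} (hz0 : kleinJ z0 = algebraMap K ℂ c)
    (hD : gcp_FinData z0 σ m) (k : ℕ) (hk : ∀ x : SL(2, ℤ) ⧸ Γ, σ ^ k • x = x)
    (v : Place K F) (hv : 0 < v.ord (algebraMap A F j1 - algebraMap K F c)) :
    v.ord (algebraMap A F j1 - algebraMap K F c) ∣ (k : ℤ) := by
  haveI : CharZero K := (algebraMap K ℂ).charZero
  have hx : Transcendental K (algebraMap A F j1) := g1g_gcp_transcendental hj1
  have H := g1g_gcp_hyp_fin hj1 z0 c hz0.symm σ hD.fix m hD.pos hD.ord hD.prim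
  obtain ⟨x, hx'⟩ := gcp_exists_plc H (hw_finite_fiber hx c)
    (by rw [← hdeg]; exact hw_sum_fiber_toFinset hx c) v hv
  have hk' : ∀ x : SL(2, ℤ) ⧸ Γ, σ⁻¹ ^ k • x = x := by
    intro x
    rw [inv_pow, inv_smul_eq_iff, hk]
  have := g1g_ram_plc_ord_dvd σ⁻¹ H k hk' x
  rwa [hx'] at this

/-- zeros of `j`: the order divides `3`. -/
theorem g1g_ram_zero [FiniteDimensional K⟮algebraMap A F j1⟯ F]
    (hdeg : Module.finrank K⟮algebraMap A F j1⟯ F = Nat.card (SL(2, ℤ) ⧸ Γ))
    (v : Place K F) (hv : 0 < v.ord (algebraMap A F j1)) : v.ord (algebraMap A F j1) ∣ 3 := by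
  have hk : ∀ x : SL(2, ℤ) ⧸ Γ, (S * T) ^ 3 • x = x := by
    intro x
    rw [Comb.ST_cube]
    exact g1g_ram_neg_one_smul C.neg_one_mem x
  have h := g1g_ram_ord_dvd hj1 hdeg (0 : K) (z0 := ρ) (σ := S * T) (m := 3)
    (by rw [jl_kleinJ_rho, map_zero]) gcp_finData_rho 3 hk v (by simpa using hv)
  simpa using h

/-- zeros of `j - 1728`: the order divides `2`. -/
theorem g1g_ram_one [FiniteDimensional K⟮algebraMap A F j1⟯ F]
    (hdeg : Module.finrank K⟮algebraMap A F j1⟯ F = Nat.card (SL(2, ℤ) ⧸ Γ))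
    (v : Place K F) (hv : 0 < v.ord (algebraMap A F j1 - 1728)) :
    v.ord (algebraMap A F j1 - 1728) ∣ 2 := by
  have hk : ∀ x : SL(2, ℤ) ⧸ Γ, S ^ 2 • x = x := by
    intro x
    rw [Comb.S_sq]
    exact g1g_ram_neg_one_smul C.neg_one_mem x
  have h1728 : algebraMap K F (1728 : K) = 1728 := map_ofNat _ 1728
  have h := g1g_ram_ord_dvd hj1 hdeg (1728 : K) (z0 := UpperHalfPlane.I) (σ := S) (m := 2)
    (by rw [jl_kleinJ_I, map_ofNat]) gcp_finData_I 2 hk v (by rwa [h1728])
  rw [h1728] at h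
  exact_mod_cast h

/-- away from `0`, `1728`, `∞` the function `j - c` is a uniformiser. -/
theorem g1g_ram_generic [FiniteDimensional K⟮algebraMap A F j1⟯ F]
    (hdeg : Module.finrank K⟮algebraMap A F j1⟯ F = Nat.card (SL(2, ℤ) ⧸ Γ))
    (c : K) (h0 : c ≠ 0) (h1 : c ≠ 1728) (v : Place K F)
    (hv : 0 < v.ord (algebraMap A F j1 - algebraMap K F c)) :
    v.ord (algebraMap A F j1 - algebraMap K F c) = 1 := by
  obtain ⟨z0, hz0⟩ := jl_exists_kleinJ_eq (algebraMap K ℂ c)
  have hc0 : algebraMap K ℂ c ≠ 0 := by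
    rwa [Ne, map_eq_zero]
  have hc1 : algebraMap K ℂ c ≠ 1728 := by
    intro h
    apply h1
    apply (algebraMap K ℂ).injective
    rw [h, map_ofNat]
  have h4 : E₄ z0 ≠ 0 := fun h => hc0 (by rw [← hz0]; exact (jl_kleinJ_eq_zero_iff z0).mpr h)
  have h6 : E₆ z0 ≠ 0 := fun h => hc1 (by rw [← hz0]; exact (jl_kleinJ_eq_1728_iff z0).mpr h)
  have h := g1g_ram_ord_dvd hj1 hdeg c (z0 := z0) (σ := 1) (m := 1) hz0
    (gcp_finData_generic h4 h6) 1 (fun x => by rw [pow_one, one_smul]) v hv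
  have h2 : v.ord (algebraMap A F j1 - algebraMap K F c) ∣ 1 := by exact_mod_cast h
  exact Int.eq_one_of_dvd_one hv.le h2

/-- poles of `j`: the order divides the cusp period `M`. -/
theorem g1g_ram_infty [FiniteDimensional K⟮algebraMap A F j1⟯ F]
    (hdeg : Module.finrank K⟮algebraMap A F j1⟯ F = Nat.card (SL(2, ℤ) ⧸ Γ))
    (v : Place K F) (hv : v.ord (algebraMap A F j1) < 0) :
    v.ord (algebraMap A F j1) ∣ (M : ℤ) := by
  haveI : CharZero K := (algebraMap K ℂ).charZero
  have hx : Transcendental K (algebraMap A F j1) := g1g_gcp_transcendental hj1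
  have H := g1g_gcp_hyp_inf (C := C) hj1
  have hset : {w : Place K F | 0 < w.ord (algebraMap A F j1)⁻¹}
      = {w : Place K F | w.ord (algebraMap A F j1) < 0} := by
    ext w
    simp only [Set.mem_ofPred_eq, Place.ord_inv]
    omega
  have hfin : {w : Place K F | 0 < w.ord (algebraMap A F j1)⁻¹}.Finite := by
    rw [hset]; exact hw_finite_poles hx
  have hsum : ∑ w ∈ hfin.toFinset, w.ord (algebraMap A F j1)⁻¹
      = (Nat.card (SL(2, ℤ) ⧸ Γ) : ℤ) := by
    have h1 := hw_sum_poles_toFinset hx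
    have h2 : hfin.toFinset = (hw_finite_poles hx).toFinset := by
      ext w
      simp only [Set.Finite.mem_toFinset]
      rw [hset]
    rw [h2, ← hdeg]
    have h3 : ∑ w ∈ (hw_finite_poles hx).toFinset, w.ord (algebraMap A F j1)⁻¹
        = - ∑ w ∈ (hw_finite_poles hx).toFinset, w.ord (algebraMap A F j1) := by
      rw [← Finset.sum_neg_distrib]
      exact Finset.sum_congr rfl (fun w _ => Place.ord_inv w _)
    rw [h3, h1, neg_neg]
  obtain ⟨x, hx'⟩ := gcp_exists_plc H hfin hsum v (by rw [Place.ord_inv]; omega)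
  have hk : ∀ x : SL(2, ℤ) ⧸ Γ, (ModularGroup.T⁻¹ : SL(2, ℤ)) ^ M • x = x := by
    intro x
    rw [inv_pow, inv_smul_eq_iff]
    haveI : (Gamma M).Normal := Gamma_normal M
    exact (g1g_ram_normal_smul C.gamma_le (g1g_ram_T_pow_mem M) x).symm
  have := g1g_ram_plc_ord_dvd (ModularGroup.T⁻¹ : SL(2, ℤ)) H M hk x
  rw [hx', Place.ord_inv, neg_dvd] at this
  exact this

/-- **(R) for the function field of an analytic context**: the ramification data of `j`. -/
theorem g1g_ramData [FiniteDimensional K⟮algebraMap A F j1⟯ F]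
    (hdeg : Module.finrank K⟮algebraMap A F j1⟯ F = Nat.card (SL(2, ℤ) ⧸ Γ)) :
    rml_RamData K (algebraMap A F j1) M := by
  have hx : Transcendental K (algebraMap A F j1) := g1g_gcp_transcendental hj1
  have hne : ∀ c : K, algebraMap A F j1 - algebraMap K F c ≠ 0 := by
    intro c h
    apply hx
    rw [sub_eq_zero.1 h]
    exact isAlgebraic_algebraMap c
  have h1728 : algebraMap K F (1728 : K) = 1728 := map_ofNat _ 1728
  refine ⟨?_, ?_, g1g_ram_zero hj1 hdeg, g1g_ram_one hj1 hdeg, g1g_ram_infty hj1 hdeg, ?_⟩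
  · have := hne 0
    rwa [map_zero, sub_zero] at this
  · have := hne 1728
    rwa [h1728] at this
  · intro Q h0 h1
    have hj0 : algebraMap A F j1 ≠ 0 := by
      have := hne 0
      rwa [map_zero, sub_zero] at this
    have hmem : algebraMap A F j1 ∈ Q.toValuationSubring :=
      (hw_mem_iff_ord_nonneg Q hj0).mpr h0.ge
    obtain ⟨c, hc⟩ := hw_exists_const (algebraMap A F j1) Q hmem
    rcases hc with hc | hc
    · exact absurd (sub_eq_zero.2 hc) (hne c)
    have hc0 : c ≠ 0 := by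
      rintro rfl
      rw [map_zero, sub_zero, h0] at hc
      exact lt_irrefl _ hc
    have hc1 : c ≠ 1728 := by
      rintro rfl
      rw [h1728, h1] at hc
      exact lt_irrefl _ hc
    refine ⟨Polynomial.X - Polynomial.C c, ?_⟩
    rw [map_sub, Polynomial.aeval_X, Polynomial.aeval_C]
    exact g1g_ram_generic hj1 hdeg c hc0 hc1 Q hc

end main

end Fermat.Agent.DS
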