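import Mathlib
import Fermat.Agent.DS.Gam1.Gen.CharMap

/-!
# DS-T / [G1] generic-Γ layer: level compatibility and the equivalence from surjectivity

Twin of `JT3/Gateway/Level.lean` + the generic parts of `JT3/Gateway/Main.lean` / `Final.lean` for an
arbitrary subgroup `Γ ≤ SL(2,ℤ)` (context `g1g_Ctx M Γ K F A`).

* `g1g_hasChar_level`: the character of `f` at level `n` is the `m`-th power of its character at
  level `n · m`;
* `g1g_picMap_level`: for `y ∈ Pic⁰[n·m]`, the character of `m • y ∈ Pic⁰[n]` is the `m`-th power of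
  the character of `y` (the transition map of the Tate module on the side of the characters);
* **`g1g_picEquiv`**: in a complete rational context over an algebraically closed field, surjectivity
  of the character map gives `Pic⁰(F)[n] ≃+ Additive (g1g_X Γ n)`; `g1g_picEquiv_apply`,
  `g1g_picEquiv_mk`, `g1g_picEquiv_level`.
-/

set_option autoImplicit false

open UpperHalfPlane CongruenceSubgroup
open scoped MatrixGroups Manifold

namespace Fermat.Agent.DS

open Fermat.Agent.S24 Fermat.Agent.JT3 AlgebraicCurve ModularCurve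

variable {M : ℕ} [NeZero M] {Γ : Subgroup SL(2, ℤ)} {K F A : Type} [Field K] [Algebra K ℂ] [Field F] [Algebra K F]
  [CommRing A] [IsDomain A] [Algebra K A] [Algebra A F] [IsScalarTower K A F]
  [IsFractionRing A F] {C : g1g_Ctx M Γ K F A}

/-- **level compatibility** -/
theorem g1g_hasChar_level {n m : ℕ} (hm : m ≠ 0) {f : F} {χ : ↥Γ →* ℂˣ}
    (h : g1g_HasChar C (n * m) f χ) : g1g_HasChar C n f (χ ^ m) := by
  obtain ⟨a, b, h, hb, hab, hh, hh0, hpow, hχ⟩ := h
  refine ⟨a, b ^ m, h ^ m, pow_ne_zero m hb, ?_, hh.pow m, ?_, ?_, ?_⟩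
  · rw [hab, map_pow, ← pow_mul, mul_comm m n]
  · intro h0
    obtain ⟨z, hz⟩ := gw_exists_ne_zero hh0
    have := congrFun h0 z
    rw [Pi.pow_apply, Pi.zero_apply] at this
    exact hz (pow_eq_zero_iff hm |>.mp this)
  · intro z
    rw [Pi.pow_apply, ← pow_mul, mul_comm m n, hpow]
  · intro γ z
    rw [Pi.pow_apply, Pi.pow_apply, hχ, mul_pow, MonoidHom.pow_apply, Units.val_pow_eq_pow_val]

omit [NeZero M] [Algebra K ℂ] [CommRing A] [IsDomain A] [Algebra K A] [Algebra A F]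
  [IsScalarTower K A F] [IsFractionRing A F] in
theorem g1g_nsmul_mem_torsion {n m : ℕ} (y : Pic0.torsion K F (n * m)) :
    m • (y : Pic0 K F) ∈ Pic0.torsion K F n := by
  rw [Pic0.mem_torsion]
  have h := Pic0.mem_torsion.1 y.2
  rw [← h]
  push_cast
  rw [mul_smul, natCast_zsmul, natCast_zsmul, natCast_zsmul]

variable [IsAlgClosed K] {x : F} (hx : rt_IsSepGen K x)

/-- **level compatibility of the character maps** -/
theorem g1g_picMap_level {n m : ℕ} (hn : n ≠ 0) (hm : m ≠ 0) (hC : g1g_Complete C)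
    (hR : g1g_Rational C) (y : Pic0.torsion K F (n * m)) :
    ((Additive.toMul (g1g_picMap hn hx hC hR ⟨m • (y : Pic0 K F), g1g_nsmul_mem_torsion y⟩) :
        g1g_X Γ n) : ↥Γ →* ℂˣ) =
      ((Additive.toMul (g1g_picMap (mul_ne_zero hn hm) hx hC hR y) : g1g_X Γ (n * m)) :
        ↥Γ →* ℂˣ) ^ m := by
  have hnm : n * m ≠ 0 := mul_ne_zero hn hm
  -- represent `y` by a function
  obtain ⟨q, rfl⟩ := (gp_equiv hx hnm).symm.surjective y
  obtain ⟨f, hf⟩ := QuotientGroup.mk_surjective (Additive.toMul q)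
  have hq : q = Additive.ofMul (QuotientGroup.mk f) := by rw [hf]; rfl
  subst hq
  set D : Divisor.degZero (K := K) (F := F) := gp_div0 hx hnm f with hD
  have hDf : ∀ P : Place K F, ((n * m : ℕ) : ℤ) * (D : Divisor K F) P = P.ord ((f : Fˣ) : F) :=
    fun P => gp_mul_divN_apply hx f.2 P
  have hy : (((gp_equiv hx hnm).symm (Additive.ofMul (QuotientGroup.mk f)) :
      Pic0.torsion K F (n * m)) : Pic0 K F) = Pic0.mk D := gp_equiv_symm_mk hx hnm f
  have hDmem : Pic0.mk D ∈ Pic0.torsion K F (n * m) := by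
    rw [← hy]
    exact Subtype.property _
  -- the character at level `n m`
  set χ := g1g_charOf C hnm f with hχ
  have hχs : g1g_HasChar C (n * m) (((f : Fˣ) : F)) χ := g1g_charOf_spec C hnm f
  have h1 : ((Additive.toMul (g1g_picMap hnm hx hC hR
      ((gp_equiv hx hnm).symm (Additive.ofMul (QuotientGroup.mk f)))) : g1g_X Γ (n * m)) :
        ↥Γ →* ℂˣ) = χ := by
    have h2 : (gp_equiv hx hnm).symm (Additive.ofMul (QuotientGroup.mk f)) =
        ⟨Pic0.mk D, hDmem⟩ := Subtype.ext hy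
    rw [h2]
    exact g1g_picMap_mk hnm hx hC hR D f hDf hDmem hχs
  rw [h1]
  -- the level `n`
  have hfn : (f : Fˣ) ∈ gp_S K F n := by
    intro P
    have h3 := f.2 P
    exact dvd_trans ⟨(m : ℤ), by push_cast; ring⟩ h3
  have hmD : ∀ P : Place K F, (n : ℤ) * ((m • D : Divisor.degZero (K := K) (F := F)) :
      Divisor K F) P = P.ord (((⟨(f : Fˣ), hfn⟩ : gp_S K F n) : Fˣ) : F) := by
    intro P
    rw [← hDf P]
    show (n : ℤ) * ((m • (D : Divisor K F)) P) = _
    rw [Finsupp.smul_apply, nsmul_eq_mul]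
    push_cast
    ring
  have hmk : m • (((gp_equiv hx hnm).symm (Additive.ofMul (QuotientGroup.mk f)) :
      Pic0.torsion K F (n * m)) : Pic0 K F) = Pic0.mk (m • D) := by
    rw [hy]
    rfl
  have hmem : Pic0.mk (m • D) ∈ Pic0.torsion K F n := by
    rw [← hmk]
    exact g1g_nsmul_mem_torsion _
  have h4 : (⟨m • (((gp_equiv hx hnm).symm (Additive.ofMul (QuotientGroup.mk f)) :
      Pic0.torsion K F (n * m)) : Pic0 K F), g1g_nsmul_mem_torsion _⟩ : Pic0.torsion K F n) =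
        ⟨Pic0.mk (m • D), hmem⟩ := Subtype.ext hmk
  rw [h4]
  exact g1g_picMap_mk hn hx hC hR (m • D) ⟨(f : Fˣ), hfn⟩ hmD hmem (g1g_hasChar_level hm hχs)

/-! ### The equivalence from surjectivity -/

/-- **`Pic⁰(F)[n] ≃ Hom(Γ^ab/(par, ell), μ_n)`** from surjectivity of the character map -/
noncomputable def g1g_picEquiv {n : ℕ} (hn : n ≠ 0) (hC : g1g_Complete C) (hR : g1g_Rational C)
    (hsurj : ∀ χ ∈ g1g_X Γ n, ∃ f : F, gw_IsDiv K n f ∧ g1g_HasChar C n f χ) :
    Pic0.torsion K F n ≃+ Additive (g1g_X Γ n) :=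
  AddEquiv.ofBijective (g1g_picMap hn hx hC hR)
    ⟨g1g_picMap_injective hn hx hC hR, g1g_picMap_surjective hn hx hC hR hsurj⟩

theorem g1g_picEquiv_apply {n : ℕ} (hn : n ≠ 0) (hC : g1g_Complete C) (hR : g1g_Rational C)
    (hsurj : ∀ χ ∈ g1g_X Γ n, ∃ f : F, gw_IsDiv K n f ∧ g1g_HasChar C n f χ)
    (y : Pic0.torsion K F n) :
    g1g_picEquiv hx hn hC hR hsurj y = g1g_picMap hn hx hC hR y := rfl

/-- the characterising property: if `n · D = div f` and `f` has the character `χ`, the class of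
`D` is sent to `χ` -/
theorem g1g_picEquiv_mk {n : ℕ} (hn : n ≠ 0) (hC : g1g_Complete C) (hR : g1g_Rational C)
    (hsurj : ∀ χ ∈ g1g_X Γ n, ∃ f : F, gw_IsDiv K n f ∧ g1g_HasChar C n f χ)
    (D : Divisor.degZero (K := K) (F := F)) (f : gp_S K F n)
    (h : ∀ P : Place K F, (n : ℤ) * (D : Divisor K F) P = P.ord ((f : Fˣ) : F))
    (hD : Pic0.mk D ∈ Pic0.torsion K F n) {χ : ↥Γ →* ℂˣ}
    (hχ : g1g_HasChar C n (((f : Fˣ) : F)) χ) :
    ((Additive.toMul (g1g_picEquiv hx hn hC hR hsurj ⟨Pic0.mk D, hD⟩) : g1g_X Γ n) :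
      ↥Γ →* ℂˣ) = χ :=
  g1g_picMap_mk hn hx hC hR D f h hD hχ

/-- level compatibility of the equivalences -/
theorem g1g_picEquiv_level {n m : ℕ} (hn : n ≠ 0) (hm : m ≠ 0) (hC : g1g_Complete C)
    (hR : g1g_Rational C)
    (hsurj : ∀ χ ∈ g1g_X Γ n, ∃ f : F, gw_IsDiv K n f ∧ g1g_HasChar C n f χ)
    (hsurj' : ∀ χ ∈ g1g_X Γ (n * m), ∃ f : F, gw_IsDiv K (n * m) f ∧ g1g_HasChar C (n * m) f χ)
    (y : Pic0.torsion K F (n * m)) :
    ((Additive.toMul (g1g_picEquiv hx hn hC hR hsurj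
        ⟨m • (y : Pic0 K F), g1g_nsmul_mem_torsion y⟩) : g1g_X Γ n) : ↥Γ →* ℂˣ) =
      ((Additive.toMul (g1g_picEquiv hx (mul_ne_zero hn hm) hC hR hsurj' y) : g1g_X Γ (n * m)) :
        ↥Γ →* ℂˣ) ^ m :=
  g1g_picMap_level hx hn hm hC hR y

end Fermat.Agent.DS
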