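/-
DS-T / cell [G1], leaf [G1-c] parts (b)-(d): HECKE AND DIAMOND EQUIVARIANCE OF THE GENERIC GATEWAY
(twin of `JT3/Gateway/{HeckeChar, HeckeEquiv}.lean`).

`Γ` is a subgroup with `Γ₁(M) ≤ Γ ≤ ±Γ₁(M)` (`h1`, `h2`; e.g. `Γ = g1f_G M M`: `g1c_Gamma1_le_G`,
`g1c_G_le_Gpm`), `3 ≤ M`, `C : g1g_Ctx N' Γ K F A` any analytic context, `p ∤ M` a prime and `(s, e)`
an ARBITRARY admissible family of `HeckeG1/Coset.lean`.  The analytic norm formula is a HYPOTHESIS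
(`hnorm`, in the shape of `gwh_norm_an`).

* `g1c_H s h z = ∏_x h(β_x z)` (`β_x = g1t_repS s x`), `g1c_H_mdiff`, `g1c_H_smul`: its multiplier
  is `g1c_ext (g1t_TS hpM hs (g1c_res χ))`;
* (b) **`g1c_hasChar_norm`**: if `f` has the character `χ` then `Nm f` has the character
  `g1c_ext (g1t_TS hpM hs (g1c_res χ))`; `g1c_hasChar_norm'` (the `∃ χ'` form);
* (c) **`g1c_picEquiv_hecke`**: `res (e_n (Tm y)) = g1t_TS hpM hs (res (e_n y))` for every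
  `Tm : Pic⁰ →+ Pic⁰` which sends `[D]`, `n D = div f`, to `[D']`, `n D' = div (Nm f)`;
* (d) **`g1c_hasChar_diamond`**: if `δ : F ≃ₐ[K] F` is realised by `σ ∈ Γ₀(M)`
  (`an (δ a) = an a ∘ σ`), then `δ f` has the character `g1c_ext (g1t_conjOp σ (g1c_res χ))`;
  **`g1c_picEquiv_diamond`**: `res (e_n (δ • y)) = g1t_conjOp σ (res (e_n y))` for the action of
  `SemilinearAut.ofAlgAut δ` on `Pic⁰[n]`.
Prefix `g1c_`.
-/
import Mathlib
import Fermat.Agent.DS.Gam1.Gen.CharDict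
import Fermat.Agent.DS.Gam1.Gen.Level
import Fermat.Agent.JT3.T2.Period

set_option autoImplicit false
set_option linter.unusedSectionVars false
set_option linter.style.haveILetI false

noncomputable section

open UpperHalfPlane hiding I
open Complex CongruenceSubgroup ModularCurve Matrix.SpecialLinearGroup
open scoped Real Manifold MatrixGroups
open P2MW.S_ModularForm_heckeT_slash_eq_self_of_mem_Gamma0.ModularForm.HeckeSlashInvariance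

namespace Fermat.Agent.DS

open Fermat.Agent.S24 Fermat.Agent.JT3 AlgebraicCurve

variable {M : ℕ} {p : ℕ} [Fact p.Prime]

/-! ### The product `∏_x h(β_x z)` -/

/-- the product `∏_x h(β_x z)`, `β_x = s_x · heckeRep p x` -/
def g1c_H (s : OnePoint (ZMod p) → Gamma0 M) (h : ℍ → ℂ) (z : ℍ) : ℂ :=
  ∏ x : OnePoint (ZMod p), h (g1t_repS s x • z)

theorem g1c_repS_det_pos (s : OnePoint (ZMod p) → Gamma0 M) (x : OnePoint (ZMod p)) :
    0 < ((g1t_repS s x).det : ℝ) := by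
  rw [g1t_repS, map_mul, Units.val_mul]
  have h1 : (((mapGL ℝ ((s x : Gamma0 M) : SL(2, ℤ)) : GL (Fin 2) ℝ).det : ℝˣ) : ℝ) = 1 := by
    simp
  rw [h1, one_mul]
  exact t2p_det_pos x

theorem g1c_H_mdiff (s : OnePoint (ZMod p) → Gamma0 M) {h : ℍ → ℂ} (hh : MDiff h) :
    MDiff (g1c_H s h) := by
  have h1 : ∀ x : OnePoint (ZMod p), MDiff (fun z : ℍ => h (g1t_repS s x • z)) := fun x =>
    hh.comp (UpperHalfPlane.mdifferentiable_smul (g1c_repS_det_pos s x))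
  have e : g1c_H s h = ∏ x : OnePoint (ZMod p), fun z : ℍ => h (g1t_repS s x • z) := by
    ext z
    rw [Finset.prod_apply]
    rfl
  rw [e]
  exact MDifferentiable.prod fun x _ => h1 x

/-- the coset relation on `ℍ` -/
theorem g1c_repS_smul_smul (hpM : ¬ p ∣ M) {s : OnePoint (ZMod p) → Gamma0 M} {e : (ZMod M)ˣ}
    (hs : g1t_Adm hpM s e) (x : OnePoint (ZMod p)) (γ : ↥(Gamma1 M)) (z : ℍ) :
    g1t_repS s x • ((γ : SL(2, ℤ)) • z) =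
      ((g1t_cocG hpM hs x γ : ↥(Gamma1 M)) : SL(2, ℤ)) •
        (g1t_repS s (t2c_act (γ : SL(2, ℤ)) x) • z) := by
  change g1t_repS s x • (mapGL ℝ (γ : SL(2, ℤ)) • z) =
    mapGL ℝ ((g1t_cocG hpM hs x γ : ↥(Gamma1 M)) : SL(2, ℤ)) •
      (g1t_repS s (t2c_act (γ : SL(2, ℤ)) x) • z)
  rw [← mul_smul, ← mul_smul, g1t_cocG_spec]

variable {Γ : Subgroup SL(2, ℤ)}

/-- the multiplier of `∏_x h(β_x z)` on `Γ₁(M)` is `g1t_TS (res χ)` -/
theorem g1c_H_smul_Gamma1 (h1 : Gamma1 M ≤ Γ) (hpM : ¬ p ∣ M)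
    {s : OnePoint (ZMod p) → Gamma0 M} {e : (ZMod M)ˣ} (hs : g1t_Adm hpM s e) {h : ℍ → ℂ}
    {χ : ↥Γ →* ℂˣ}
    (hχ : ∀ (γ : ↥Γ) (z : ℍ), h ((γ : SL(2, ℤ)) • z) = (χ γ : ℂ) * h z)
    (γ : ↥(Gamma1 M)) (z : ℍ) :
    g1c_H s h ((γ : SL(2, ℤ)) • z) =
      ((g1t_TS hpM hs (g1c_res h1 χ) γ : ℂˣ) : ℂ) * g1c_H s h z := by
  unfold g1c_H
  have e1 : ∀ x : OnePoint (ZMod p), h (g1t_repS s x • ((γ : SL(2, ℤ)) • z)) =
      ((g1c_res h1 χ (g1t_cocG hpM hs x γ) : ℂˣ) : ℂ) *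
        h (g1t_repS s (t2c_perm (γ : SL(2, ℤ)) x) • z) := by
    intro x
    rw [g1c_repS_smul_smul hpM hs x γ z, t2c_perm_apply, g1c_res_apply]
    exact hχ (Subgroup.inclusion h1 (g1t_cocG hpM hs x γ)) _
  rw [Finset.prod_congr rfl fun x _ => e1 x, Finset.prod_mul_distrib, g1t_TS_apply,
    Units.coe_prod]
  congr 1
  exact Equiv.prod_comp (t2c_perm (γ : SL(2, ℤ))) fun x => h (g1t_repS s x • z)

/-- the multiplier of `∏_x h(β_x z)` on `Γ` -/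
theorem g1c_H_smul (hM : 3 ≤ M) (h1 : Gamma1 M ≤ Γ) (h2 : Γ ≤ g1f_Gpm M) (hpM : ¬ p ∣ M)
    {s : OnePoint (ZMod p) → Gamma0 M} {e : (ZMod M)ˣ} (hs : g1t_Adm hpM s e) {h : ℍ → ℂ}
    {χ : ↥Γ →* ℂˣ}
    (hχ : ∀ (γ : ↥Γ) (z : ℍ), h ((γ : SL(2, ℤ)) • z) = (χ γ : ℂ) * h z)
    (γ : ↥Γ) (z : ℍ) :
    g1c_H s h ((γ : SL(2, ℤ)) • z) =
      ((g1c_ext hM h2 (g1t_TS hpM hs (g1c_res h1 χ)) γ : ℂˣ) : ℂ) * g1c_H s h z := by
  rw [g1c_ext_apply, ← g1c_H_smul_Gamma1 h1 hpM hs hχ, g1c_proj_smul]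
  rfl

/-! ### (b) The character of the norm -/

variable {N' : ℕ} [NeZero N'] {K F A : Type} [Field K] [Algebra K ℂ] [Field F] [Algebra K F]
  [CommRing A] [IsDomain A] [Algebra K A] [Algebra A F] [IsScalarTower K A F]
  [IsFractionRing A F] {C : g1g_Ctx N' Γ K F A}

theorem g1c_monoidHom_ne_zero (Nm : F →* F) {x : F} (hx : x ≠ 0) : Nm x ≠ 0 :=
  ((IsUnit.mk0 x hx).map Nm).ne_zero

/-- **the character of the norm**: if `f` has the character `χ`, then `Nm f` has the character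
`ext (g1t_TS (res χ))` -/
theorem g1c_hasChar_norm (hM : 3 ≤ M) (h1 : Gamma1 M ≤ Γ) (h2 : Γ ≤ g1f_Gpm M) (hpM : ¬ p ∣ M)
    {s : OnePoint (ZMod p) → Gamma0 M} {e : (ZMod M)ˣ} (hs : g1t_Adm hpM s e) (Nm : F →* F)
    (hnorm : ∀ a c₁ a₁ : A, Nm (algebraMap A F a) * algebraMap A F c₁ = algebraMap A F a₁ →
      ∀ z : ℍ, C.an a₁ z =
        (∏ x : OnePoint (ZMod p), C.an a (g1t_repS s x • z)) * C.an c₁ z)
    {n : ℕ} (hn : n ≠ 0) {f : F} {χ : ↥Γ →* ℂˣ} (hf : g1g_HasChar C n f χ) :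
    g1g_HasChar C n (Nm f) (g1c_ext hM h2 (g1t_TS hpM hs (g1c_res h1 χ))) := by
  have hf0 : f ≠ 0 := g1g_hasChar_ne_zero hf
  obtain ⟨a, b, h, hb, hab, hh, hh0, hpow, hχ⟩ := hf
  have ha : a ≠ 0 := gw_witness_ne_zero hf0 hb hab
  obtain ⟨k, rfl⟩ : ∃ k, n = k + 1 := ⟨n - 1, by omega⟩
  -- the norms of `a` and `b` as fractions
  obtain ⟨a₁, c₁, hc₁, hac₁⟩ := IsFractionRing.div_surjective (A := A) (Nm (algebraMap A F a))
  obtain ⟨a₂, c₂, hc₂, hac₂⟩ := IsFractionRing.div_surjective (A := A) (Nm (algebraMap A F b))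
  have hc₁0 : algebraMap A F c₁ ≠ 0 := gw_algebraMap_ne_zero (nonZeroDivisors.ne_zero hc₁)
  have hc₂0 : algebraMap A F c₂ ≠ 0 := gw_algebraMap_ne_zero (nonZeroDivisors.ne_zero hc₂)
  have hNb : Nm (algebraMap A F b) ≠ 0 := g1c_monoidHom_ne_zero Nm (gw_algebraMap_ne_zero hb)
  have hNa : Nm (algebraMap A F a) ≠ 0 := g1c_monoidHom_ne_zero Nm (gw_algebraMap_ne_zero ha)
  have ha₂0 : algebraMap A F a₂ ≠ 0 := by
    intro h0
    rw [h0, zero_div] at hac₂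
    exact hNb hac₂.symm
  have ha₁0 : algebraMap A F a₁ ≠ 0 := by
    intro h0
    rw [h0, zero_div] at hac₁
    exact hNa hac₁.symm
  have e1 : Nm (algebraMap A F a) * algebraMap A F c₁ = algebraMap A F a₁ := by
    rw [← hac₁, div_mul_cancel₀ _ hc₁0]
  have e2 : Nm (algebraMap A F b) * algebraMap A F c₂ = algebraMap A F a₂ := by
    rw [← hac₂, div_mul_cancel₀ _ hc₂0]
  -- the norm of the relation `a = f bⁿ`
  have hN : Nm (algebraMap A F a) = Nm f * Nm (algebraMap A F b) ^ (k + 1) := by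
    rw [hab, map_mul, map_pow]
  -- the `n`-th power of the candidate root
  have hpow' : ∀ z : ℍ, (g1c_H s h z * C.an c₁ z * C.an c₂ z) ^ (k + 1) =
      C.an (a₁ * c₁ ^ k * c₂ ^ (k + 1)) z := by
    intro z
    have e3 : g1c_H s h z ^ (k + 1) = ∏ x : OnePoint (ZMod p), C.an a (g1t_repS s x • z) := by
      unfold g1c_H
      rw [← Finset.prod_pow]
      exact Finset.prod_congr rfl fun x _ => hpow _
    have e4 := hnorm a c₁ a₁ e1 z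
    have e5 : C.an (a₁ * c₁ ^ k * c₂ ^ (k + 1)) z =
        C.an a₁ z * C.an c₁ z ^ k * C.an c₂ z ^ (k + 1) := by
      rw [map_mul, map_mul, map_pow, map_pow]
      rfl
    rw [e5, e4, mul_pow, mul_pow, e3]
    ring
  have ha' : a₁ * c₁ ^ k * c₂ ^ (k + 1) ≠ 0 := by
    have h10 : a₁ ≠ 0 := fun h0 => ha₁0 (by rw [h0, map_zero])
    exact mul_ne_zero (mul_ne_zero h10 (pow_ne_zero _ (nonZeroDivisors.ne_zero hc₁)))
      (pow_ne_zero _ (nonZeroDivisors.ne_zero hc₂))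
  refine ⟨a₁ * c₁ ^ k * c₂ ^ (k + 1), c₁ * a₂,
    fun z => g1c_H s h z * C.an c₁ z * C.an c₂ z, ?_, ?_, ?_, ?_, hpow', ?_⟩
  · intro h0
    have := congrArg (algebraMap A F) h0
    rw [map_mul, map_zero] at this
    exact mul_ne_zero hc₁0 ha₂0 this
  · -- the algebraic relation
    have e6 : Nm f = algebraMap A F a₁ * algebraMap A F c₂ ^ (k + 1) /
        (algebraMap A F c₁ * algebraMap A F a₂ ^ (k + 1)) := by
      rw [eq_div_iff (mul_ne_zero hc₁0 (pow_ne_zero _ ha₂0)), ← e1, ← e2, hN]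
      ring
    rw [e6]
    simp only [map_mul, map_pow]
    field_simp
    ring
  · exact ((g1c_H_mdiff s hh).mul (C.an_mdiff c₁)).mul (C.an_mdiff c₂)
  · -- nonvanishing, from the `n`-th power
    intro h0
    apply C.an_ne_zero ha'
    ext z
    rw [← hpow' z]
    have := congrFun h0 z
    simp only [Pi.zero_apply] at this
    rw [this, zero_pow hn]
    rfl
  · intro γ z
    have e7 : C.an c₁ ((γ : SL(2, ℤ)) • z) = C.an c₁ z := g1g_an_smul C c₁ γ z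
    have e8 : C.an c₂ ((γ : SL(2, ℤ)) • z) = C.an c₂ z := g1g_an_smul C c₂ γ z
    simp only []
    rw [g1c_H_smul hM h1 h2 hpM hs hχ, e7, e8]
    ring

/-- the `∃ χ'` form of `g1c_hasChar_norm` -/
theorem g1c_hasChar_norm' (hM : 3 ≤ M) (h1 : Gamma1 M ≤ Γ) (h2 : Γ ≤ g1f_Gpm M) (hpM : ¬ p ∣ M)
    {s : OnePoint (ZMod p) → Gamma0 M} {e : (ZMod M)ˣ} (hs : g1t_Adm hpM s e) (Nm : F →* F)
    (hnorm : ∀ a c₁ a₁ : A, Nm (algebraMap A F a) * algebraMap A F c₁ = algebraMap A F a₁ →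
      ∀ z : ℍ, C.an a₁ z =
        (∏ x : OnePoint (ZMod p), C.an a (g1t_repS s x • z)) * C.an c₁ z)
    {n : ℕ} (hn : n ≠ 0) {f : F} {χ : ↥Γ →* ℂˣ} (hf : g1g_HasChar C n f χ) :
    ∃ χ' : ↥Γ →* ℂˣ, g1g_HasChar C n (Nm f) χ' ∧
      g1c_res h1 χ' = g1t_TS hpM hs (g1c_res h1 χ) :=
  ⟨_, g1c_hasChar_norm hM h1 h2 hpM hs Nm hnorm hn hf, g1c_res_ext hM h1 h2 _⟩

/-! ### (d) The character of a diamond translate -/

/-- **diamonds**: if `δ` is realised by `σ ∈ Γ₀(M)` on `A`, then `δ f` has the character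
`ext (g1t_conjOp σ (res χ))` -/
theorem g1c_hasChar_diamond (hM : 3 ≤ M) (h1 : Gamma1 M ≤ Γ) (h2 : Γ ≤ g1f_Gpm M)
    (δ : F ≃ₐ[K] F) (σ : Gamma0 M)
    (hδA : ∀ a : A, ∃ a' : A, algebraMap A F a' = δ (algebraMap A F a) ∧
      ∀ z : ℍ, C.an a' z = C.an a ((σ : SL(2, ℤ)) • z))
    {n : ℕ} {f : F} {χ : ↥Γ →* ℂˣ} (hf : g1g_HasChar C n f χ) :
    g1g_HasChar C n (δ f) (g1c_ext hM h2 (g1t_conjOp σ (g1c_res h1 χ))) := by
  obtain ⟨a, b, h, hb, hab, hh, hh0, hpow, hχ⟩ := hf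
  obtain ⟨a', ha', han'⟩ := hδA a
  obtain ⟨b', hb', -⟩ := hδA b
  have hb'0 : b' ≠ 0 := by
    intro h0
    rw [h0, map_zero] at hb'
    exact gw_algebraMap_ne_zero (F := F) hb ((map_eq_zero δ).1 hb'.symm)
  refine ⟨a', b', fun z => h ((σ : SL(2, ℤ)) • z), hb'0, ?_, ?_, ?_, ?_, ?_⟩
  · rw [ha', hb', hab, map_mul, map_pow]
  · exact hh.comp (UpperHalfPlane.mdifferentiable_smul
      (g := (mapGL ℝ ((σ : Gamma0 M) : SL(2, ℤ)))) (by simp))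
  · intro h0
    apply hh0
    ext z
    have := congrFun h0 (((σ : Gamma0 M) : SL(2, ℤ))⁻¹ • z)
    simp only [Pi.zero_apply] at this
    rwa [smul_inv_smul] at this
  · intro z
    rw [hpow, han']
  · intro γ z
    simp only []
    rw [g1c_ext_apply, g1t_conjOp_apply, g1c_res_apply]
    set γ' : ↥(Gamma1 M) := g1c_proj hM (Subgroup.inclusion h2 γ) with hγ'
    have e1 : (γ : SL(2, ℤ)) • z = (γ' : SL(2, ℤ)) • z :=
      (g1c_proj_smul hM (Subgroup.inclusion h2 γ) z).symm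
    have e2 : (σ : SL(2, ℤ)) • ((γ' : SL(2, ℤ)) • z) =
        ((Subgroup.inclusion h1 (g1t_conj σ γ') : ↥Γ) : SL(2, ℤ)) • ((σ : SL(2, ℤ)) • z) := by
      show (σ : SL(2, ℤ)) • ((γ' : SL(2, ℤ)) • z) =
        ((g1t_conj σ γ' : ↥(Gamma1 M)) : SL(2, ℤ)) • ((σ : SL(2, ℤ)) • z)
      rw [g1t_conj_coe, ← mul_smul, ← mul_smul, inv_mul_cancel_right]
    rw [e1, e2, hχ]

/-! ### (c) Equivariance of the equivalence `Pic⁰[n] ≃ X` -/

section pic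

variable [IsAlgClosed K] {x : F} (hx : rt_IsSepGen K x)

omit [NeZero N'] [Algebra K ℂ] [CommRing A] [IsDomain A] [Algebra K A] [Algebra A F]
  [IsScalarTower K A F] [IsFractionRing A F] [IsAlgClosed K] in
/-- an additive endomorphism of `Pic⁰` preserves the `n`-torsion -/
theorem g1c_map_mem_torsion (Tm : Pic0 K F →+ Pic0 K F) {n : ℕ} (y : Pic0.torsion K F n) :
    Tm (y : Pic0 K F) ∈ Pic0.torsion K F n := by
  rw [Pic0.mem_torsion, ← map_zsmul, Pic0.mem_torsion.1 y.2, map_zero]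

/-- **Hecke equivariance of the gateway**: `res (e_n (Tm y)) = g1t_TS (res (e_n y))` for every
endomorphism `Tm` of `Pic⁰` given on divisors of functions by the norm `Nm` -/
theorem g1c_picEquiv_hecke {n : ℕ} (hn : n ≠ 0) (hC : g1g_Complete C) (hR : g1g_Rational C)
    (hsurj : ∀ χ ∈ g1g_X Γ n, ∃ f : F, gw_IsDiv K n f ∧ g1g_HasChar C n f χ)
    (hM : 3 ≤ M) (h1 : Gamma1 M ≤ Γ) (h2 : Γ ≤ g1f_Gpm M) (hpM : ¬ p ∣ M)
    {s : OnePoint (ZMod p) → Gamma0 M} {e : (ZMod M)ˣ} (hs : g1t_Adm hpM s e) (Nm : F →* F)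
    (hnorm : ∀ a c₁ a₁ : A, Nm (algebraMap A F a) * algebraMap A F c₁ = algebraMap A F a₁ →
      ∀ z : ℍ, C.an a₁ z =
        (∏ x : OnePoint (ZMod p), C.an a (g1t_repS s x • z)) * C.an c₁ z)
    (Tm : Pic0 K F →+ Pic0 K F)
    (hT : ∀ (D : Divisor.degZero (K := K) (F := F)) (f : F), f ≠ 0 →
      (∀ P : Place K F, (n : ℤ) * (D : Divisor K F) P = P.ord f) →
      ∃ D' : Divisor.degZero (K := K) (F := F), Tm (Pic0.mk D) = Pic0.mk D' ∧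
        ∀ P : Place K F, (n : ℤ) * (D' : Divisor K F) P = P.ord (Nm f))
    (y : Pic0.torsion K F n) :
    g1c_res h1 ((Additive.toMul (g1g_picEquiv hx hn hC hR hsurj
        ⟨Tm (y : Pic0 K F), g1c_map_mem_torsion Tm y⟩) : g1g_X Γ n) : ↥Γ →* ℂˣ) =
      g1t_TS hpM hs (g1c_res h1
        ((Additive.toMul (g1g_picEquiv hx hn hC hR hsurj y) : g1g_X Γ n) : ↥Γ →* ℂˣ)) := by
  obtain ⟨y, hy⟩ := y
  obtain ⟨D, rfl⟩ := QuotientAddGroup.mk_surjective y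
  change Pic0.mk D ∈ Pic0.torsion K F n at hy
  -- a function with `n D = div f`
  obtain ⟨f, hf0, hDf⟩ := (gp_mk_mem_torsion_iff D).1 hy
  have hfS : (Units.mk0 f hf0) ∈ gp_S K F n := fun P => ⟨_, (hDf P).symm⟩
  have hdiv : gw_IsDiv K n f := ⟨hf0, fun P => ⟨_, (hDf P).symm⟩⟩
  obtain ⟨χ, hχ⟩ := g1g_hasChar_exists (C := C) hn hdiv
  have e1 : ((Additive.toMul (g1g_picEquiv hx hn hC hR hsurj ⟨Pic0.mk D, hy⟩) : g1g_X Γ n) :
      ↥Γ →* ℂˣ) = χ :=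
    g1g_picEquiv_mk hx hn hC hR hsurj D ⟨Units.mk0 f hf0, hfS⟩ hDf hy hχ
  -- the operator on the class of `D`
  obtain ⟨D', hTD, hD'f⟩ := hT D f hf0 hDf
  have hf'0 : Nm f ≠ 0 := g1c_monoidHom_ne_zero Nm hf0
  have hf'S : (Units.mk0 _ hf'0) ∈ gp_S K F n := fun P => ⟨_, (hD'f P).symm⟩
  have hy' : Pic0.mk D' ∈ Pic0.torsion K F n := (gp_mk_mem_torsion_iff D').2 ⟨_, hf'0, hD'f⟩
  have e2 : ((Additive.toMul (g1g_picEquiv hx hn hC hR hsurj ⟨Pic0.mk D', hy'⟩) : g1g_X Γ n) :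
      ↥Γ →* ℂˣ) = g1c_ext hM h2 (g1t_TS hpM hs (g1c_res h1 χ)) :=
    g1g_picEquiv_mk hx hn hC hR hsurj D' ⟨Units.mk0 _ hf'0, hf'S⟩ hD'f hy'
      (g1c_hasChar_norm hM h1 h2 hpM hs Nm hnorm hn hχ)
  have e3 : (⟨Tm (Pic0.mk D), g1c_map_mem_torsion Tm ⟨Pic0.mk D, hy⟩⟩ : Pic0.torsion K F n) =
      ⟨Pic0.mk D', hy'⟩ := Subtype.ext hTD
  have e4 : g1c_res h1 ((Additive.toMul (g1g_picEquiv hx hn hC hR hsurj
        ⟨Tm (Pic0.mk D), g1c_map_mem_torsion Tm ⟨Pic0.mk D, hy⟩⟩) : g1g_X Γ n) : ↥Γ →* ℂˣ) =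
      g1t_TS hpM hs (g1c_res h1 χ) := by
    rw [e3, e2, g1c_res_ext]
  exact e4.trans (congrArg (fun ψ => g1t_TS hpM hs (g1c_res h1 ψ)) e1.symm)

/-- **diamond equivariance of the gateway**: `res (e_n (δ • y)) = g1t_conjOp σ (res (e_n y))` -/
theorem g1c_picEquiv_diamond {n : ℕ} (hn : n ≠ 0) (hC : g1g_Complete C) (hR : g1g_Rational C)
    (hsurj : ∀ χ ∈ g1g_X Γ n, ∃ f : F, gw_IsDiv K n f ∧ g1g_HasChar C n f χ)
    (hM : 3 ≤ M) (h1 : Gamma1 M ≤ Γ) (h2 : Γ ≤ g1f_Gpm M)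
    (δ : F ≃ₐ[K] F) (σ : Gamma0 M)
    (hδA : ∀ a : A, ∃ a' : A, algebraMap A F a' = δ (algebraMap A F a) ∧
      ∀ z : ℍ, C.an a' z = C.an a ((σ : SL(2, ℤ)) • z))
    (y : Pic0.torsion K F n) :
    g1c_res h1 ((Additive.toMul (g1g_picEquiv hx hn hC hR hsurj
        (SemilinearAut.ofAlgAut δ • y)) : g1g_X Γ n) : ↥Γ →* ℂˣ) =
      g1t_conjOp σ (g1c_res h1
        ((Additive.toMul (g1g_picEquiv hx hn hC hR hsurj y) : g1g_X Γ n) : ↥Γ →* ℂˣ)) := by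
  obtain ⟨y, hy⟩ := y
  obtain ⟨D, rfl⟩ := QuotientAddGroup.mk_surjective y
  change Pic0.mk D ∈ Pic0.torsion K F n at hy
  obtain ⟨f, hf0, hDf⟩ := (gp_mk_mem_torsion_iff D).1 hy
  have hfS : (Units.mk0 f hf0) ∈ gp_S K F n := fun P => ⟨_, (hDf P).symm⟩
  have hdiv : gw_IsDiv K n f := ⟨hf0, fun P => ⟨_, (hDf P).symm⟩⟩
  obtain ⟨χ, hχ⟩ := g1g_hasChar_exists (C := C) hn hdiv
  have e1 : ((Additive.toMul (g1g_picEquiv hx hn hC hR hsurj ⟨Pic0.mk D, hy⟩) : g1g_X Γ n) :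
      ↥Γ →* ℂˣ) = χ :=
    g1g_picEquiv_mk hx hn hC hR hsurj D ⟨Units.mk0 f hf0, hfS⟩ hDf hy hχ
  set g : SemilinearAut K F := SemilinearAut.ofAlgAut δ with hg
  set D' : Divisor.degZero (K := K) (F := F) := SemilinearAut.degZeroSMulHom g D with hD'
  have hD'f : ∀ P : Place K F, (n : ℤ) * (D' : Divisor K F) P = P.ord (δ f) := by
    intro P
    rw [hD', SemilinearAut.coe_degZeroSMulHom, SemilinearAut.divisor_smul_apply, hDf]
    have h3 := SemilinearAut.ord_smul g (g⁻¹ • P) f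
    rw [smul_inv_smul] at h3
    rw [← h3]
    rfl
  have hf'0 : δ f ≠ 0 := (map_ne_zero δ).2 hf0
  have hf'S : (Units.mk0 _ hf'0) ∈ gp_S K F n := fun P => ⟨_, (hD'f P).symm⟩
  have hy' : Pic0.mk D' ∈ Pic0.torsion K F n := (gp_mk_mem_torsion_iff D').2 ⟨_, hf'0, hD'f⟩
  have e2 : ((Additive.toMul (g1g_picEquiv hx hn hC hR hsurj ⟨Pic0.mk D', hy'⟩) : g1g_X Γ n) :
      ↥Γ →* ℂˣ) = g1c_ext hM h2 (g1t_conjOp σ (g1c_res h1 χ)) :=
    g1g_picEquiv_mk hx hn hC hR hsurj D' ⟨Units.mk0 _ hf'0, hf'S⟩ hD'f hy'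
      (g1c_hasChar_diamond hM h1 h2 δ σ hδA hχ)
  have e3 : (g • (⟨Pic0.mk D, hy⟩ : Pic0.torsion K F n)) = ⟨Pic0.mk D', hy'⟩ :=
    Subtype.ext (SemilinearAut.pic0_smul_mk g D)
  have e4 : g1c_res h1 ((Additive.toMul (g1g_picEquiv hx hn hC hR hsurj
        (g • (⟨Pic0.mk D, hy⟩ : Pic0.torsion K F n))) : g1g_X Γ n) : ↥Γ →* ℂˣ) =
      g1t_conjOp σ (g1c_res h1 χ) := by
    rw [e3, e2, g1c_res_ext]
  exact e4.trans (congrArg (fun ψ => g1t_conjOp σ (g1c_res h1 ψ)) e1.symm)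

end pic

end Fermat.Agent.DS
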