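import Mathlib
import Fermat.Agent.JT3.Gateway.Surjective
import Fermat.Agent.DS.Gam1.Gen.Classify

/-!
# DS-T / [G1] generic-Γ layer: surjectivity of the character map (local part)

Twin of `JT3/Gateway/Surjective.lean` for an arbitrary subgroup `Γ ≤ SL(2,ℤ)` (context `g1g_Ctx`);
the trace lemmas `gw_trace_sq_le_of_fix`, `gw_trace_conj`, `gw_trace_T_zpow` are reused from there.

**`g1g_isDiv_of_root`**: in a classified context (`g1g_Classified C`, the seam (C4)), if `a ∈ A` has a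
holomorphic `n`-th root `h` on `ℍ` with multiplier `χ`, and `χ` is trivial on the elliptic and the
parabolic elements, then the divisor of `a` is divisible by `n`; hence (`g1g_hasChar_of_root`) `a` is
an `n`-divisible function with character `χ`.
-/

set_option autoImplicit false

open UpperHalfPlane CongruenceSubgroup Complex
open scoped MatrixGroups Manifold Real

namespace Fermat.Agent.DS

open Fermat.Agent.S24 Fermat.Agent.JT Fermat.Agent.JT3 AlgebraicCurve
open Fermat.Agent.S23 (alphaN)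

/-! ### Divisibility of the divisor -/

variable {M : ℕ} [NeZero M] {Γ : Subgroup SL(2, ℤ)} {K F A : Type} [Field K] [Algebra K ℂ] [Field F] [Algebra K F]
  [CommRing A] [IsDomain A] [Algebra K A] [Algebra A F] [IsScalarTower K A F]
  [IsFractionRing A F] {C : g1g_Ctx M Γ K F A}

/-- **if `a ∈ A` has a holomorphic `n`-th root whose multiplier is trivial on the elliptic and the
parabolic elements, its divisor is divisible by `n`** -/
theorem g1g_isDiv_of_root (hcl : g1g_Classified C) {n : ℕ} (hn : n ≠ 0) {a : A} (ha : a ≠ 0)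
    {h : ℍ → ℂ} (hh : MDiff h) (hpow : ∀ z, h z ^ n = C.an a z) {χ : ↥Γ →* ℂˣ}
    (hmul : ∀ (γ : ↥Γ) (z : ℍ), h ((γ : SL(2, ℤ)) • z) = ((χ γ : ℂˣ) : ℂ) * h z)
    (hχ : ∀ γ : ↥Γ, ((γ : SL(2, ℤ)) : Matrix (Fin 2) (Fin 2) ℤ).trace ^ 2 ≤ 4 → χ γ = 1) :
    gw_IsDiv K n (algebraMap A F a) := by
  have ha' : algebraMap A F a ≠ 0 := gw_algebraMap_ne_zero ha
  have hn' : (n : ℤ) ≠ 0 := by exact_mod_cast hn
  have hh0 : h ≠ 0 := by
    rintro rfl
    obtain ⟨z, hz⟩ := gw_exists_ne_zero (C.an_ne_zero ha)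
    have := hpow z
    rw [Pi.zero_apply, zero_pow hn] at this
    exact hz this.symm
  refine ⟨ha', fun P => ?_⟩
  rcases hcl P with ⟨z, g, σ, e, he, hfix, hmem, hprim, hval⟩ | ⟨g, m, e, he, hmem, hprim, hval⟩
  · -- a point of `ℍ`
    have he' : (e : ℤ) ≠ 0 := by exact_mod_cast he.ne'
    set h' : ℍ → ℂ := fun w => h (g⁻¹ • w) with hh'
    have hh'md : MDiff h' := gm_mdiff_comp_smul g⁻¹ hh
    have hh'0 : h' ≠ 0 := by
      obtain ⟨w, hw⟩ := gw_exists_ne_zero hh0
      intro h0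
      have h1 := congrFun h0 (g • w)
      simp only [hh', Pi.zero_apply, inv_smul_smul] at h1
      exact hw h1
    have hγ : χ ⟨g⁻¹ * σ * g, hmem⟩ = 1 := by
      apply hχ
      show ((g⁻¹ * σ * g : SL(2, ℤ)) : Matrix (Fin 2) (Fin 2) ℤ).trace ^ 2 ≤ 4
      rw [gw_trace_conj]
      exact gw_trace_sq_le_of_fix σ z hfix
    have hinv : ∀ w : ℍ, h' (σ • w) = 1 * h' w := by
      intro w
      simp only [hh']
      have h1 : g⁻¹ • σ • w = (g⁻¹ * σ * g) • (g⁻¹ • w) := by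
        rw [← mul_smul, ← mul_smul, mul_inv_cancel_right]
      rw [h1, hmul ⟨g⁻¹ * σ * g, hmem⟩, hγ, Units.val_one]
    obtain ⟨k, hk, hl⟩ := gw_fix_mult hfix hh'md hh'0 hinv
    have hek : e ∣ k := (hprim.pow_eq_one_iff_dvd k).mp hl.symm
    obtain ⟨k', rfl⟩ := hek
    have h1 : gm_taylor z (fun w => C.an a (g⁻¹ • w)) = gm_taylor z h' ^ n := by
      rw [← gm_taylor_pow z hh'md n]
      congr 1
      ext w
      simp only [hh', Pi.pow_apply, hpow]
    have h2 : (gm_taylor z (fun w => C.an a (g⁻¹ • w))).order = ((n * (e * k') : ℕ) : ℕ∞) := by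
      rw [h1, PowerSeries.order_pow, hk]
      push_cast
      rfl
    have h3 := g1g_valPtAt_eq_of_taylor_order C z g a h2
    rw [hval _ ha'] at h3
    refine ⟨k', ?_⟩
    apply mul_left_cancel₀ he'
    rw [h3]
    push_cast
    ring
  · -- a cusp
    have he' : (e : ℤ) ≠ 0 := by exact_mod_cast he.ne'
    have hNR : (M : ℝ) ≠ 0 := by exact_mod_cast NeZero.ne M
    set Kf : ℍ → ℂ := fun τ => h (g⁻¹ • alphaN M • τ) with hKf
    have hKmd : MDiff Kf :=
      (gm_mdiff_comp_smul g⁻¹ hh).comp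
        (UpperHalfPlane.mdifferentiable_smul (Fermat.Agent.S23.det_alphaN_pos M))
    have hK0 : Kf ≠ 0 := by
      obtain ⟨w, hw⟩ := gw_exists_ne_zero hh0
      intro h0
      have h1 := congrFun h0 ((alphaN M)⁻¹ • (g • w))
      simp only [hKf, Pi.zero_apply, smul_inv_smul, inv_smul_smul] at h1
      exact hw h1
    have hKpow : Kf ^ n = fun τ => C.an a (g⁻¹ • alphaN M • τ) := by
      ext τ
      simp only [hKf, Pi.pow_apply, hpow]
    have hG : gm_IsMerQ (Kf ^ n) := by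
      rw [hKpow]
      exact C.an_merCusp a g⁻¹
    -- translations by `k`: multiplier `χ (g⁻¹ Tᵏ g)`
    have htr : ∀ (k : ℤ) (hk : g⁻¹ * ModularGroup.T ^ k * g ∈ Γ) (τ : ℍ),
        Kf ((((k : ℝ) / M : ℝ)) +ᵥ τ) = Kf τ := by
      intro k hk τ
      have hγ : χ ⟨g⁻¹ * ModularGroup.T ^ k * g, hk⟩ = 1 := by
        apply hχ
        show ((g⁻¹ * ModularGroup.T ^ k * g : SL(2, ℤ)) : Matrix (Fin 2) (Fin 2) ℤ).trace ^ 2 ≤ 4
        rw [gw_trace_conj, gw_trace_T_zpow]
        norm_num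
      simp only [hKf]
      rw [fi_alphaN_vadd, mul_div_cancel₀ _ hNR]
      have h1 : g⁻¹ • ((k : ℝ) +ᵥ (alphaN M • τ)) =
          (g⁻¹ * ModularGroup.T ^ k * g) • (g⁻¹ • alphaN M • τ) := by
        rw [← mul_smul, mul_inv_cancel_right, mul_smul, UpperHalfPlane.modular_T_zpow_smul]
      rw [h1, hmul ⟨g⁻¹ * ModularGroup.T ^ k * g, hk⟩, hγ, Units.val_one, one_mul]
    have hper1 : ∀ τ : ℍ, Kf ((1 : ℝ) +ᵥ τ) = Kf τ := by
      intro τ
      have hmemM : g⁻¹ * ModularGroup.T ^ (M : ℤ) * g ∈ Γ := by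
        have := C.conj_T_pow_mem g⁻¹
        rwa [inv_inv] at this
      have := htr (M : ℤ) hmemM τ
      rwa [Int.cast_natCast, div_self hNR] at this
    have hKm : gm_IsMerQ Kf := gw_par_merQ hKmd hn hper1 hG
    have h1 := gw_par_twist hKm hK0 (((m : ℝ) / M : ℝ)) (l := 1)
      (fun τ => by rw [htr m hmem τ, one_mul])
    have hek : (e : ℤ) ∣ (gm_lq Kf).order := (hprim.zpow_eq_one_iff_dvd _).mp h1.symm
    obtain ⟨k', hk'⟩ := hek
    have h2 : g1g_valCuspAt C g (algebraMap A F a) = (n : ℤ) * (gm_lq Kf).order := by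
      rw [g1g_valCuspAt_algebraMap, ← hKpow, gm_lq_pow hKm, HahnSeries.order_pow, nsmul_eq_mul]
    rw [hval _ ha', hk'] at h2
    refine ⟨k', ?_⟩
    apply mul_left_cancel₀ he'
    rw [h2]
    ring

/-- **surjectivity, local part**: an element of `A` with a holomorphic `n`-th root whose
multiplier `χ` is trivial on the elliptic and the parabolic elements is an `n`-divisible function
with character `χ` -/
theorem g1g_hasChar_of_root (hcl : g1g_Classified C) {n : ℕ} (hn : n ≠ 0) {a : A} (ha : a ≠ 0)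
    {h : ℍ → ℂ} (hh : MDiff h) (hpow : ∀ z, h z ^ n = C.an a z) {χ : ↥Γ →* ℂˣ}
    (hmul : ∀ (γ : ↥Γ) (z : ℍ), h ((γ : SL(2, ℤ)) • z) = ((χ γ : ℂˣ) : ℂ) * h z)
    (hχ : ∀ γ : ↥Γ, ((γ : SL(2, ℤ)) : Matrix (Fin 2) (Fin 2) ℤ).trace ^ 2 ≤ 4 → χ γ = 1) :
    gw_IsDiv K n (algebraMap A F a) ∧ g1g_HasChar C n (algebraMap A F a) χ := by
  refine ⟨g1g_isDiv_of_root hcl hn ha hh hpow hmul hχ, a, 1, h, one_ne_zero, ?_, hh, ?_, hpow, hmul⟩
  · rw [map_one, one_pow, mul_one]
  · rintro rfl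
    obtain ⟨z, hz⟩ := gw_exists_ne_zero (C.an_ne_zero ha)
    have := hpow z
    rw [Pi.zero_apply, zero_pow hn] at this
    exact hz this.symm

end Fermat.Agent.DS
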