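/-
DS-T / [G1] generic-Γ layer, leaf [L6] (first half): EISENSTEIN SERIES WITH CHARACTER FOR AN
ARBITRARY SUBGROUP `Γ ≤ SL(2,ℤ)`.  Prefix `g1e_`.

Twin of the `χ`-part of `JT3/Gateway/TwistedEisenstein.lean` and of `JT3/Gateway/TwistedWeak.lean`
with `Γ₀(N)` replaced by `Γ`; the weighted series `twe_E w k` (generic in the weight `w`) is reused.
Hypotheses on `Γ`: `-1 ∈ Γ` and a period `T ^ (w n) ∈ Γ` (`w > 0`; e.g. `Γ(w) ≤ Γ`).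

* `g1e_wt Γ χ`, `g1e_TrivAtInfty Γ χ`, `g1e_Echi Γ χ k`, `g1e_Echi_slash`, `g1e_Echi_smul`,
  `g1e_Echi_tendsto` (`E_χ → 2` at `i∞`), `g1e_Echi_eventually_ne_zero`;
* `g1e_IsCharFun Γ χ h` (holomorphic, multiplier `χ`, moderate growth at all cusps), `.mul`, `.pow`,
  `.isWeakModFun_pow : χⁿ = 1 → g1g_IsWeakModFun Γ (f ^ n)`;
* `g1e_g Γ χ = E_χ / Δ` (weight `12`): `g1e_g_isCharFun`, `g1e_g_ne_zero`,
  **`g1e_g_pow_isWeakModFun`**;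
* `g1e_trivAtInfty_of_parEll`.
-/
import Mathlib
import Fermat.Agent.JT3.Gateway.TwistedWeak
import Fermat.Agent.DS.Gam1.Gen.WeakModFun

set_option autoImplicit false

namespace Fermat.Agent.DS

open UpperHalfPlane ModularForm EisensteinSeries Matrix CongruenceSubgroup Filter Topology
open scoped MatrixGroups Manifold
open Fermat.Agent.S24 (qH etaProdH)
open Fermat.Agent.JT3

local notation "Δ" => ModularForm.discriminant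

noncomputable section

variable (Γ : Subgroup SL(2, ℤ)) (χ : ↥Γ →* ℂˣ)

open Classical in
/-- The weight on `ℤ²` attached to a character `χ` of `Γ`: `χ(γ)⁻¹` on the bottom row of
`γ ∈ Γ`, zero elsewhere. -/
def g1e_wt (v : Fin 2 → ℤ) : ℂ :=
  if h : ∃ γ : ↥Γ, twe_row (γ : SL(2, ℤ)) = v then (((χ h.choose)⁻¹ : ℂˣ) : ℂ) else 0

/-- The hypothesis that `χ` is trivial on the stabiliser of `∞`. -/
def g1e_TrivAtInfty : Prop := ∀ γ : ↥Γ, (γ : SL(2, ℤ)) 1 0 = 0 → χ γ = 1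

variable {Γ χ}

lemma g1e_chi_eq_of_row_eq (hχ : g1e_TrivAtInfty Γ χ) {γ δ : ↥Γ}
    (h : twe_row (γ : SL(2, ℤ)) = twe_row (δ : SL(2, ℤ))) : χ γ = χ δ := by
  have h1 : χ (γ * δ⁻¹) = 1 := by
    apply hχ
    have := twe_row_mul_inv_of_eq h
    have h2 := congr_fun this 0
    simpa using h2
  rwa [map_mul, map_inv, mul_inv_eq_one] at h1

lemma g1e_wt_row (hχ : g1e_TrivAtInfty Γ χ) (γ : ↥Γ) :
    g1e_wt Γ χ (twe_row (γ : SL(2, ℤ))) = (((χ γ)⁻¹ : ℂˣ) : ℂ) := by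
  have h : ∃ δ : ↥Γ, twe_row (δ : SL(2, ℤ)) = twe_row (γ : SL(2, ℤ)) := ⟨γ, rfl⟩
  unfold g1e_wt
  rw [dif_pos h, g1e_chi_eq_of_row_eq hχ h.choose_spec]

lemma g1e_wt_of_not {v : Fin 2 → ℤ} (h : ¬ ∃ γ : ↥Γ, twe_row (γ : SL(2, ℤ)) = v) :
    g1e_wt Γ χ v = 0 := dif_neg h

lemma g1e_wt_vecMul (hχ : g1e_TrivAtInfty Γ χ) (γ : ↥Γ) (v : Fin 2 → ℤ) :
    g1e_wt Γ χ (v ᵥ* (γ : SL(2, ℤ))) = g1e_wt Γ χ v * (((χ γ)⁻¹ : ℂˣ) : ℂ) := by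
  by_cases h : ∃ δ : ↥Γ, twe_row (δ : SL(2, ℤ)) = v
  · obtain ⟨δ, rfl⟩ := h
    rw [← twe_row_mul]
    have : (δ : SL(2, ℤ)) * γ = ((δ * γ : ↥Γ) : SL(2, ℤ)) := rfl
    rw [this, g1e_wt_row hχ, g1e_wt_row hχ, map_mul, mul_inv, Units.val_mul]
  · have h' : ¬ ∃ δ : ↥Γ, twe_row (δ : SL(2, ℤ)) = v ᵥ* (γ : SL(2, ℤ)) := by
      rintro ⟨δ, hδ⟩
      apply h
      refine ⟨δ * γ⁻¹, ?_⟩
      have : ((δ * γ⁻¹ : ↥Γ) : SL(2, ℤ)) = (δ : SL(2, ℤ)) * (γ : SL(2, ℤ))⁻¹ := rfl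
      rw [this, twe_row_mul, hδ, vecMul_vecMul, ← Matrix.SpecialLinearGroup.coe_mul,
        mul_inv_cancel, Matrix.SpecialLinearGroup.coe_one, vecMul_one]
    rw [g1e_wt_of_not h, g1e_wt_of_not h', zero_mul]

lemma g1e_wt_norm_le (hu : ∀ γ : ↥Γ, ‖((χ γ : ℂˣ) : ℂ)‖ = 1) (v : Fin 2 → ℤ) :
    ‖g1e_wt Γ χ v‖ ≤ 1 := by
  unfold g1e_wt
  split_ifs with h
  · rw [Units.val_inv_eq_inv_val, norm_inv, hu, inv_one]
  · simp

/-- A character with values of finite order is unitary. -/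
lemma g1e_unitary_of_pow_eq_one {n : ℕ} (hn : n ≠ 0) (hχn : χ ^ n = 1) (γ : ↥Γ) :
    ‖((χ γ : ℂˣ) : ℂ)‖ = 1 := by
  have h1 : (χ γ) ^ n = 1 := by
    have := congr_arg (fun ψ : ↥Γ →* ℂˣ => ψ γ) hχn
    simpa using this
  have h2 : ((χ γ : ℂˣ) : ℂ) ^ n = 1 := by
    rw [← Units.val_pow_eq_pow_val, h1, Units.val_one]
  exact Complex.norm_eq_one_of_pow_eq_one h2 hn

variable (Γ χ)

/-- The Eisenstein series with character `χ`. -/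
def g1e_Echi (k : ℤ) : ℍ → ℂ := twe_E (g1e_wt Γ χ) k

variable {Γ χ}

/-- `E_χ ∣[k] γ = χ(γ) • E_χ` for `γ ∈ Γ`. -/
theorem g1e_Echi_slash (hχ : g1e_TrivAtInfty Γ χ) (k : ℤ) (γ : ↥Γ) :
    g1e_Echi Γ χ k ∣[k] (γ : SL(2, ℤ)) = ((χ γ : ℂˣ) : ℂ) • g1e_Echi Γ χ k := by
  rw [g1e_Echi, twe_slash]
  ext z
  simp only [twe_E, Pi.smul_apply, smul_eq_mul]
  rw [← tsum_mul_left]
  refine tsum_congr fun v => ?_
  have h1 : (twe_vecMulEquiv (γ : SL(2, ℤ))).symm v = v ᵥ* ((γ⁻¹ : ↥Γ) : SL(2, ℤ)) := rfl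
  rw [h1, g1e_wt_vecMul hχ, map_inv, inv_inv]
  ring

/-- `E_χ (γ z) = χ(γ) (c z + d) ^ k E_χ z` for `γ ∈ Γ`. -/
theorem g1e_Echi_smul (hχ : g1e_TrivAtInfty Γ χ) (k : ℤ) (γ : ↥Γ) (z : ℍ) :
    g1e_Echi Γ χ k ((γ : SL(2, ℤ)) • z) =
      ((χ γ : ℂˣ) : ℂ) * denom (γ : SL(2, ℤ)) z ^ k * g1e_Echi Γ χ k z := by
  have h := congr_fun (g1e_Echi_slash hχ k γ) z
  rw [SL_slash_apply, Pi.smul_apply, smul_eq_mul, _root_.zpow_neg,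
    mul_inv_eq_iff_eq_mul₀ (zpow_ne_zero _ <| denom_ne_zero _ z)] at h
  rw [h]
  ring

theorem g1e_Echi_mdifferentiable (hu : ∀ γ : ↥Γ, ‖((χ γ : ℂˣ) : ℂ)‖ = 1) {k : ℤ}
    (hk : 3 ≤ k) : MDiff (g1e_Echi Γ χ k) :=
  twe_mdifferentiable (g1e_wt_norm_le hu) hk

/-- `E_χ` is bounded at every cusp: every `SL(2, ℤ)`-slash is bounded at `i∞`. -/
theorem g1e_Echi_slash_isBoundedAtImInfty (hu : ∀ γ : ↥Γ, ‖((χ γ : ℂˣ) : ℂ)‖ = 1) {k : ℤ}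
    (hk : 3 ≤ k) (A : SL(2, ℤ)) : IsBoundedAtImInfty (g1e_Echi Γ χ k ∣[k] A) :=
  twe_slash_isBoundedAtImInfty (g1e_wt_norm_le hu) hk A

/-- `E_χ` is invariant under `z ↦ z + w n` when `T ^ (w n) ∈ Γ`. -/
lemma g1e_Echi_T_zpow (hχ : g1e_TrivAtInfty Γ χ) (k : ℤ) {m : ℤ} (hm : ModularGroup.T ^ m ∈ Γ)
    (z : ℍ) : g1e_Echi Γ χ k (ModularGroup.T ^ m • z) = g1e_Echi Γ χ k z := by
  have h := g1e_Echi_smul hχ k ⟨ModularGroup.T ^ m, hm⟩ z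
  have h1 : χ ⟨ModularGroup.T ^ m, hm⟩ = 1 := by
    apply hχ
    show (ModularGroup.T ^ m : SL(2, ℤ)) 1 0 = 0
    rw [ModularGroup.coe_T_zpow]
    simp
  have h2 : denom (ModularGroup.T ^ m : SL(2, ℤ)) z = 1 := by
    rw [ModularGroup.denom_apply, ModularGroup.coe_T_zpow]
    simp
  rw [h1] at h
  simp only [h2] at h
  simpa using h

/-- For a `w`-periodic function, a limit in the strip `|re z| ≤ w` is a limit at `i∞`. -/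
lemma g1e_tendsto_of_periodic {f : ℍ → ℂ} {L : ℂ} {w : ℕ} (hw : 0 < w)
    (hper : ∀ (n : ℤ) (z : ℍ), f (ModularGroup.T ^ ((w : ℤ) * n) • z) = f z)
    (h : Tendsto f (atImInfty ⊓ 𝓟 {z : ℍ | |z.re| ≤ w}) (𝓝 L)) : Tendsto f atImInfty (𝓝 L) := by
  intro U hU
  have h1 := h hU
  rw [Filter.mem_map, Filter.mem_inf_principal, atImInfty_mem] at h1
  obtain ⟨B, hB⟩ := h1
  rw [Filter.mem_map, atImInfty_mem]
  refine ⟨B, fun z hz => ?_⟩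
  obtain ⟨n, hn⟩ := ModularGroup_T_zpow_mem_verticalStrip z (N := w) hw
  have h2 : (ModularGroup.T ^ ((w : ℤ) * n) • z) ∈ f ⁻¹' U := by
    apply hB
    · rw [ModularGroup.im_T_zpow_smul]
      exact hz
    · exact hn.1
  have h3 : f (ModularGroup.T ^ ((w : ℤ) * n) • z) ∈ U := h2
  rw [hper] at h3
  exact h3

lemma g1e_one_mem_row : twe_row ((1 : ↥Γ) : SL(2, ℤ)) = ![0, 1] := by
  rw [Subgroup.coe_one, twe_row_one]

lemma g1e_wt_zero_one (hχ : g1e_TrivAtInfty Γ χ) : g1e_wt Γ χ ![0, 1] = 1 := by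
  rw [← g1e_one_mem_row (Γ := Γ), g1e_wt_row hχ, map_one, inv_one, Units.val_one]

lemma g1e_wt_zero_neg_one (hneg : (-1 : SL(2, ℤ)) ∈ Γ) (hχ : g1e_TrivAtInfty Γ χ) :
    g1e_wt Γ χ ![0, -1] = 1 := by
  have h1 : twe_row ((⟨-1, hneg⟩ : ↥Γ) : SL(2, ℤ)) = ![0, -1] :=
    twe_row_neg_one
  have h2 : χ ⟨-1, hneg⟩ = 1 := by
    apply hχ
    show (-1 : SL(2, ℤ)) 1 0 = 0
    simp
  rw [← h1, g1e_wt_row hχ, h2, inv_one, Units.val_one]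

/-- The constant term of `E_χ` is `2` (for even weight). -/
theorem g1e_const_wt (hneg : (-1 : SL(2, ℤ)) ∈ Γ) (hχ : g1e_TrivAtInfty Γ χ) {k : ℤ}
    (hk : Even k) : twe_const (g1e_wt Γ χ) k = 2 := by
  classical
  have hne : (![0, 1] : Fin 2 → ℤ) ≠ ![0, -1] := by
    intro h
    have := congr_fun h 1
    simp at this
  have key : ∀ v : Fin 2 → ℤ,
      (if v 0 = 0 then g1e_wt Γ χ v * ((v 1 : ℤ) : ℂ) ^ (-k) else 0) =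
      (if v = ![0, 1] then (1 : ℂ) else 0) + (if v = ![0, -1] then (1 : ℂ) else 0) := by
    intro v
    by_cases h1 : v = ![0, 1]
    · subst h1
      rw [if_pos rfl, if_neg hne]
      simp [g1e_wt_zero_one hχ]
    by_cases h2 : v = ![0, -1]
    · subst h2
      rw [if_neg hne.symm, if_pos rfl]
      have : ((-1 : ℂ)) ^ (-k) = 1 := hk.neg.neg_one_zpow
      simp [g1e_wt_zero_neg_one hneg hχ, this]
    rw [if_neg h1, if_neg h2, add_zero]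
    by_cases h0 : v 0 = 0
    · rw [if_pos h0]
      have : g1e_wt Γ χ v = 0 := by
        apply g1e_wt_of_not
        rintro ⟨γ, rfl⟩
        rcases twe_row_eq_of_zero (γ := (γ : SL(2, ℤ))) h0 with h | h
        · exact h1 h
        · exact h2 h
      rw [this, zero_mul]
    · rw [if_neg h0]
  unfold twe_const
  simp_rw [key]
  rw [Summable.tsum_add (hasSum_ite_eq _ _).summable (hasSum_ite_eq _ _).summable,
    tsum_ite_eq, tsum_ite_eq]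
  norm_num

/-- `E_χ → 2` at `i∞` (even weight). -/
theorem g1e_Echi_tendsto (hneg : (-1 : SL(2, ℤ)) ∈ Γ) {w : ℕ} (hw : 0 < w)
    (hT : ∀ n : ℤ, ModularGroup.T ^ ((w : ℤ) * n) ∈ Γ) (hχ : g1e_TrivAtInfty Γ χ)
    (hu : ∀ γ : ↥Γ, ‖((χ γ : ℂˣ) : ℂ)‖ = 1) {k : ℤ} (hk : 3 ≤ k) (hk2 : Even k) :
    Tendsto (g1e_Echi Γ χ k) atImInfty (𝓝 2) := by
  apply g1e_tendsto_of_periodic hw (fun n z => g1e_Echi_T_zpow hχ k (hT n) z)
  rw [← g1e_const_wt hneg hχ hk2]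
  exact twe_tendsto_strip (g1e_wt_norm_le hu) hk w

/-- `E_χ` is not identically zero (even weight): it is nonzero at every point high enough. -/
theorem g1e_Echi_eventually_ne_zero (hneg : (-1 : SL(2, ℤ)) ∈ Γ) {w : ℕ} (hw : 0 < w)
    (hT : ∀ n : ℤ, ModularGroup.T ^ ((w : ℤ) * n) ∈ Γ) (hχ : g1e_TrivAtInfty Γ χ)
    (hu : ∀ γ : ↥Γ, ‖((χ γ : ℂˣ) : ℂ)‖ = 1) {k : ℤ} (hk : 3 ≤ k) (hk2 : Even k) :
    ∀ᶠ z in atImInfty, g1e_Echi Γ χ k z ≠ 0 :=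
  (g1e_Echi_tendsto hneg hw hT hχ hu hk hk2).eventually_ne (by norm_num)

/-! ### weakly holomorphic functions with character -/

/-- `h` is holomorphic on `ℍ`, transforms under `Γ` by the character `χ`, and all its
`SL(2, ℤ)`-translates have at most a pole at `i∞`. -/
structure g1e_IsCharFun (Γ : Subgroup SL(2, ℤ)) (χ : ↥Γ →* ℂˣ) (h : ℍ → ℂ) : Prop where
  mdiff : MDiff h
  smul : ∀ (γ : ↥Γ) (z : ℍ), h ((γ : SL(2, ℤ)) • z) = ((χ γ : ℂˣ) : ℂ) * h z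
  growth : ∀ A : SL(2, ℤ), ∃ m : ℕ, IsBoundedAtImInfty (qH ^ m * fun z => h (A • z))

namespace g1e_IsCharFun

variable {ψ : ↥Γ →* ℂˣ} {f g : ℍ → ℂ}

theorem mul (hf : g1e_IsCharFun Γ χ f) (hg : g1e_IsCharFun Γ ψ g) :
    g1e_IsCharFun Γ (χ * ψ) (f * g) := by
  refine ⟨hf.mdiff.mul hg.mdiff, fun γ z => ?_, fun A => ?_⟩
  · show f _ * g _ = _ * (f z * g z)
    rw [hf.smul, hg.smul, MonoidHom.mul_apply, Units.val_mul]
    ring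
  · obtain ⟨m₁, h₁⟩ := hf.growth A
    obtain ⟨m₂, h₂⟩ := hg.growth A
    refine ⟨m₁ + m₂, ?_⟩
    have e : (qH ^ (m₁ + m₂) * fun z => (f * g) (A • z)) =
        (qH ^ m₁ * fun z => f (A • z)) * (qH ^ m₂ * fun z => g (A • z)) := by
      ext z; simp [pow_add]; ring
    rw [e]
    exact h₁.mul h₂

theorem one (Γ : Subgroup SL(2, ℤ)) : g1e_IsCharFun Γ (1 : ↥Γ →* ℂˣ) (1 : ℍ → ℂ) := by
  refine ⟨mdifferentiable_const, fun γ z => by simp, fun A => ⟨0, ?_⟩⟩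
  have h : (qH ^ 0 * fun z : ℍ => (1 : ℍ → ℂ) (A • z)) = Function.const ℍ (1 : ℂ) := by
    ext z; simp
  rw [h]
  exact Filter.const_boundedAtFilter atImInfty (1 : ℂ)

theorem pow (hf : g1e_IsCharFun Γ χ f) (n : ℕ) : g1e_IsCharFun Γ (χ ^ n) (f ^ n) := by
  induction n with
  | zero =>
    have h0 : χ ^ 0 = 1 := by ext γ; simp
    rw [h0, pow_zero]
    exact one Γ
  | succ n ih =>
    have h1 : χ ^ (n + 1) = χ ^ n * χ := by ext γ; simp [pow_succ]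
    rw [h1, pow_succ]
    exact ih.mul hf

/-- A function with trivial character is a weakly holomorphic modular function. -/
theorem isWeakModFun (hf : g1e_IsCharFun Γ (1 : ↥Γ →* ℂˣ) f) : g1g_IsWeakModFun Γ f :=
  ⟨hf.mdiff, fun γ hγ z => by simpa using hf.smul ⟨γ, hγ⟩ z, hf.growth⟩

theorem isWeakModFun_pow (hf : g1e_IsCharFun Γ χ f) {n : ℕ} (hχn : χ ^ n = 1) :
    g1g_IsWeakModFun Γ (f ^ n) := by
  have := hf.pow n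
  rw [hχn] at this
  exact this.isWeakModFun

end g1e_IsCharFun

/-! ### `E_χ / Δ` -/

variable (Γ χ)

/-- The holomorphic weight-zero function `E_χ / Δ` (`E_χ` of weight `12`). -/
def g1e_g (z : ℍ) : ℂ := g1e_Echi Γ χ 12 z / (Δ : ℍ → ℂ) z

variable {Γ χ}

lemma g1e_g_eq : g1e_g Γ χ = g1e_Echi Γ χ 12 / (Δ : ℍ → ℂ) := rfl

theorem g1e_g_mdifferentiable (hu : ∀ γ : ↥Γ, ‖((χ γ : ℂˣ) : ℂ)‖ = 1) :
    MDiff (g1e_g Γ χ) := by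
  rw [g1e_g_eq]
  exact MDifferentiable.div (g1e_Echi_mdifferentiable hu (by norm_num))
    Fermat.Agent.S24.mdiff_discriminant discriminant_ne_zero

/-- Translates: `(E_χ / Δ)(A z) = (E_χ ∣[12] A)(z) / Δ(z)`. -/
lemma g1e_g_smul_SL (A : SL(2, ℤ)) (z : ℍ) :
    g1e_g Γ χ (A • z) = (g1e_Echi Γ χ 12 ∣[(12 : ℤ)] A) z / (Δ : ℍ → ℂ) z := by
  have hd : denom A z ^ (12 : ℤ) ≠ 0 := zpow_ne_zero _ (denom_ne_zero _ z)
  rw [g1e_g, twe_discriminant_smul, SL_slash_apply, _root_.zpow_neg]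
  field_simp

theorem g1e_g_smul (hχ : g1e_TrivAtInfty Γ χ) (γ : ↥Γ) (z : ℍ) :
    g1e_g Γ χ ((γ : SL(2, ℤ)) • z) = ((χ γ : ℂˣ) : ℂ) * g1e_g Γ χ z := by
  rw [g1e_g_smul_SL, g1e_Echi_slash hχ, Pi.smul_apply, smul_eq_mul, g1e_g, mul_div_assoc]

theorem g1e_g_growth (hu : ∀ γ : ↥Γ, ‖((χ γ : ℂˣ) : ℂ)‖ = 1) (A : SL(2, ℤ)) :
    IsBoundedAtImInfty (qH ^ 1 * fun z => g1e_g Γ χ (A • z)) := by
  have h1 : (qH ^ 1 * fun z => g1e_g Γ χ (A • z)) =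
      (g1e_Echi Γ χ 12 ∣[(12 : ℤ)] A) * (fun z : ℍ => qH z / (Δ : ℍ → ℂ) z) := by
    ext z
    simp only [Pi.mul_apply, pow_one, g1e_g_smul_SL]
    ring
  rw [h1]
  exact (g1e_Echi_slash_isBoundedAtImInfty hu (by norm_num) A).mul
    twe_isBoundedAtImInfty_qH_div_discriminant

/-- `E_χ / Δ` is a weakly holomorphic function with character `χ`. -/
theorem g1e_g_isCharFun (hχ : g1e_TrivAtInfty Γ χ)
    (hu : ∀ γ : ↥Γ, ‖((χ γ : ℂˣ) : ℂ)‖ = 1) : g1e_IsCharFun Γ χ (g1e_g Γ χ) :=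
  ⟨g1e_g_mdifferentiable hu, g1e_g_smul hχ, fun A => ⟨1, g1e_g_growth hu A⟩⟩

theorem g1e_g_eventually_ne_zero (hneg : (-1 : SL(2, ℤ)) ∈ Γ) {w : ℕ} (hw : 0 < w)
    (hT : ∀ n : ℤ, ModularGroup.T ^ ((w : ℤ) * n) ∈ Γ) (hχ : g1e_TrivAtInfty Γ χ)
    (hu : ∀ γ : ↥Γ, ‖((χ γ : ℂˣ) : ℂ)‖ = 1) :
    ∀ᶠ z in atImInfty, g1e_g Γ χ z ≠ 0 := by
  filter_upwards [g1e_Echi_eventually_ne_zero hneg hw hT hχ hu (k := 12) (by norm_num)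
    ⟨6, by norm_num⟩] with z hz
  exact div_ne_zero hz (discriminant_ne_zero z)

theorem g1e_g_ne_zero (hneg : (-1 : SL(2, ℤ)) ∈ Γ) {w : ℕ} (hw : 0 < w)
    (hT : ∀ n : ℤ, ModularGroup.T ^ ((w : ℤ) * n) ∈ Γ) (hχ : g1e_TrivAtInfty Γ χ)
    (hu : ∀ γ : ↥Γ, ‖((χ γ : ℂˣ) : ℂ)‖ = 1) : g1e_g Γ χ ≠ 0 := by
  intro h
  obtain ⟨z, hz⟩ := (g1e_g_eventually_ne_zero hneg hw hT hχ hu).exists
  exact hz (by rw [h]; rfl)

/-- If `χ ^ n = 1` then `(E_χ / Δ) ^ n` is a weakly holomorphic modular function for `Γ`. -/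
theorem g1e_g_pow_isWeakModFun (hχ : g1e_TrivAtInfty Γ χ) {n : ℕ} (hn : n ≠ 0)
    (hχn : χ ^ n = 1) : g1g_IsWeakModFun Γ (g1e_g Γ χ ^ n) :=
  (g1e_g_isCharFun hχ (g1e_unitary_of_pow_eq_one hn hχn)).isWeakModFun_pow hχn

/-- a character which is trivial on the parabolic elements is trivial on the stabiliser of `∞` -/
theorem g1e_trivAtInfty_of_parEll
    (h : ∀ γ : ↥Γ, ((γ : SL(2, ℤ)) : Matrix (Fin 2) (Fin 2) ℤ).trace ^ 2 ≤ 4 → χ γ = 1) :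
    g1e_TrivAtInfty Γ χ := by
  intro γ hγ
  apply h
  have hdet : (γ : SL(2, ℤ)) 0 0 * (γ : SL(2, ℤ)) 1 1 - (γ : SL(2, ℤ)) 0 1 * (γ : SL(2, ℤ)) 1 0 = 1 := by
    have := (γ : SL(2, ℤ)).2
    rwa [Matrix.det_fin_two] at this
  rw [hγ, mul_zero, sub_zero] at hdet
  rw [Matrix.trace_fin_two]
  rcases Int.isUnit_iff.mp (IsUnit.of_mul_eq_one _ hdet) with h1 | h1
  · rw [h1, one_mul] at hdet
    show ((γ : SL(2, ℤ)) 0 0 + (γ : SL(2, ℤ)) 1 1) ^ 2 ≤ 4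
    rw [h1, hdet]
    norm_num
  · rw [h1] at hdet
    have h2 : (γ : SL(2, ℤ)) 1 1 = -1 := by linarith
    show ((γ : SL(2, ℤ)) 0 0 + (γ : SL(2, ℤ)) 1 1) ^ 2 ≤ 4
    rw [h1, h2]
    norm_num

/-- the period of a group containing `Γ(w)` -/
theorem g1e_T_zpow_mem_of_Gamma_le {w : ℕ} (hΓ : CongruenceSubgroup.Gamma w ≤ Γ) (n : ℤ) :
    ModularGroup.T ^ ((w : ℤ) * n) ∈ Γ := by
  apply hΓ
  rw [Gamma_mem, ModularGroup.coe_T_zpow]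
  simp

end

end Fermat.Agent.DS
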