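/-
DS-T / [G1] generic-Γ layer, leaf [L6] (second half): SURJECTIVITY OF THE CHARACTER MAP IN A
COMPLETE CLASSIFIED CONTEXT.  Prefix `g1e_`.

Twin of `JT3/Gateway/TwistedSurj.lean` (`twd_surj`) for a context `C : g1g_Ctx M Γ K F A`:
if every weakly holomorphic modular function for `Γ` is a quotient of two elements of `A`
(`g1e_WeakComplete C`; true for the `ℂ`-contexts) and the places of `F` are classified
(`g1g_Classified C`), then every unramified character `χ ∈ g1g_X Γ n` is the character of an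
`n`-divisible function: **`g1e_surj`**.  The function is `u vⁿ⁻¹` where `(E_χ/Δ)ⁿ = u / v`.
-/
import Mathlib
import Fermat.Agent.DS.Gam1.Gen.TwistedEis
import Fermat.Agent.DS.Gam1.Gen.Surjective
import Fermat.Agent.DS.Gam1.Gen.CharMap

set_option autoImplicit false

open UpperHalfPlane CongruenceSubgroup Complex
open scoped MatrixGroups Manifold Real

namespace Fermat.Agent.DS

open Fermat.Agent.S24 Fermat.Agent.JT3 AlgebraicCurve

variable {M : ℕ} [NeZero M] {Γ : Subgroup SL(2, ℤ)} {K F A : Type} [Field K] [Algebra K ℂ]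
  [Field F] [Algebra K F] [CommRing A] [IsDomain A] [Algebra K A] [Algebra A F]
  [IsScalarTower K A F] [IsFractionRing A F]

/-- **completeness for weakly holomorphic modular functions**: every weakly holomorphic modular
function for `Γ` is a quotient of two elements of `A` -/
def g1e_WeakComplete (C : g1g_Ctx M Γ K F A) : Prop :=
  ∀ h : ℍ → ℂ, g1g_IsWeakModFun Γ h → ∃ u v : A, v ≠ 0 ∧ h * C.an v = C.an u

variable {C : g1g_Ctx M Γ K F A}

/-- **[L6]: surjectivity**: every unramified character of exponent `n` is the character of an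
`n`-divisible function -/
theorem g1e_surj (hcl : g1g_Classified C) (hcompl : g1e_WeakComplete C) {n : ℕ} (hn : n ≠ 0) :
    ∀ χ ∈ g1g_X Γ n, ∃ f : F, gw_IsDiv K n f ∧ g1g_HasChar C n f χ := by
  rintro χ ⟨hχn, hpe⟩
  have hneg : (-1 : SL(2, ℤ)) ∈ Γ := C.neg_one_mem
  have hM : 0 < M := Nat.pos_of_ne_zero (NeZero.ne M)
  have hT : ∀ k : ℤ, ModularGroup.T ^ ((M : ℤ) * k) ∈ Γ :=
    g1e_T_zpow_mem_of_Gamma_le C.gamma_le
  have htriv := g1e_trivAtInfty_of_parEll hpe
  have hun := g1e_unitary_of_pow_eq_one hn hχn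
  have hh : MDiff (g1e_g Γ χ) := g1e_g_mdifferentiable hun
  have hh0 : g1e_g Γ χ ≠ 0 := g1e_g_ne_zero hneg hM hT htriv hun
  have hweak : g1g_IsWeakModFun Γ (g1e_g Γ χ ^ n) := g1e_g_pow_isWeakModFun htriv hn hχn
  obtain ⟨u, v, hv, huv⟩ := hcompl _ hweak
  obtain ⟨k, rfl⟩ : ∃ k, n = k + 1 := Nat.exists_eq_succ_of_ne_zero hn
  have hvan : C.an v ≠ 0 := C.an_ne_zero hv
  have hvmd : MDiff (C.an v) := C.an_mdiff v
  have hu : u ≠ 0 := by
    rintro rfl
    rw [map_zero] at huv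
    have hpow0 : g1e_g Γ χ ^ (k + 1) ≠ 0 := by
      intro h0
      obtain ⟨z, hz⟩ := gw_exists_ne_zero hh0
      have := congrFun h0 z
      rw [Pi.pow_apply, Pi.zero_apply] at this
      exact hz (pow_eq_zero_iff (Nat.succ_ne_zero k) |>.mp this)
    rcases gw_eq_zero_or_eq_zero (hh.pow (k + 1)) hvmd (fun z => congrFun huv z) with h1 | h1
    · exact hpow0 h1
    · exact hvan h1
  have ha : u * v ^ k ≠ 0 := mul_ne_zero hu (pow_ne_zero _ hv)
  have hpow : ∀ z, (g1e_g Γ χ * C.an v) z ^ (k + 1) = C.an (u * v ^ k) z := by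
    intro z
    have h1 := congrFun huv z
    simp only [Pi.mul_apply, Pi.pow_apply] at h1
    rw [map_mul, map_pow, Pi.mul_apply, Pi.mul_apply, Pi.pow_apply, mul_pow,
      pow_succ (C.an v z), ← mul_assoc, ← h1]
    ring
  have hmul : ∀ (γ : ↥Γ) (z : ℍ),
      (g1e_g Γ χ * C.an v) ((γ : SL(2, ℤ)) • z) = ((χ γ : ℂˣ) : ℂ) * (g1e_g Γ χ * C.an v) z := by
    intro γ z
    have h2 : C.an v ((γ : SL(2, ℤ)) • z) = C.an v z := C.an_inv v (γ : SL(2, ℤ)) γ.2 z
    rw [Pi.mul_apply, Pi.mul_apply, g1e_g_smul htriv γ z, h2, mul_assoc]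
  exact ⟨algebraMap A F (u * v ^ k),
    g1g_hasChar_of_root hcl (Nat.succ_ne_zero k) ha (hh.mul hvmd) hpow hmul hpe⟩

end Fermat.Agent.DS
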