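import Mathlib
import Fermat.Agent.JT3.Gateway.DescentField
import Fermat.Agent.JT3.Gateway.DescentGauss
import Fermat.Agent.DS.Gam1.Gen.Finite

/-!
# DS-T / [G1] generic-Γ layer: descent `ℂ → K₀` of `n`-divisible functions

Twin of `JT3/Gateway/Descent.lean` + `DescentFinal.lean` + the descent part of `Main.lean`, for an
arbitrary subgroup `Γ ≤ SL(2,ℤ)` of finite index, an arbitrary rational model
`F_ℚ ⊆ ℚ((q))` and an arbitrary algebraically closed subfield `K₀ ⊆ ℂ` (`K₀ = Q̄` in the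
application): the two function fields are `laurentBaseChange K₀ F_ℚ` and `laurentBaseChange ℂ F_ℚ`,
and the two contexts `C₀`, `C` are related by a *base change datum* `g1g_BaseChange F_ℚ C₀ C`
(a map `A₀ → A` which is coefficientwise `K₀ → ℂ` on `q`-expansions and compatible with the analytic
realisations).

* `g1g_BaseChange`, `g1g_hasChar_bc`: base change of a character datum (the easy direction);
* `g1g_ctx_rational`: a context over `ℂ` is rational;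
* `g1g_A8`: if the base change of `f₀` has `n`-divisible divisor, so has `f₀` (Gauss extension of
  places, `gd_dvd_descend`);
* **`g1g_descent`**: the character of an `n`-divisible function over `ℂ` is the character of an
  `n`-divisible function over `K₀` (`gd_descent_rel` + `gd_dvd_descend`, both generic in `F_ℚ`);
* `g1g_surj_descend`: surjectivity of the character map over `K₀` from surjectivity over `ℂ`.
-/

set_option autoImplicit false

open UpperHalfPlane CongruenceSubgroup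
open scoped MatrixGroups Manifold

namespace Fermat.Agent.DS

open Fermat.Agent.S24 Fermat.Agent.JT3 AlgebraicCurve ModularCurve

variable {M : ℕ} [NeZero M] {Γ : Subgroup SL(2, ℤ)}
  {K₀ : Type} [Field K₀] [Algebra K₀ ℂ] [Algebra ℚ K₀]
  (F_ℚ : IntermediateField ℚ (LaurentSeries ℚ))
  {A₀ A : Type} [CommRing A₀] [IsDomain A₀] [Algebra K₀ A₀]
  [Algebra A₀ ↥(laurentBaseChange K₀ F_ℚ)] [IsScalarTower K₀ A₀ ↥(laurentBaseChange K₀ F_ℚ)]
  [IsFractionRing A₀ ↥(laurentBaseChange K₀ F_ℚ)]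
  [CommRing A] [IsDomain A] [Algebra ℂ A]
  [Algebra A ↥(laurentBaseChange ℂ F_ℚ)] [IsScalarTower ℂ A ↥(laurentBaseChange ℂ F_ℚ)]
  [IsFractionRing A ↥(laurentBaseChange ℂ F_ℚ)]

/-- a **base change datum** between a context over `K₀` and a context over `ℂ` with the same
rational model `F_ℚ`: a map `A₀ → A` which on `q`-expansions is the coefficientwise map
`K₀ → ℂ`, and which is compatible with the analytic realisations. -/
structure g1g_BaseChange (C₀ : g1g_Ctx M Γ K₀ ↥(laurentBaseChange K₀ F_ℚ) A₀)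
    (C : g1g_Ctx M Γ ℂ ↥(laurentBaseChange ℂ F_ℚ) A) where
  /-- the map on the algebras -/
  bcA : A₀ → A
  /-- on `q`-expansions it is the coefficientwise map -/
  coe : ∀ a : A₀,
    ((algebraMap A ↥(laurentBaseChange ℂ F_ℚ) (bcA a) : ↥(laurentBaseChange ℂ F_ℚ)) :
        LaurentSeries ℂ) =
      coeffMap (algebraMap K₀ ℂ)
        ((algebraMap A₀ ↥(laurentBaseChange K₀ F_ℚ) a : ↥(laurentBaseChange K₀ F_ℚ)) :
          LaurentSeries K₀)
  /-- the analytic realisations agree -/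
  an : ∀ a : A₀, C.an (bcA a) = C₀.an a

variable {F_ℚ} {C₀ : g1g_Ctx M Γ K₀ ↥(laurentBaseChange K₀ F_ℚ) A₀}
  {C : g1g_Ctx M Γ ℂ ↥(laurentBaseChange ℂ F_ℚ) A}

/-- **base change of characters**: the easy direction -/
theorem g1g_hasChar_bc (B : g1g_BaseChange F_ℚ C₀ C) {n : ℕ}
    {f₀ : ↥(laurentBaseChange K₀ F_ℚ)} {g : ↥(laurentBaseChange ℂ F_ℚ)}
    (hg : (g : LaurentSeries ℂ) = coeffMap (algebraMap K₀ ℂ) (f₀ : LaurentSeries K₀))
    {χ : ↥Γ →* ℂˣ} (h : g1g_HasChar C₀ n f₀ χ) : g1g_HasChar C n g χ := by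
  obtain ⟨a, b, h, hb, hab, hh, hh0, hpow, hχ⟩ := h
  refine ⟨B.bcA a, B.bcA b, h, ?_, ?_, hh, hh0, ?_, hχ⟩
  · intro h0
    apply hb
    apply gw_algebraMap_injective (F := ↥(laurentBaseChange K₀ F_ℚ))
    rw [map_zero]
    apply Subtype.ext
    have h1 := B.coe b
    rw [h0, map_zero] at h1
    exact (gd_coeffMap_eq_zero_iff (φ := algebraMap K₀ ℂ) (algebraMap K₀ ℂ).injective _).mp
      h1.symm
  · apply Subtype.ext
    rw [B.coe a, hab]
    show coeffMap (algebraMap K₀ ℂ)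
        ((f₀ : LaurentSeries K₀) *
          ((algebraMap A₀ ↥(laurentBaseChange K₀ F_ℚ) b : ↥(laurentBaseChange K₀ F_ℚ)) :
            LaurentSeries K₀) ^ n) =
      (g : LaurentSeries ℂ) *
        ((algebraMap A ↥(laurentBaseChange ℂ F_ℚ) (B.bcA b) : ↥(laurentBaseChange ℂ F_ℚ)) :
          LaurentSeries ℂ) ^ n
    rw [map_mul, map_pow, hg, B.coe b]
  · intro z
    rw [B.an a]
    exact hpow z

/-- rationality is automatic over `ℂ` -/
theorem g1g_ctx_rational (C : g1g_Ctx M Γ ℂ ↥(laurentBaseChange ℂ F_ℚ) A) : g1g_Rational C :=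
  fun _ _ d _ _ => ⟨d, rfl⟩

/-- **(A8)**: if the base change of `f₀` to `ℂ` has `n`-divisible divisor, so has `f₀` -/
theorem g1g_A8
    (hres : ∀ P : Place K₀ ↥(laurentBaseChange K₀ F_ℚ),
      Function.Surjective (algebraMap K₀ P.ResidueField))
    {n : ℕ} {f₀ : ↥(laurentBaseChange K₀ F_ℚ)} {g : ↥(laurentBaseChange ℂ F_ℚ)}
    (hg : (g : LaurentSeries ℂ) = coeffMap (algebraMap K₀ ℂ) (f₀ : LaurentSeries K₀))
    (h : gw_IsDiv ℂ n g) : gw_IsDiv K₀ n f₀ := by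
  have hf₀ : f₀ ≠ 0 := by
    rintro rfl
    apply h.1
    apply Subtype.ext
    rw [hg]
    exact map_zero _
  exact ⟨hf₀, fun P => gd_dvd_descend (K₀ := K₀) (K := ℂ) F_ℚ hres hf₀ g hg h.2 P⟩

variable [Γ.FiniteIndex] [IsAlgClosed K₀] [CharZero K₀]

/-- **descent `ℂ → K₀`**: the character of an `n`-divisible function over `ℂ` is the character of an
`n`-divisible function over `K₀`. -/
theorem g1g_descent (B : g1g_BaseChange F_ℚ C₀ C) {n : ℕ} (hn : n ≠ 0)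
    {x : ↥(laurentBaseChange ℂ F_ℚ)} (hx : rt_IsSepGen ℂ x)
    (hnt : ∃ f : ↥(laurentBaseChange ℂ F_ℚ), f ≠ 0 ∧ gd_ordVal F_ℚ f ≠ 0)
    (hres : ∀ P : Place K₀ ↥(laurentBaseChange K₀ F_ℚ),
      Function.Surjective (algebraMap K₀ P.ResidueField))
    (hC : g1g_Complete C) (χ : ↥Γ →* ℂˣ)
    (h : ∃ f : ↥(laurentBaseChange ℂ F_ℚ), gw_IsDiv ℂ n f ∧ g1g_HasChar C n f χ) :
    ∃ f₀ : ↥(laurentBaseChange K₀ F_ℚ), gw_IsDiv K₀ n f₀ ∧ g1g_HasChar C₀ n f₀ χ := by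
  obtain ⟨f, hf, hfχ⟩ := h
  obtain ⟨T, hT, hfin⟩ := g1g_fin hC (g1g_ctx_rational C) hn
  have hfin' : ∀ f : ↥(laurentBaseChange ℂ F_ℚ), f ≠ 0 →
      (∀ P : Place ℂ ↥(laurentBaseChange ℂ F_ℚ), (n : ℤ) ∣ P.ord f) →
      ∃ t ∈ T, gd_Rel ℂ n t f := by
    intro f hf0 hfd
    obtain ⟨t, ht, c, u, hc, hu, hfe⟩ := hfin f ⟨hf0, hfd⟩
    exact ⟨t, ht, c, u, hc, hu, hfe⟩
  obtain ⟨f₀, g, hg, hrel⟩ := gd_descent_rel (K₀ := K₀) (K := ℂ) F_ℚ hx hnt hn T
    (fun t ht => hT t ht) hfin' hf.1 hf.2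
  have hg0 : g ≠ 0 := hrel.ne_zero hf.1
  have hgdiv : ∀ P : Place ℂ ↥(laurentBaseChange ℂ F_ℚ), (n : ℤ) ∣ P.ord g :=
    hrel.dvd hf.1 hf.2
  -- the character of `g`
  have hgχ : g1g_HasChar C n g χ := by
    obtain ⟨c, u, hc, hu, rfl⟩ := hrel
    have h1 := g1g_hasChar_mul (g1g_hasChar_mul (g1g_hasChar_const C hn hc)
      (g1g_hasChar_pow_n C n hu)) hfχ
    have e : (1 : ↥Γ →* ℂˣ) * 1 * χ = χ := by
      ext γ
      simp
    rw [e] at h1
    exact h1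
  -- divisibility over `K₀`
  have hdiv₀ : gw_IsDiv K₀ n f₀ := g1g_A8 hres hg ⟨hg0, hgdiv⟩
  refine ⟨f₀, hdiv₀, ?_⟩
  obtain ⟨χ₀, hχ₀⟩ := g1g_hasChar_exists (C := C₀) hn hdiv₀
  have h2 := g1g_hasChar_bc B hg hχ₀
  have : χ₀ = χ := g1g_hasChar_unique hn h2 hgχ
  rwa [this] at hχ₀

/-- surjectivity over `K₀` from surjectivity over `ℂ` -/
theorem g1g_surj_descend (B : g1g_BaseChange F_ℚ C₀ C) {n : ℕ} (hn : n ≠ 0)
    {x : ↥(laurentBaseChange ℂ F_ℚ)} (hx : rt_IsSepGen ℂ x)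
    (hnt : ∃ f : ↥(laurentBaseChange ℂ F_ℚ), f ≠ 0 ∧ gd_ordVal F_ℚ f ≠ 0)
    (hres : ∀ P : Place K₀ ↥(laurentBaseChange K₀ F_ℚ),
      Function.Surjective (algebraMap K₀ P.ResidueField))
    (hC : g1g_Complete C) (X : Set (↥Γ →* ℂˣ))
    (hsurjℂ : ∀ χ ∈ X, ∃ f : ↥(laurentBaseChange ℂ F_ℚ), gw_IsDiv ℂ n f ∧ g1g_HasChar C n f χ) :
    ∀ χ ∈ X, ∃ f₀ : ↥(laurentBaseChange K₀ F_ℚ), gw_IsDiv K₀ n f₀ ∧ g1g_HasChar C₀ n f₀ χ :=
  fun χ hχ => g1g_descent B hn hx hnt hres hC χ (hsurjℂ χ hχ)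

end Fermat.Agent.DS
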