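/-
DS-T / cell [G1], leaf [G1-c] part (a): THE DICTIONARY `±Γ₁(M) ↔ Γ₁(M)` for characters.

For a subgroup `Γ` with `Γ₁(M) ≤ Γ ≤ ±Γ₁(M)` (`M ≥ 3`):

* `g1c_proj hM : ↥(g1f_Gpm M) →* ↥(Gamma1 M)`, `γ ↦ ±γ` (the sign making the diagonal `≡ 1`); it
  is a retraction of the inclusion and `proj γ` acts on `ℍ` as `γ` (`g1c_proj_smul`);
* `g1c_res h1 : (↥Γ →* A) →* (↥(Gamma1 M) →* A)` (restriction) and
  `g1c_ext hM h2 : (↥(Gamma1 M) →* A) →* (↥Γ →* A)` (extension through `g1c_proj`);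
  `g1c_res_ext`, `g1c_ext_res` (for characters trivial on `-1`);
* `g1c_X1 M n`: the characters `χ` of `Γ₁(M)` with `χⁿ = 1`, trivial on the elements of trace `2`
  (the multiplicative form of `ds_ParTriv`);
* **`g1c_resEquiv (hM : 5 ≤ M) h1 h2 n : g1g_X Γ n ≃* g1c_X1 M n`**;
* the additive form: `g1c_zeta n : Multiplicative (ZMod n) →* ℂˣ` (`1 ↦ e^{2πi/n}`), and
  **`g1c_addEquiv n : {c : Additive (Gamma1 M) →+ ZMod n // ds_ParTriv c} ≃ g1c_X1 M n`**,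
  `c ↦ ζ^c`, additive (`g1c_ofAdd_add`) and compatible with all operators `g1t_TS`, `g1t_conjOp`.
Prefix `g1c_`.
-/
import Mathlib
import Fermat.Agent.DS.Gam1.Gen.CharMap
import Fermat.Agent.DS.Gam1.Defs
import Fermat.Agent.DS.Gam1.GroupFacts
import Fermat.Agent.DS.HeckeG1.Coset
import Fermat.Agent.DS.Seams

set_option autoImplicit false
set_option linter.unusedSectionVars false

noncomputable section

open UpperHalfPlane CongruenceSubgroup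
open scoped MatrixGroups

namespace Fermat.Agent.DS

variable {M : ℕ}

/-! ### `±Γ₁(M) = Γ₁(M) × {±1}` -/

theorem g1c_one_ne_neg_one (hM : 3 ≤ M) : (1 : ZMod M) ≠ -1 := by
  intro h
  have h2 : ((2 : ℕ) : ZMod M) = 0 := by
    have : (1 : ZMod M) + 1 = 0 := by
      nth_rewrite 1 [h]
      exact neg_add_cancel 1
    push_cast
    rw [← this]
    norm_num
  have := (ZMod.natCast_eq_zero_iff 2 M).1 h2
  have := Nat.le_of_dvd (by norm_num) this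
  omega

theorem g1c_mem_Gamma1_of_one {γ : SL(2, ℤ)} (hγ : γ ∈ g1f_Gpm M)
    (h : ((γ 1 1 : ℤ) : ZMod M) = 1) : γ ∈ Gamma1 M := by
  rw [Gamma1_mem]
  exact ⟨by rw [g1f_Gpm_apply_zero_zero hγ, h], h, hγ.1⟩

theorem g1c_neg_mem_Gamma1_of_neg_one {γ : SL(2, ℤ)} (hγ : γ ∈ g1f_Gpm M)
    (h : ((γ 1 1 : ℤ) : ZMod M) = -1) : -γ ∈ Gamma1 M := by
  have h00 := g1f_Gpm_apply_zero_zero hγ
  rw [Gamma1_mem]
  refine ⟨?_, ?_, ?_⟩
  · rw [Matrix.SpecialLinearGroup.coe_neg, Matrix.neg_apply]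
    push_cast
    rw [h00, h, neg_neg]
  · rw [Matrix.SpecialLinearGroup.coe_neg, Matrix.neg_apply]
    push_cast
    rw [h, neg_neg]
  · rw [Matrix.SpecialLinearGroup.coe_neg, Matrix.neg_apply]
    push_cast
    rw [hγ.1, neg_zero]

open Classical in
/-- the representative in `Γ₁(M)` of an element of `±Γ₁(M)`, as a function -/
def g1c_projFun (γ : ↥(g1f_Gpm M)) : ↥(Gamma1 M) :=
  if h : (((γ : SL(2, ℤ)) 1 1 : ℤ) : ZMod M) = 1 then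
    ⟨(γ : SL(2, ℤ)), g1c_mem_Gamma1_of_one γ.2 h⟩
  else ⟨-(γ : SL(2, ℤ)), g1c_neg_mem_Gamma1_of_neg_one γ.2 (γ.2.2.resolve_left h)⟩

theorem g1c_projFun_of_one (γ : ↥(g1f_Gpm M)) (h : (((γ : SL(2, ℤ)) 1 1 : ℤ) : ZMod M) = 1) :
    ((g1c_projFun γ : ↥(Gamma1 M)) : SL(2, ℤ)) = γ := by
  rw [g1c_projFun, dif_pos h]

theorem g1c_projFun_of_ne (γ : ↥(g1f_Gpm M)) (h : ¬ (((γ : SL(2, ℤ)) 1 1 : ℤ) : ZMod M) = 1) :
    ((g1c_projFun γ : ↥(Gamma1 M)) : SL(2, ℤ)) = -γ := by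
  rw [g1c_projFun, dif_neg h]

theorem g1c_projFun_eq_or (γ : ↥(g1f_Gpm M)) :
    ((g1c_projFun γ : ↥(Gamma1 M)) : SL(2, ℤ)) = γ ∨
      ((g1c_projFun γ : ↥(Gamma1 M)) : SL(2, ℤ)) = -γ := by
  by_cases h : (((γ : SL(2, ℤ)) 1 1 : ℤ) : ZMod M) = 1
  · exact Or.inl (g1c_projFun_of_one γ h)
  · exact Or.inr (g1c_projFun_of_ne γ h)

theorem g1c_mul_apply_one_one (γ δ : SL(2, ℤ)) (hγ : ((γ 1 0 : ℤ) : ZMod M) = 0) :
    (((γ * δ) 1 1 : ℤ) : ZMod M) = ((γ 1 1 : ℤ) : ZMod M) * ((δ 1 1 : ℤ) : ZMod M) := by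
  have h11 : ((γ * δ) 1 1 : ℤ) = γ 1 0 * δ 0 1 + γ 1 1 * δ 1 1 := by
    simp [Matrix.SpecialLinearGroup.coe_mul, Matrix.mul_apply, Fin.sum_univ_two]
  rw [h11]
  push_cast
  rw [hγ, zero_mul, zero_add]

/-- **the projection `±Γ₁(M) → Γ₁(M)`**, `γ ↦ ±γ` (`M ≥ 3`) -/
def g1c_proj (hM : 3 ≤ M) : ↥(g1f_Gpm M) →* ↥(Gamma1 M) where
  toFun := g1c_projFun
  map_one' := by
    apply Subtype.ext
    rw [g1c_projFun_of_one _ (by simp)]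
    rfl
  map_mul' γ δ := by
    apply Subtype.ext
    have hne := g1c_one_ne_neg_one hM
    have hmul := g1c_mul_apply_one_one (M := M) (γ : SL(2, ℤ)) (δ : SL(2, ℤ)) γ.2.1
    rw [Subgroup.coe_mul]
    by_cases hγ : (((γ : SL(2, ℤ)) 1 1 : ℤ) : ZMod M) = 1
    · by_cases hδ : (((δ : SL(2, ℤ)) 1 1 : ℤ) : ZMod M) = 1
      · have h : ((((γ * δ : ↥(g1f_Gpm M)) : SL(2, ℤ)) 1 1 : ℤ) : ZMod M) = 1 := by
          rw [Subgroup.coe_mul, hmul, hγ, hδ, mul_one]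
        rw [g1c_projFun_of_one _ h, g1c_projFun_of_one _ hγ, g1c_projFun_of_one _ hδ,
          Subgroup.coe_mul]
      · have hδ' := δ.2.2.resolve_left hδ
        have h : ¬ ((((γ * δ : ↥(g1f_Gpm M)) : SL(2, ℤ)) 1 1 : ℤ) : ZMod M) = 1 := by
          rw [Subgroup.coe_mul, hmul, hγ, hδ', one_mul]
          exact fun h => hne h.symm
        rw [g1c_projFun_of_ne _ h, g1c_projFun_of_one _ hγ, g1c_projFun_of_ne _ hδ,
          Subgroup.coe_mul, mul_neg]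
    · have hγ' := γ.2.2.resolve_left hγ
      by_cases hδ : (((δ : SL(2, ℤ)) 1 1 : ℤ) : ZMod M) = 1
      · have h : ¬ ((((γ * δ : ↥(g1f_Gpm M)) : SL(2, ℤ)) 1 1 : ℤ) : ZMod M) = 1 := by
          rw [Subgroup.coe_mul, hmul, hγ', hδ, mul_one]
          exact fun h => hne h.symm
        rw [g1c_projFun_of_ne _ h, g1c_projFun_of_ne _ hγ, g1c_projFun_of_one _ hδ,
          Subgroup.coe_mul, neg_mul]
      · have hδ' := δ.2.2.resolve_left hδ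
        have h : ((((γ * δ : ↥(g1f_Gpm M)) : SL(2, ℤ)) 1 1 : ℤ) : ZMod M) = 1 := by
          rw [Subgroup.coe_mul, hmul, hγ', hδ', neg_mul_neg, mul_one]
        rw [g1c_projFun_of_one _ h, g1c_projFun_of_ne _ hγ, g1c_projFun_of_ne _ hδ,
          Subgroup.coe_mul, neg_mul_neg]

theorem g1c_proj_eq_or (hM : 3 ≤ M) (γ : ↥(g1f_Gpm M)) :
    ((g1c_proj hM γ : ↥(Gamma1 M)) : SL(2, ℤ)) = γ ∨
      ((g1c_proj hM γ : ↥(Gamma1 M)) : SL(2, ℤ)) = -γ := g1c_projFun_eq_or γ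

/-- `proj γ` acts on `ℍ` as `γ` -/
theorem g1c_proj_smul (hM : 3 ≤ M) (γ : ↥(g1f_Gpm M)) (z : ℍ) :
    ((g1c_proj hM γ : ↥(Gamma1 M)) : SL(2, ℤ)) • z = (γ : SL(2, ℤ)) • z := by
  rcases g1c_proj_eq_or hM γ with h | h
  · rw [h]
  · rw [h, ModularGroup.SL_neg_smul]

/-- the projection is a retraction of the inclusion -/
theorem g1c_proj_incl (hM : 3 ≤ M) (γ : ↥(Gamma1 M)) :
    g1c_proj hM (Subgroup.inclusion (g1f_Gamma1_le_Gpm M) γ) = γ := by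
  apply Subtype.ext
  have h : ((((Subgroup.inclusion (g1f_Gamma1_le_Gpm M) γ : ↥(g1f_Gpm M)) : SL(2, ℤ)) 1 1 : ℤ) :
      ZMod M) = 1 := ((Gamma1_mem M _).1 γ.2).2.1
  exact g1c_projFun_of_one _ h

theorem g1c_proj_trace_sq (hM : 3 ≤ M) (γ : ↥(g1f_Gpm M)) :
    (((g1c_proj hM γ : ↥(Gamma1 M)) : SL(2, ℤ)) : Matrix (Fin 2) (Fin 2) ℤ).trace ^ 2 =
      ((γ : SL(2, ℤ)) : Matrix (Fin 2) (Fin 2) ℤ).trace ^ 2 := by
  rcases g1c_proj_eq_or hM γ with h | h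
  · rw [h]
  · rw [h, Matrix.SpecialLinearGroup.coe_neg, Matrix.trace_neg, neg_sq]

/-- an element of `Γ₁(M)`, `M ≥ 5`, with `tr² ≤ 4` has trace `2` -/
theorem g1c_trace_eq_two (hM : 5 ≤ M) (γ : ↥(Gamma1 M))
    (h : ((γ : SL(2, ℤ)) : Matrix (Fin 2) (Fin 2) ℤ).trace ^ 2 ≤ 4) :
    ((γ : SL(2, ℤ)) : Matrix (Fin 2) (Fin 2) ℤ).trace = 2 := by
  rw [Matrix.trace_fin_two] at h ⊢
  rcases g1q_trace_eq_of_sq_le (by omega : 4 ≤ M) (g1f_Gamma1_le_Gpm M γ.2) h with h2 | h2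
  · exact h2
  · exfalso
    obtain ⟨h00, h11, -⟩ := (Gamma1_mem M _).1 γ.2
    have h3 : (((γ : SL(2, ℤ)) 0 0 + (γ : SL(2, ℤ)) 1 1 : ℤ) : ZMod M) = 2 := by
      push_cast
      rw [h00, h11]
      norm_num
    rw [h2] at h3
    have h4 : ((4 : ℕ) : ZMod M) = 0 := by
      have : (2 : ZMod M) - ((-2 : ℤ) : ZMod M) = 0 := by rw [h3, sub_self]
      push_cast at this ⊢
      rw [← this]
      ring
    have := Nat.le_of_dvd (by norm_num) ((ZMod.natCast_eq_zero_iff 4 M).1 h4)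
    omega

/-! ### Restriction and extension of characters -/

section res

variable {Γ : Subgroup SL(2, ℤ)} {A : Type*} [CommMonoid A]

/-- restriction of characters along `Γ₁(M) ≤ Γ` -/
def g1c_res (h1 : Gamma1 M ≤ Γ) : (↥Γ →* A) →* (↥(Gamma1 M) →* A) where
  toFun χ := χ.comp (Subgroup.inclusion h1)
  map_one' := rfl
  map_mul' _ _ := rfl

theorem g1c_res_apply (h1 : Gamma1 M ≤ Γ) (χ : ↥Γ →* A) (γ : ↥(Gamma1 M)) :
    g1c_res h1 χ γ = χ (Subgroup.inclusion h1 γ) := rfl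

/-- extension of characters of `Γ₁(M)` to `Γ ≤ ±Γ₁(M)` through the projection -/
def g1c_ext (hM : 3 ≤ M) (h2 : Γ ≤ g1f_Gpm M) : (↥(Gamma1 M) →* A) →* (↥Γ →* A) where
  toFun ψ := ψ.comp ((g1c_proj hM).comp (Subgroup.inclusion h2))
  map_one' := rfl
  map_mul' _ _ := rfl

theorem g1c_ext_apply (hM : 3 ≤ M) (h2 : Γ ≤ g1f_Gpm M) (ψ : ↥(Gamma1 M) →* A) (γ : ↥Γ) :
    g1c_ext hM h2 ψ γ = ψ (g1c_proj hM (Subgroup.inclusion h2 γ)) := rfl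

theorem g1c_res_ext (hM : 3 ≤ M) (h1 : Gamma1 M ≤ Γ) (h2 : Γ ≤ g1f_Gpm M)
    (ψ : ↥(Gamma1 M) →* A) : g1c_res h1 (g1c_ext hM h2 ψ) = ψ := by
  ext γ
  rw [g1c_res_apply, g1c_ext_apply]
  exact congrArg ψ (g1c_proj_incl hM γ)

/-- a character of `Γ` which is trivial on `-1` (if `-1 ∈ Γ`) is the extension of its
restriction -/
theorem g1c_ext_res (hM : 3 ≤ M) (h1 : Gamma1 M ≤ Γ) (h2 : Γ ≤ g1f_Gpm M) (χ : ↥Γ →* A)
    (hχ : ∀ γ : ↥Γ, (γ : SL(2, ℤ)) = -1 → χ γ = 1) : g1c_ext hM h2 (g1c_res h1 χ) = χ := by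
  ext γ
  rw [g1c_ext_apply, g1c_res_apply]
  rcases g1c_proj_eq_or hM (Subgroup.inclusion h2 γ) with h | h
  · exact congrArg χ (Subtype.ext h)
  · -- `proj γ = -γ`, so `-1 = (-γ) γ⁻¹ ∈ Γ`
    set δ : ↥Γ := Subgroup.inclusion h1 (g1c_proj hM (Subgroup.inclusion h2 γ)) with hδ
    have hδc : (δ : SL(2, ℤ)) = -(γ : SL(2, ℤ)) := h
    have h3 : χ (δ * γ⁻¹) = 1 := by
      apply hχ
      rw [Subgroup.coe_mul, hδc, Subgroup.coe_inv, neg_mul, mul_inv_cancel]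
    have h4 : δ = (δ * γ⁻¹) * γ := by group
    rw [h4, map_mul, h3, one_mul]

end res

/-! ### The characters of `Γ₁(M)` trivial on the elements of trace `2` -/

/-- the characters of `Γ₁(M)` of exponent `n` which are trivial on the elements of trace `2` -/
def g1c_X1 (M n : ℕ) : Subgroup (↥(Gamma1 M) →* ℂˣ) where
  carrier := {χ | χ ^ n = 1 ∧
    ∀ γ : ↥(Gamma1 M), ((γ : SL(2, ℤ)) : Matrix (Fin 2) (Fin 2) ℤ).trace = 2 → χ γ = 1}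
  one_mem' := ⟨one_pow n, fun _ _ => rfl⟩
  mul_mem' := by
    rintro χ χ' ⟨h1, h2⟩ ⟨h1', h2'⟩
    refine ⟨by rw [mul_pow, h1, h1']; exact MonoidHom.ext fun _ => one_mul 1, fun γ hγ => ?_⟩
    rw [MonoidHom.mul_apply, h2 γ hγ, h2' γ hγ]
    exact one_mul 1
  inv_mem' := by
    rintro χ ⟨h1, h2⟩
    refine ⟨by rw [inv_pow, h1]; exact MonoidHom.ext fun _ => inv_one, fun γ hγ => ?_⟩
    rw [MonoidHom.inv_apply, h2 γ hγ]
    exact inv_one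

theorem g1c_mem_X1 {n : ℕ} {χ : ↥(Gamma1 M) →* ℂˣ} :
    χ ∈ g1c_X1 M n ↔ χ ^ n = 1 ∧
      ∀ γ : ↥(Gamma1 M), ((γ : SL(2, ℤ)) : Matrix (Fin 2) (Fin 2) ℤ).trace = 2 → χ γ = 1 :=
  Iff.rfl

variable {Γ : Subgroup SL(2, ℤ)}

theorem g1c_res_mem_X1 (h1 : Gamma1 M ≤ Γ) {n : ℕ} {χ : ↥Γ →* ℂˣ} (hχ : χ ∈ g1g_X Γ n) :
    g1c_res h1 χ ∈ g1c_X1 M n := by
  obtain ⟨hn, hpar⟩ := hχ
  refine ⟨?_, fun γ hγ => ?_⟩
  · have h := map_pow (g1c_res (A := ℂˣ) h1) χ n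
    rw [← h, hn, map_one]
  · rw [g1c_res_apply]
    apply hpar
    show ((γ : SL(2, ℤ)) : Matrix (Fin 2) (Fin 2) ℤ).trace ^ 2 ≤ 4
    rw [hγ]
    norm_num

theorem g1c_ext_mem_X (hM : 5 ≤ M) (h2 : Γ ≤ g1f_Gpm M) {n : ℕ} {ψ : ↥(Gamma1 M) →* ℂˣ}
    (hψ : ψ ∈ g1c_X1 M n) : g1c_ext (by omega) h2 ψ ∈ g1g_X Γ n := by
  obtain ⟨hn, hpar⟩ := hψ
  refine ⟨?_, fun γ hγ => ?_⟩
  · have h := map_pow (g1c_ext (A := ℂˣ) (Γ := Γ) (by omega : 3 ≤ M) h2) ψ n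
    rw [← h, hn, map_one]
  · rw [g1c_ext_apply]
    apply hpar
    apply g1c_trace_eq_two hM
    rw [g1c_proj_trace_sq]
    exact hγ

/-- the characters in `g1g_X Γ n` are trivial on `-1` -/
theorem g1c_X_neg_one {n : ℕ} {χ : ↥Γ →* ℂˣ} (hχ : χ ∈ g1g_X Γ n) (γ : ↥Γ)
    (hγ : (γ : SL(2, ℤ)) = -1) : χ γ = 1 := by
  apply hχ.2
  rw [hγ]
  simp

/-- **the dictionary**: `g1g_X Γ n ≃ g1c_X1 M n` for `Γ₁(M) ≤ Γ ≤ ±Γ₁(M)`, `M ≥ 5` -/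
def g1c_resEquiv (hM : 5 ≤ M) (h1 : Gamma1 M ≤ Γ) (h2 : Γ ≤ g1f_Gpm M) (n : ℕ) :
    g1g_X Γ n ≃* g1c_X1 M n where
  toFun χ := ⟨g1c_res h1 (χ : ↥Γ →* ℂˣ), g1c_res_mem_X1 h1 χ.2⟩
  invFun ψ := ⟨g1c_ext (by omega) h2 (ψ : ↥(Gamma1 M) →* ℂˣ), g1c_ext_mem_X hM h2 ψ.2⟩
  left_inv χ := Subtype.ext (g1c_ext_res (by omega) h1 h2 _ (g1c_X_neg_one χ.2))
  right_inv ψ := Subtype.ext (g1c_res_ext (by omega) h1 h2 _)
  map_mul' _ _ := rfl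

theorem g1c_resEquiv_coe (hM : 5 ≤ M) (h1 : Gamma1 M ≤ Γ) (h2 : Γ ≤ g1f_Gpm M) (n : ℕ)
    (χ : g1g_X Γ n) :
    ((g1c_resEquiv hM h1 h2 n χ : g1c_X1 M n) : ↥(Gamma1 M) →* ℂˣ) =
      g1c_res h1 (χ : ↥Γ →* ℂˣ) := rfl

theorem g1c_resEquiv_symm_coe (hM : 5 ≤ M) (h1 : Gamma1 M ≤ Γ) (h2 : Γ ≤ g1f_Gpm M) (n : ℕ)
    (ψ : g1c_X1 M n) :
    (((g1c_resEquiv hM h1 h2 n).symm ψ : g1g_X Γ n) : ↥Γ →* ℂˣ) =
      g1c_ext (by omega) h2 (ψ : ↥(Gamma1 M) →* ℂˣ) := rfl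


/-! ### The additive form: classes with values in `ZMod n` -/

section additive

variable (n : ℕ) [NeZero n]

/-- `ZMod n → μ_n(S¹)` as a monoid homomorphism -/
def g1c_zetaHom : Multiplicative (ZMod n) →* rootsOfUnity n Circle :=
  (ZMod.rootsOfUnityAddChar n).toMonoidHom

theorem g1c_zetaHom_bijective : Function.Bijective (g1c_zetaHom n) :=
  bijective_rootsOfUnityAddChar n

/-- `ZMod n ≃ μ_n(ℂ)`, `1 ↦ e^{2πi/n}` -/
def g1c_zetaEquiv : Multiplicative (ZMod n) ≃* rootsOfUnity n ℂ :=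
  (MulEquiv.ofBijective (g1c_zetaHom n) (g1c_zetaHom_bijective n)).trans
    (rootsOfUnityCircleEquiv n)

/-- `ZMod n → ℂˣ`, `a ↦ e^{2πia/n}` -/
def g1c_zeta : Multiplicative (ZMod n) →* ℂˣ :=
  (rootsOfUnity n ℂ).subtype.comp (g1c_zetaEquiv n).toMonoidHom

theorem g1c_zeta_apply (a : Multiplicative (ZMod n)) :
    g1c_zeta n a = ((g1c_zetaEquiv n a : rootsOfUnity n ℂ) : ℂˣ) := rfl

theorem g1c_zeta_injective : Function.Injective (g1c_zeta n) :=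
  Subtype.coe_injective.comp (g1c_zetaEquiv n).injective

theorem g1c_zeta_pow (a : Multiplicative (ZMod n)) : g1c_zeta n a ^ n = 1 :=
  (mem_rootsOfUnity _ _).1 (g1c_zetaEquiv n a).2

theorem g1c_exists_zeta {x : ℂˣ} (hx : x ^ n = 1) : ∃ a, g1c_zeta n a = x :=
  ⟨(g1c_zetaEquiv n).symm ⟨x, (mem_rootsOfUnity _ _).2 hx⟩, by
    rw [g1c_zeta_apply, MulEquiv.apply_symm_apply]⟩

variable {n}

/-- the character `ζ^c` of a class `c : Γ₁(M) → ZMod n` -/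
def g1c_ofAdd (c : Additive ↥(Gamma1 M) →+ ZMod n) : ↥(Gamma1 M) →* ℂˣ :=
  (g1c_zeta n).comp (AddMonoidHom.toMultiplicativeRight c)

theorem g1c_ofAdd_apply (c : Additive ↥(Gamma1 M) →+ ZMod n) (γ : ↥(Gamma1 M)) :
    g1c_ofAdd c γ = g1c_zeta n (Multiplicative.ofAdd (c (Additive.ofMul γ))) := rfl

theorem g1c_ofAdd_injective :
    Function.Injective (g1c_ofAdd : (Additive ↥(Gamma1 M) →+ ZMod n) → _) := by
  intro c c' h
  refine AddMonoidHom.ext fun γ => ?_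
  obtain ⟨γ, rfl⟩ := Additive.ofMul.surjective γ
  have h1 := DFunLike.congr_fun h γ
  rw [g1c_ofAdd_apply, g1c_ofAdd_apply] at h1
  exact Multiplicative.ofAdd.injective (g1c_zeta_injective n h1)

theorem g1c_ofAdd_add (c c' : Additive ↥(Gamma1 M) →+ ZMod n) :
    g1c_ofAdd (c + c') = g1c_ofAdd c * g1c_ofAdd c' := by
  ext γ
  rw [MonoidHom.mul_apply, g1c_ofAdd_apply, g1c_ofAdd_apply, g1c_ofAdd_apply,
    AddMonoidHom.add_apply, ofAdd_add, map_mul]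

theorem g1c_ofAdd_zero : g1c_ofAdd (0 : Additive ↥(Gamma1 M) →+ ZMod n) = 1 := by
  ext γ
  rw [g1c_ofAdd_apply, AddMonoidHom.zero_apply, ofAdd_zero, map_one]
  rfl

theorem g1c_ofAdd_pow (c : Additive ↥(Gamma1 M) →+ ZMod n) : g1c_ofAdd c ^ n = 1 := by
  ext γ
  rw [MonoidHom.pow_apply, g1c_ofAdd_apply, g1c_zeta_pow]
  rfl

theorem g1c_ofAdd_eq_one_iff (c : Additive ↥(Gamma1 M) →+ ZMod n) (γ : ↥(Gamma1 M)) :
    g1c_ofAdd c γ = 1 ↔ c (Additive.ofMul γ) = 0 := by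
  rw [g1c_ofAdd_apply, ← map_one (g1c_zeta n), (g1c_zeta_injective n).eq_iff]
  exact Iff.rfl

theorem g1c_ofAdd_mem_X1 {c : Additive ↥(Gamma1 M) →+ ZMod n} :
    g1c_ofAdd c ∈ g1c_X1 M n ↔ ds_ParTriv c := by
  rw [g1c_mem_X1]
  constructor
  · rintro ⟨-, h⟩ γ hγ
    exact (g1c_ofAdd_eq_one_iff c γ).1 (h γ hγ)
  · intro h
    exact ⟨g1c_ofAdd_pow c, fun γ hγ => (g1c_ofAdd_eq_one_iff c γ).2 (h γ hγ)⟩

/-- every character of exponent `n` is `ζ^c` -/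
theorem g1c_exists_ofAdd {χ : ↥(Gamma1 M) →* ℂˣ} (hχ : χ ^ n = 1) :
    ∃ c : Additive ↥(Gamma1 M) →+ ZMod n, g1c_ofAdd c = χ := by
  have hχ' : ∀ γ, χ γ ∈ rootsOfUnity n ℂ := fun γ => by
    rw [mem_rootsOfUnity]
    have := DFunLike.congr_fun hχ γ
    rwa [MonoidHom.pow_apply] at this
  let χ' : ↥(Gamma1 M) →* rootsOfUnity n ℂ := χ.codRestrict (rootsOfUnity n ℂ) hχ'
  let ψ : ↥(Gamma1 M) →* Multiplicative (ZMod n) := (g1c_zetaEquiv n).symm.toMonoidHom.comp χ'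
  refine ⟨AddMonoidHom.toMultiplicativeRight.symm ψ, ?_⟩
  rw [g1c_ofAdd, Equiv.apply_symm_apply]
  refine MonoidHom.ext fun γ => ?_
  show ((g1c_zetaEquiv n ((g1c_zetaEquiv n).symm (χ' γ)) : rootsOfUnity n ℂ) : ℂˣ) = _
  rw [MulEquiv.apply_symm_apply]
  rfl

variable (M) in
/-- the parabolic-trivial classes with values in `B`, as a subgroup -/
def g1c_ParTriv (B : Type*) [AddCommGroup B] : AddSubgroup (Additive ↥(Gamma1 M) →+ B) where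
  carrier := {c | ds_ParTriv c}
  zero_mem' := fun _ _ => rfl
  add_mem' := by
    intro c c' hc hc' γ hγ
    rw [AddMonoidHom.add_apply, hc γ hγ, hc' γ hγ, add_zero]
  neg_mem' := by
    intro c hc γ hγ
    rw [AddMonoidHom.neg_apply, hc γ hγ, neg_zero]

theorem g1c_mem_ParTriv {B : Type*} [AddCommGroup B] {c : Additive ↥(Gamma1 M) →+ B} :
    c ∈ g1c_ParTriv M B ↔ ds_ParTriv c := Iff.rfl

variable (M n) in
/-- the map `c ↦ ζ^c` on the parabolic-trivial classes -/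
def g1c_addHom : ↥(g1c_ParTriv M (ZMod n)) →+ Additive ↥(g1c_X1 M n) where
  toFun c := Additive.ofMul ⟨g1c_ofAdd (c : Additive ↥(Gamma1 M) →+ ZMod n),
    g1c_ofAdd_mem_X1.2 c.2⟩
  map_zero' := by
    apply Additive.toMul.injective
    apply Subtype.ext
    exact g1c_ofAdd_zero
  map_add' c c' := by
    apply Additive.toMul.injective
    apply Subtype.ext
    exact g1c_ofAdd_add _ _

theorem g1c_addHom_coe (c : ↥(g1c_ParTriv M (ZMod n))) :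
    ((Additive.toMul (g1c_addHom M n c) : ↥(g1c_X1 M n)) : ↥(Gamma1 M) →* ℂˣ) =
      g1c_ofAdd (c : Additive ↥(Gamma1 M) →+ ZMod n) := rfl

theorem g1c_addHom_bijective : Function.Bijective (g1c_addHom M n) := by
  constructor
  · intro c c' h
    apply Subtype.ext
    apply g1c_ofAdd_injective
    rw [← g1c_addHom_coe, ← g1c_addHom_coe, h]
  · intro χ
    obtain ⟨c, hc⟩ := g1c_exists_ofAdd (Additive.toMul χ).2.1
    have hc' : ds_ParTriv c := g1c_ofAdd_mem_X1.1 (by rw [hc]; exact (Additive.toMul χ).2)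
    exact ⟨⟨c, hc'⟩, Additive.toMul.injective (Subtype.ext hc)⟩

variable (M n) in
/-- **the additive dictionary**: parabolic-trivial classes `Γ₁(M) → ZMod n` are the characters in
`g1c_X1 M n`, through `c ↦ ζ^c` -/
def g1c_addEquiv : ↥(g1c_ParTriv M (ZMod n)) ≃+ Additive ↥(g1c_X1 M n) :=
  AddEquiv.ofBijective (g1c_addHom M n) g1c_addHom_bijective

theorem g1c_addEquiv_coe (c : ↥(g1c_ParTriv M (ZMod n))) :
    ((Additive.toMul (g1c_addEquiv M n c) : ↥(g1c_X1 M n)) : ↥(Gamma1 M) →* ℂˣ) =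
      g1c_ofAdd (c : Additive ↥(Gamma1 M) →+ ZMod n) := rfl

/-! ### Compatibility with the operators -/

variable {p : ℕ} [Fact p.Prime] [NeZero M]

theorem g1c_T_ofAdd (hpM : ¬ p ∣ M) (c : Additive ↥(Gamma1 M) →+ ZMod n) :
    g1t_T hpM (g1c_ofAdd c) = g1c_ofAdd (g1t_Tadd hpM c) := by
  rw [g1c_ofAdd, g1t_T_comp, g1c_ofAdd, g1t_toMul_Tadd]

theorem g1c_diam_ofAdd (d : (ZMod M)ˣ) (c : Additive ↥(Gamma1 M) →+ ZMod n) :
    g1t_diam d (g1c_ofAdd c) = g1c_ofAdd (g1t_diamAdd d c) := rfl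

end additive

/-- the inclusions for `Γ = g1f_G M M` -/
theorem g1c_Gamma1_le_G (M : ℕ) : Gamma1 M ≤ g1f_G M M := by
  rw [g1f_G_self]
  exact g1f_Gamma1_le_Gpm M

theorem g1c_G_le_Gpm (M : ℕ) : g1f_G M M ≤ g1f_Gpm M := g1f_G_le_Gpm M M

end Fermat.Agent.DS
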