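/-
DS-T / cell [G1]: FROM A MOD-`ℓ` EIGENCLASS `c ∈ Hom(Γ₁(M), k)` TO AN EIGENVECTOR IN `k ⊗ Pic⁰[ℓ]`.

`V` is any `ZMod ℓ`-module with an additive equivalence `E : V ≃+ Additive (g1g_X Γ ℓ)` (the gateway
`g1g_picEquiv` / `g1dd_picEquiv` at `n = ℓ`, `V = Pic0.torsion Q̄ F̄ ℓ`), `Γ₁(M) ≤ Γ ≤ ±Γ₁(M)`, `5 ≤ M`.

* `g1bc_ev hM h1 h2 E : V →ₗ[ZMod ℓ] (Additive (Gamma1 M) →+ ZMod ℓ)`, the class of a torsion point
  (`g1bc_ofAdd_ev : ζ^(ev v) = res (E v)`), injective, with image the parabolic-trivial classes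
  (`g1bc_ev_parTriv`, `g1bc_ev_surj`);
* `g1bc_ev_TS`, `g1bc_ev_conjOp`: Hecke / diamond equivariance in the additive form, from the
  conclusions of `g1c_picEquiv_hecke`, `g1c_picEquiv_diamond`;
* **`g1bc_exists_eigenline`**: a nonzero parabolic-trivial class `c : Γ₁(M) → k` (`k ⊇ 𝔽_ℓ`) with
  `T_p c = a_p c`, `⟨d⟩ c = ψ(d) c` gives `w ≠ 0` in `k ⊗[ZMod ℓ] V` with
  `(1 ⊗ T) w = a_p ψ(e/p) w` for every operator `T` of `V` corresponding to `g1t_TS hpM hs`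
  (`hs : g1t_Adm hpM s e`) and `(1 ⊗ D) w = ψ(χ(σ)) w` for every operator `D` of `V`
  corresponding to `g1t_conjOp σ`.
Prefix `g1bc_`.
-/
import Mathlib
import Fermat.Agent.DS.Gam1.Gen.CharDict
import Fermat.Agent.DS.HeckeG1.EigenBC
import Fermat.Agent.DS.HeckeG1.Ab

set_option autoImplicit false
set_option linter.unusedSectionVars false

noncomputable section

open CongruenceSubgroup TensorProduct
open scoped MatrixGroups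

namespace Fermat.Agent.DS

variable {M : ℕ} {Γ : Subgroup SL(2, ℤ)} {ℓ : ℕ} [NeZero ℓ]
  {V : Type*} [AddCommGroup V] [Module (ZMod ℓ) V]

/-- the class of a torsion point, additive form -/
def g1bc_evAdd (hM : 5 ≤ M) (h1 : Gamma1 M ≤ Γ) (h2 : Γ ≤ g1f_Gpm M)
    (E : V ≃+ Additive ↥(g1g_X Γ ℓ)) : V →+ (Additive ↥(Gamma1 M) →+ ZMod ℓ) :=
  (g1c_ParTriv M (ZMod ℓ)).subtype.comp
    (((E.trans (MulEquiv.toAdditive (g1c_resEquiv hM h1 h2 ℓ))).trans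
      (g1c_addEquiv M ℓ).symm).toAddMonoidHom)

/-- **the class of a torsion point** `V → Hom(Γ₁(M), ZMod ℓ)` -/
def g1bc_ev (hM : 5 ≤ M) (h1 : Gamma1 M ≤ Γ) (h2 : Γ ≤ g1f_Gpm M)
    (E : V ≃+ Additive ↥(g1g_X Γ ℓ)) : V →ₗ[ZMod ℓ] (Additive ↥(Gamma1 M) →+ ZMod ℓ) :=
  (g1bc_evAdd hM h1 h2 E).toZModLinearMap ℓ

theorem g1bc_ev_apply (hM : 5 ≤ M) (h1 : Gamma1 M ≤ Γ) (h2 : Γ ≤ g1f_Gpm M)
    (E : V ≃+ Additive ↥(g1g_X Γ ℓ)) (v : V) :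
    g1bc_ev hM h1 h2 E v =
      (((g1c_addEquiv M ℓ).symm (Additive.ofMul (g1c_resEquiv hM h1 h2 ℓ (Additive.toMul (E v)))) :
        ↥(g1c_ParTriv M (ZMod ℓ))) : Additive ↥(Gamma1 M) →+ ZMod ℓ) := rfl

/-- `ζ^(ev v) = res (E v)` -/
theorem g1bc_ofAdd_ev (hM : 5 ≤ M) (h1 : Gamma1 M ≤ Γ) (h2 : Γ ≤ g1f_Gpm M)
    (E : V ≃+ Additive ↥(g1g_X Γ ℓ)) (v : V) :
    g1c_ofAdd (g1bc_ev hM h1 h2 E v) =
      g1c_res h1 ((Additive.toMul (E v) : ↥(g1g_X Γ ℓ)) : ↥Γ →* ℂˣ) := by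
  rw [g1bc_ev_apply, ← g1c_addEquiv_coe, AddEquiv.apply_symm_apply]
  rfl

theorem g1bc_ev_parTriv (hM : 5 ≤ M) (h1 : Gamma1 M ≤ Γ) (h2 : Γ ≤ g1f_Gpm M)
    (E : V ≃+ Additive ↥(g1g_X Γ ℓ)) (v : V) : ds_ParTriv (g1bc_ev hM h1 h2 E v) := by
  rw [g1bc_ev_apply]
  exact Subtype.property _

theorem g1bc_ev_injective (hM : 5 ≤ M) (h1 : Gamma1 M ≤ Γ) (h2 : Γ ≤ g1f_Gpm M)
    (E : V ≃+ Additive ↥(g1g_X Γ ℓ)) : Function.Injective (g1bc_ev hM h1 h2 E) := by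
  intro v v' h
  rw [g1bc_ev_apply, g1bc_ev_apply] at h
  have h3 := (g1c_addEquiv M ℓ).symm.injective (Subtype.ext h)
  have h4 := (g1c_resEquiv hM h1 h2 ℓ).injective (Additive.ofMul.injective h3)
  exact E.injective (Additive.toMul.injective h4)

theorem g1bc_ev_surj (hM : 5 ≤ M) (h1 : Gamma1 M ≤ Γ) (h2 : Γ ≤ g1f_Gpm M)
    (E : V ≃+ Additive ↥(g1g_X Γ ℓ)) (φ : Additive ↥(Gamma1 M) →+ ZMod ℓ) (hφ : ds_ParTriv φ) :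
    ∃ v, g1bc_ev hM h1 h2 E v = φ := by
  refine ⟨E.symm (Additive.ofMul ((g1c_resEquiv hM h1 h2 ℓ).symm
    (Additive.toMul (g1c_addEquiv M ℓ ⟨φ, hφ⟩)))), ?_⟩
  rw [g1bc_ev_apply, AddEquiv.apply_symm_apply, toMul_ofMul, MulEquiv.apply_symm_apply, ofMul_toMul,
    AddEquiv.symm_apply_apply]

/-- an equality of characters gives an equality of classes -/
theorem g1bc_ev_eq_of_ofAdd (hM : 5 ≤ M) (h1 : Gamma1 M ≤ Γ) (h2 : Γ ≤ g1f_Gpm M)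
    (E : V ≃+ Additive ↥(g1g_X Γ ℓ)) (v : V) (φ : Additive ↥(Gamma1 M) →+ ZMod ℓ)
    (h : g1c_res h1 ((Additive.toMul (E v) : ↥(g1g_X Γ ℓ)) : ↥Γ →* ℂˣ) = g1c_ofAdd φ) :
    g1bc_ev hM h1 h2 E v = φ :=
  g1c_ofAdd_injective ((g1bc_ofAdd_ev hM h1 h2 E v).trans h)

variable [NeZero M]

/-- **Hecke equivariance, additive form** -/
theorem g1bc_ev_TS (hM : 5 ≤ M) (h1 : Gamma1 M ≤ Γ) (h2 : Γ ≤ g1f_Gpm M)
    (E : V ≃+ Additive ↥(g1g_X Γ ℓ)) {p : ℕ} [Fact p.Prime] (hpM : ¬ p ∣ M)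
    {s : OnePoint (ZMod p) → Gamma0 M} {e : (ZMod M)ˣ} (hs : g1t_Adm hpM s e) (v v' : V)
    (h : g1c_res h1 ((Additive.toMul (E v') : ↥(g1g_X Γ ℓ)) : ↥Γ →* ℂˣ) =
      g1t_TS hpM hs (g1c_res h1 ((Additive.toMul (E v) : ↥(g1g_X Γ ℓ)) : ↥Γ →* ℂˣ))) :
    g1bc_ev hM h1 h2 E v' =
      g1t_Tadd hpM (g1t_diamAdd (e * (g1t_pU hpM)⁻¹) (g1bc_ev hM h1 h2 E v)) := by
  apply g1bc_ev_eq_of_ofAdd
  rw [h, g1t_TS_eq_T, ← g1bc_ofAdd_ev hM h1 h2 E v, g1c_diam_ofAdd, g1c_T_ofAdd]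

/-- **diamond equivariance, additive form** -/
theorem g1bc_ev_conjOp (hM : 5 ≤ M) (h1 : Gamma1 M ≤ Γ) (h2 : Γ ≤ g1f_Gpm M)
    (E : V ≃+ Additive ↥(g1g_X Γ ℓ)) (σ : Gamma0 M) (v v' : V)
    (h : g1c_res h1 ((Additive.toMul (E v') : ↥(g1g_X Γ ℓ)) : ↥Γ →* ℂˣ) =
      g1t_conjOp σ (g1c_res h1 ((Additive.toMul (E v) : ↥(g1g_X Γ ℓ)) : ↥Γ →* ℂˣ))) :
    g1bc_ev hM h1 h2 E v' = g1t_diamAdd (g1t_chi M σ) (g1bc_ev hM h1 h2 E v) := by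
  apply g1bc_ev_eq_of_ofAdd
  rw [h, ← g1t_diam_eq (g1t_chi M σ) σ rfl, ← g1bc_ofAdd_ev hM h1 h2 E v, g1c_diam_ofAdd]

/-! ### Naturality of the operators in the coefficients -/

section nat

variable [Fact ℓ.Prime] {k : Type*} [Field k] [Algebra (ZMod ℓ) k] {p : ℕ} [Fact p.Prime]

theorem g1bc_smul_eq_comp (x : k) (ψ : Additive ↥(Gamma1 M) →+ k) :
    x • ψ = (AddMonoidHom.mulLeft x).comp ψ := rfl

theorem g1bc_Tadd_nat (hpM : ¬ p ∣ M) (x : k) (φ : Additive ↥(Gamma1 M) →+ ZMod ℓ) :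
    g1t_Tadd hpM (x • (g1bc_iota (ZMod ℓ) k).comp φ) =
      x • (g1bc_iota (ZMod ℓ) k).comp (g1t_Tadd hpM φ) := by
  rw [g1bc_smul_eq_comp, g1t_Tadd_comp, g1t_Tadd_comp, ← g1bc_smul_eq_comp]

theorem g1bc_Tadd_smul (hpM : ¬ p ∣ M) (x : k) (ψ : Additive ↥(Gamma1 M) →+ k) :
    g1t_Tadd hpM (x • ψ) = x • g1t_Tadd hpM ψ := by
  rw [g1bc_smul_eq_comp, g1t_Tadd_comp, ← g1bc_smul_eq_comp]

theorem g1bc_diamAdd_nat (d : (ZMod M)ˣ) (x : k) (φ : Additive ↥(Gamma1 M) →+ ZMod ℓ) :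
    g1t_diamAdd d (x • (g1bc_iota (ZMod ℓ) k).comp φ) =
      x • (g1bc_iota (ZMod ℓ) k).comp (g1t_diamAdd d φ) := rfl

end nat

/-! ### The eigenline -/

/-- **from the eigenclass to an eigenvector of `k ⊗ V`** -/
theorem g1bc_exists_eigenline [Fact ℓ.Prime] {k : Type*} [Field k] [Algebra (ZMod ℓ) k]
    (hM : 5 ≤ M) (h1 : Gamma1 M ≤ Γ) (h2 : Γ ≤ g1f_Gpm M) (E : V ≃+ Additive ↥(g1g_X Γ ℓ))
    -- the Hecke operators of `V`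
    (TV : ∀ (p : ℕ) [Fact p.Prime], ¬ p ∣ M → (V →+ V))
    (s : ∀ (p : ℕ) [Fact p.Prime], ¬ p ∣ M → OnePoint (ZMod p) → Gamma0 M)
    (e : ∀ (p : ℕ) [Fact p.Prime], ¬ p ∣ M → (ZMod M)ˣ)
    (hs : ∀ (p : ℕ) [Fact p.Prime] (hpM : ¬ p ∣ M), g1t_Adm hpM (s p hpM) (e p hpM))
    (hTV : ∀ (p : ℕ) [Fact p.Prime] (hpM : ¬ p ∣ M) (v : V),
      g1c_res h1 ((Additive.toMul (E (TV p hpM v)) : ↥(g1g_X Γ ℓ)) : ↥Γ →* ℂˣ) =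
        g1t_TS hpM (hs p hpM)
          (g1c_res h1 ((Additive.toMul (E v) : ↥(g1g_X Γ ℓ)) : ↥Γ →* ℂˣ)))
    -- the diamond operators of `V`
    {J : Type*} (σJ : J → Gamma0 M) (DV : J → (V →+ V))
    (hDV : ∀ (j : J) (v : V),
      g1c_res h1 ((Additive.toMul (E (DV j v)) : ↥(g1g_X Γ ℓ)) : ↥Γ →* ℂˣ) =
        g1t_conjOp (σJ j)
          (g1c_res h1 ((Additive.toMul (E v) : ↥(g1g_X Γ ℓ)) : ↥Γ →* ℂˣ)))
    -- the eigenclass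
    (c : Additive ↥(Gamma1 M) →+ k) (hc : c ≠ 0) (hpar : ds_ParTriv c)
    (a : ℕ → k) (ψ : (ZMod M)ˣ →* kˣ)
    (hT : ∀ (p : ℕ) [Fact p.Prime] (hpM : ¬ p ∣ M), g1t_Tadd hpM c = a p • c)
    (hD : ∀ d : (ZMod M)ˣ, g1t_diamAdd d c = (ψ d : k) • c) :
    ∃ w : k ⊗[ZMod ℓ] V, w ≠ 0 ∧
      (∀ (p : ℕ) [Fact p.Prime] (hpM : ¬ p ∣ M),
        ((TV p hpM).toZModLinearMap ℓ).baseChange k w =
          (a p * (ψ (e p hpM * (g1t_pU hpM)⁻¹) : k)) • w) ∧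
      (∀ j : J, ((DV j).toZModLinearMap ℓ).baseChange k w =
          ((ψ (g1t_chi M (σJ j)) : kˣ) : k) • w) := by
  have : Group.FG ↥(Gamma1 M) := g1h_fg_Gamma1 M
  -- the index set: good primes, and `J`
  let I : Type := {p : ℕ // p.Prime ∧ ¬ p ∣ M}
  let TVι : I ⊕ J → (V →ₗ[ZMod ℓ] V) := fun i =>
    match i with
    | Sum.inl q => haveI : Fact (q : ℕ).Prime := ⟨q.2.1⟩; (TV q q.2.2).toZModLinearMap ℓ
    | Sum.inr j => (DV j).toZModLinearMap ℓ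
  let τF : I ⊕ J → (Additive ↥(Gamma1 M) →+ ZMod ℓ) → (Additive ↥(Gamma1 M) →+ ZMod ℓ) :=
    fun i =>
    match i with
    | Sum.inl q => haveI : Fact (q : ℕ).Prime := ⟨q.2.1⟩
      fun φ => g1t_Tadd q.2.2 (g1t_diamAdd (e q q.2.2 * (g1t_pU q.2.2)⁻¹) φ)
    | Sum.inr j => fun φ => g1t_diamAdd (g1t_chi M (σJ j)) φ
  let τk : I ⊕ J → (Additive ↥(Gamma1 M) →+ k) →+ (Additive ↥(Gamma1 M) →+ k) := fun i =>
    match i with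
    | Sum.inl q => haveI : Fact (q : ℕ).Prime := ⟨q.2.1⟩
      (g1t_Tadd q.2.2).comp (g1t_diamAdd (e q q.2.2 * (g1t_pU q.2.2)⁻¹))
    | Sum.inr j => g1t_diamAdd (g1t_chi M (σJ j))
  let aι : I ⊕ J → k := fun i =>
    match i with
    | Sum.inl q => haveI : Fact (q : ℕ).Prime := ⟨q.2.1⟩
      a q * (ψ (e q q.2.2 * (g1t_pU q.2.2)⁻¹) : k)
    | Sum.inr j => ((ψ (g1t_chi M (σJ j)) : kˣ) : k)
  obtain ⟨w, hw0, hw⟩ := g1bc_exists_eigen (F := ZMod ℓ) (k := k) (g1bc_ev hM h1 h2 E)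
    (g1bc_ev_injective hM h1 h2 E)
    {γ : ↥(Gamma1 M) | ((γ : SL(2, ℤ)) : Matrix (Fin 2) (Fin 2) ℤ).trace = 2}
    (fun φ hφ => g1bc_ev_surj hM h1 h2 E φ hφ) TVι τF τk
    (by
      rintro (q | j) v
      · have : Fact (q : ℕ).Prime := ⟨q.2.1⟩
        exact g1bc_ev_TS hM h1 h2 E q.2.2 (hs q q.2.2) v _ (hTV q q.2.2 v)
      · exact g1bc_ev_conjOp hM h1 h2 E (σJ j) v _ (hDV j v))
    (by
      rintro (q | j) x φ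
      · have : Fact (q : ℕ).Prime := ⟨q.2.1⟩
        show g1t_Tadd q.2.2 (g1t_diamAdd _ (x • (g1bc_iota (ZMod ℓ) k).comp φ)) = _
        rw [g1bc_diamAdd_nat, g1bc_Tadd_nat]
      · exact g1bc_diamAdd_nat _ x φ)
    c hc hpar aι
    (by
      rintro (q | j)
      · have : Fact (q : ℕ).Prime := ⟨q.2.1⟩
        show g1t_Tadd q.2.2 (g1t_diamAdd _ c) = _
        rw [hD, g1bc_Tadd_smul, hT, smul_smul, mul_comm]
      · exact hD _)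
  refine ⟨w, hw0, fun p _ hpM => ?_, fun j => hw (Sum.inr j)⟩
  exact hw (Sum.inl ⟨p, Fact.out, hpM⟩)

end Fermat.Agent.DS
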